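import Mathlib

/-!
# Case I of Fermat's Last Theorem for `p = 5, 7, 11, 13` (Sophie Germain)

If `p` is an odd prime and `q` is an auxiliary prime such that
* `r^p + s^p + t^p = 0` in `ZMod q` forces `r s t = 0`, and
* `p` is not a `p`-th power in `ZMod q`,
then `a^p + b^p = c^p` with `a, b` coprime forces `p ∣ a b c`.
We apply this with `(p, q) = (5, 11), (7, 29), (11, 23), (13, 53)`.
-/

set_option autoImplicit false

namespace Fermat.Agent.Kummer

open Finset

/-- `w - y ∣ ∑_{i<n} y^i w^(n-1-i) - n y^(n-1)`. -/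
theorem caseI_sub_dvd_geom_sub (y w : ℤ) (n : ℕ) :
    w - y ∣ (∑ i ∈ range n, y ^ i * w ^ (n - 1 - i)) - n * y ^ (n - 1) := by
  have key : (∑ i ∈ range n, y ^ i * w ^ (n - 1 - i)) - n * y ^ (n - 1)
      = ∑ i ∈ range n, y ^ i * (w ^ (n - 1 - i) - y ^ (n - 1 - i)) := by
    have h1 : ∑ i ∈ range n, y ^ i * y ^ (n - 1 - i) = n * y ^ (n - 1) := by
      have h2 : ∀ i ∈ range n, y ^ i * y ^ (n - 1 - i) = y ^ (n - 1) := by
        intro i hi
        rw [← pow_add]
        congr 1
        have := mem_range.mp hi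
        omega
      rw [sum_congr rfl h2, sum_const, card_range, nsmul_eq_mul]
    rw [← h1, ← sum_sub_distrib]
    apply sum_congr rfl
    intro i _
    ring
  rw [key]
  exact dvd_sum fun i _ => Dvd.dvd.mul_left (sub_dvd_pow_sub_pow w y _) _

/-- The two factors of `y^p + z^p` are `p`-th powers. -/
theorem caseI_factor {p : ℕ} (hp : p.Prime) (hodd : Odd p) {x y z : ℤ} (hyz : IsCoprime y z)
    (h : x ^ p + y ^ p + z ^ p = 0) (hpx : ¬ (p : ℤ) ∣ x) :
    ∃ A T : ℤ, y + z = A ^ p ∧ (∑ i ∈ range p, y ^ i * (-z) ^ (p - 1 - i)) = T ^ p := by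
  have hpZ : Prime (p : ℤ) := Nat.prime_iff_prime_int.mp hp
  set S := ∑ i ∈ range p, y ^ i * (-z) ^ (p - 1 - i) with hS
  have hmul : (y + z) * S = (-x) ^ p := by
    have h1 := geom_sum₂_mul y (-z) p
    rw [hodd.neg_pow] at h1 ⊢
    linear_combination h1 + h
  have hdvd : (y + z) ∣ S - p * y ^ (p - 1) := by
    have h1 := caseI_sub_dvd_geom_sub y (-z) p
    rwa [show -z - y = -(y + z) by ring, neg_dvd] at h1
  have hx0 : x ≠ 0 := by
    rintro rfl
    exact hpx (dvd_zero _)
  have hcop : IsCoprime (y + z) S := by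
    apply isCoprime_of_prime_dvd
    · rintro ⟨h1, -⟩
      rw [h1, zero_mul] at hmul
      exact hx0 (neg_eq_zero.mp (pow_eq_zero_iff hp.ne_zero |>.mp hmul.symm))
    · intro r hr hr1 hr2
      have h3 : r ∣ (p : ℤ) * y ^ (p - 1) := by
        have h4 := dvd_sub hr2 (hr1.trans hdvd)
        rwa [sub_sub_cancel] at h4
      rcases hr.dvd_or_dvd h3 with h4 | h4
      · have hrx : r ∣ x := by
          have h5 : r ∣ (-x) ^ p := by rw [← hmul]; exact Dvd.dvd.mul_right hr1 S
          exact (dvd_neg).mp (hr.dvd_of_dvd_pow h5)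
        have hpr : (p : ℤ) ∣ r := by
          obtain ⟨s, hs⟩ := h4
          rcases hpZ.irreducible.isUnit_or_isUnit hs with h6 | h6
          · exact absurd h6 hr.not_isUnit
          · have hss : s * s = 1 := by
              rcases Int.isUnit_iff.mp h6 with rfl | rfl <;> norm_num
            exact ⟨s, by rw [hs, mul_assoc, hss, mul_one]⟩
        exact hpx (hpr.trans hrx)
      · have hry : r ∣ y := hr.dvd_of_dvd_pow h4
        have hrz : r ∣ z := by
          have := dvd_sub hr1 hry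
          rwa [add_sub_cancel_left] at this
        exact hr.not_isUnit (hyz.isUnit_of_dvd' hry hrz)
  obtain ⟨A, hA⟩ := Int.eq_pow_of_mul_eq_pow_odd_left hcop hodd hmul
  obtain ⟨T, hT⟩ := Int.eq_pow_of_mul_eq_pow_odd_right hcop hodd hmul
  exact ⟨A, T, hA, hT⟩

/-- A prime `q` cannot divide two coprime integers. -/
theorem caseI_not_both {q : ℕ} [Fact q.Prime] {x y : ℤ} (hxy : IsCoprime x y)
    (hx : (x : ZMod q) = 0) (hy : (y : ZMod q) = 0) : False := by
  have h1 : (q : ℤ) ∣ x := (ZMod.intCast_zmod_eq_zero_iff_dvd x q).mp hx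
  have h2 : (q : ℤ) ∣ y := (ZMod.intCast_zmod_eq_zero_iff_dvd y q).mp hy
  have h3 : IsUnit (q : ℤ) := hxy.isUnit_of_dvd' h1 h2
  have h4 : q = 1 := by
    have := Int.isUnit_iff.mp h3
    omega
  exact (Fact.out : q.Prime).one_lt.ne' h4

/-- Sophie Germain's argument when the auxiliary prime divides `x`. -/
theorem caseI_core {p q : ℕ} [Fact q.Prime] (hp : p.Prime) (hodd : Odd p)
    (h1 : ∀ r s t : ZMod q, r ^ p + s ^ p + t ^ p = 0 → r = 0 ∨ s = 0 ∨ t = 0)
    (h2 : ∀ t : ZMod q, t ^ p ≠ (p : ZMod q))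
    {x y z : ℤ} (hxy : IsCoprime x y) (hyz : IsCoprime y z) (hxz : IsCoprime x z)
    (h : x ^ p + y ^ p + z ^ p = 0) (hpx : ¬ (p : ℤ) ∣ x) (hpy : ¬ (p : ℤ) ∣ y)
    (hpz : ¬ (p : ℤ) ∣ z) (hqx : (x : ZMod q) = 0) : False := by
  obtain ⟨A, T, hA, hT⟩ := caseI_factor hp hodd hyz h hpx
  obtain ⟨B, -, hB, -⟩ := caseI_factor hp hodd hxy (x := z) (by linear_combination h) hpz
  obtain ⟨C, -, hC, -⟩ := caseI_factor hp hodd hxz (x := y) (by linear_combination h) hpy
  have hsum : (B : ZMod q) ^ p + (C : ZMod q) ^ p + (-(A : ZMod q)) ^ p = 0 := by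
    have h3 : B ^ p + C ^ p + (-A) ^ p = 2 * x := by
      rw [hodd.neg_pow, ← hA, ← hB, ← hC]; ring
    have h4 := congrArg (Int.cast : ℤ → ZMod q) h3
    push_cast at h4
    rw [h4, hqx, mul_zero]
  have hB' : (x : ZMod q) + (y : ZMod q) = (B : ZMod q) ^ p := by
    have h3 := congrArg (Int.cast : ℤ → ZMod q) hB
    push_cast at h3
    exact h3
  have hC' : (x : ZMod q) + (z : ZMod q) = (C : ZMod q) ^ p := by
    have h3 := congrArg (Int.cast : ℤ → ZMod q) hC
    push_cast at h3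
    exact h3
  have hA' : (y : ZMod q) + (z : ZMod q) = (A : ZMod q) ^ p := by
    have h3 := congrArg (Int.cast : ℤ → ZMod q) hA
    push_cast at h3
    exact h3
  have hB0 : (B : ZMod q) ≠ 0 := by
    intro hB0
    rw [hqx, hB0, zero_add, zero_pow hp.ne_zero] at hB'
    exact caseI_not_both hxy hqx hB'
  have hC0 : (C : ZMod q) ≠ 0 := by
    intro hC0
    rw [hqx, hC0, zero_add, zero_pow hp.ne_zero] at hC'
    exact caseI_not_both hxz hqx hC'
  rcases h1 _ _ _ hsum with h3 | h3 | h3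
  · exact hB0 h3
  · exact hC0 h3
  · have hA0 : (A : ZMod q) = 0 := neg_eq_zero.mp h3
    rw [hA0, zero_pow hp.ne_zero] at hA'
    have hS : (T : ZMod q) ^ p = p * (y : ZMod q) ^ (p - 1) := by
      have hd := caseI_sub_dvd_geom_sub y (-z) p
      rw [hT] at hd
      obtain ⟨k, hk⟩ := hd
      have h4 := congrArg (Int.cast : ℤ → ZMod q) hk
      push_cast at h4
      have h0 : (-(z : ZMod q) - (y : ZMod q)) = 0 := by linear_combination -hA'
      rw [h0, zero_mul] at h4
      exact sub_eq_zero.mp h4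
    have hyB : (y : ZMod q) = (B : ZMod q) ^ p := by
      rw [hqx, zero_add] at hB'
      exact hB'
    apply h2 ((T : ZMod q) * ((B : ZMod q) ^ (p - 1))⁻¹)
    rw [mul_pow, hS, hyB, inv_pow, ← pow_mul, ← pow_mul, mul_comm p (p - 1)]
    exact mul_inv_cancel_right₀ (pow_ne_zero _ hB0) _

/-- Sophie Germain's theorem with auxiliary prime `q`. -/
theorem caseI_aux {p q : ℕ} [Fact q.Prime] (hp : p.Prime) (hodd : Odd p)
    (h1 : ∀ r s t : ZMod q, r ^ p + s ^ p + t ^ p = 0 → r = 0 ∨ s = 0 ∨ t = 0)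
    (h2 : ∀ t : ZMod q, t ^ p ≠ (p : ZMod q))
    (a b c : ℤ) (hgcd : IsCoprime a b) (h : a ^ p + b ^ p = c ^ p) : (p : ℤ) ∣ a * b * c := by
  by_contra hn
  have hpa : ¬ (p : ℤ) ∣ a := fun h' => hn (Dvd.dvd.mul_right (Dvd.dvd.mul_right h' b) c)
  have hpb : ¬ (p : ℤ) ∣ b := fun h' => hn (Dvd.dvd.mul_right (Dvd.dvd.mul_left h' a) c)
  have hpc : ¬ (p : ℤ) ∣ c := fun h' => hn (Dvd.dvd.mul_left h' (a * b))
  have hpc' : ¬ (p : ℤ) ∣ -c := by rwa [dvd_neg]
  have h0 : a ^ p + b ^ p + (-c) ^ p = 0 := by rw [hodd.neg_pow]; linear_combination h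
  have hbb : b ^ p = b * b ^ (p - 1) := by
    rw [← pow_succ', Nat.sub_add_cancel hp.one_le]
  have haa : a ^ p = a * a ^ (p - 1) := by
    rw [← pow_succ', Nat.sub_add_cancel hp.one_le]
  have hbc : IsCoprime b c := by
    have h3 : IsCoprime b (c ^ p) := by
      rw [← h, hbb]
      exact (hgcd.symm.pow_right).add_mul_left_right _
    exact (IsCoprime.pow_right_iff hp.pos).mp h3
  have hac : IsCoprime a c := by
    have h3 : IsCoprime a (c ^ p) := by
      rw [← h, haa, add_comm]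
      exact (hgcd.pow_right).add_mul_left_right _
    exact (IsCoprime.pow_right_iff hp.pos).mp h3
  have hbc' : IsCoprime b (-c) := hbc.neg_right
  have hac' : IsCoprime a (-c) := hac.neg_right
  have hq := h1 (a : ZMod q) (b : ZMod q) ((-c : ℤ) : ZMod q) (by
    have h3 := congrArg (Int.cast : ℤ → ZMod q) h0
    push_cast at h3 ⊢
    exact h3)
  rcases hq with hq | hq | hq
  · exact caseI_core hp hodd h1 h2 hgcd hbc' hac' h0 hpa hpb hpc' hq
  · exact caseI_core hp hodd h1 h2 hgcd.symm hac' hbc' (by linear_combination h0) hpb hpa hpc' hq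
  · exact caseI_core hp hodd h1 h2 hac'.symm hgcd hbc'.symm (by linear_combination h0)
      hpc' hpa hpb hq

/-- First Sophie Germain condition from the list of `k`-th roots of unity (`q = k p + 1`). -/
theorem caseI_cond1 {p q k : ℕ} [Fact q.Prime] (hq : q = k * p + 1) (R : Finset (ZMod q))
    (hR : ∀ u : ZMod q, u ^ k = 1 → u ∈ R)
    (hsum : ∀ u ∈ R, ∀ v ∈ R, ∀ w ∈ R, u + v + w ≠ 0) :
    ∀ r s t : ZMod q, r ^ p + s ^ p + t ^ p = 0 → r = 0 ∨ s = 0 ∨ t = 0 := by
  intro r s t h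
  by_contra hn
  push Not at hn
  obtain ⟨hr, hs, ht⟩ := hn
  have key : ∀ u : ZMod q, u ≠ 0 → u ^ p ∈ R := by
    intro u hu
    apply hR
    rw [← pow_mul, mul_comm]
    have hq' : q - 1 = k * p := by omega
    have := ZMod.pow_card_sub_one_eq_one hu
    rwa [hq'] at this
  exact hsum _ (key r hr) _ (key s hs) _ (key t ht) h

/-- Second Sophie Germain condition (`q = k p + 1`). -/
theorem caseI_cond2 {p q k : ℕ} [Fact q.Prime] (hq : q = k * p + 1)
    (hp0 : (p : ZMod q) ≠ 0) (hpk : (p : ZMod q) ^ k ≠ 1) :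
    ∀ t : ZMod q, t ^ p ≠ (p : ZMod q) := by
  intro t ht
  by_cases h0 : t = 0
  · have hp : p ≠ 0 := by
      rintro rfl
      simp at hp0
    rw [h0, zero_pow hp] at ht
    exact hp0 ht.symm
  · apply hpk
    rw [← ht, ← pow_mul, mul_comm]
    have hq' : q - 1 = k * p := by omega
    have := ZMod.pow_card_sub_one_eq_one h0
    rwa [hq'] at this

theorem caseI_prime11 : Fact (Nat.Prime 11) := ⟨by norm_num⟩
theorem caseI_prime23 : Fact (Nat.Prime 23) := ⟨by norm_num⟩
theorem caseI_prime29 : Fact (Nat.Prime 29) := ⟨by norm_num⟩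
theorem caseI_prime53 : Fact (Nat.Prime 53) := ⟨by norm_num⟩

/-- **Case I** of Fermat's Last Theorem for the exponents `5, 7, 11, 13`. -/
theorem caseI (p : ℕ) (hp : p = 5 ∨ p = 7 ∨ p = 11 ∨ p = 13) (a b c : ℤ) (hgcd : IsCoprime a b)
    (h : a ^ p + b ^ p = c ^ p) : (p : ℤ) ∣ a * b * c := by
  rcases hp with rfl | rfl | rfl | rfl
  · exact @caseI_aux 5 11 caseI_prime11 (by norm_num) (by decide)
      (@caseI_cond1 5 11 2 caseI_prime11 (by norm_num) {1, -1} (by decide +kernel)
        (by decide +kernel))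
      (@caseI_cond2 5 11 2 caseI_prime11 (by norm_num) (by decide) (by decide)) a b c hgcd h
  · exact @caseI_aux 7 29 caseI_prime29 (by norm_num) (by decide)
      (@caseI_cond1 7 29 4 caseI_prime29 (by norm_num) {1, -1, 12, -12} (by decide +kernel)
        (by decide +kernel))
      (@caseI_cond2 7 29 4 caseI_prime29 (by norm_num) (by decide) (by decide)) a b c hgcd h
  · exact @caseI_aux 11 23 caseI_prime23 (by norm_num) (by decide)
      (@caseI_cond1 11 23 2 caseI_prime23 (by norm_num) {1, -1} (by decide +kernel)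
        (by decide +kernel))
      (@caseI_cond2 11 23 2 caseI_prime23 (by norm_num) (by decide) (by decide)) a b c hgcd h
  · exact @caseI_aux 13 53 caseI_prime53 (by norm_num) (by decide)
      (@caseI_cond1 13 53 4 caseI_prime53 (by norm_num) {1, -1, 23, -23} (by decide +kernel)
        (by decide +kernel))
      (@caseI_cond2 13 53 4 caseI_prime53 (by norm_num) (by decide) (by decide)) a b c hgcd h

end Fermat.Agent.Kummer
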