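import Mathlib

/-!
# Kummer descent (case II of Fermat's Last Theorem for regular primes, PID version)
-/

set_option autoImplicit false

namespace Fermat.Agent.Kummer

open NumberField Polynomial Finset

section Toolbox

variable {p : ℕ} [hp : Fact p.Prime] {K : Type*} [Field K] [NumberField K]
  [hK : IsCyclotomicExtension {p} ℚ K] {ζ : K} (hζ : IsPrimitiveRoot ζ p)

include hK in
theorem caseII_pi_prime : Prime (hζ.toInteger - 1) := hζ.zeta_sub_one_prime'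

include hK in
theorem caseII_pi_dvd_intCast_iff {n : ℤ} : hζ.toInteger - 1 ∣ (n : 𝓞 K) ↔ (p : ℤ) ∣ n :=
  IsCyclotomicExtension.Rat.zeta_sub_one_dvd_intCast_iff' p hζ

omit [NumberField K] hK in
theorem caseII_associated_pi_pow_p : Associated ((hζ.toInteger - 1) ^ (p - 1)) (p : 𝓞 K) :=
  IsCyclotomicExtension.Rat.associated_zeta_sub_one_pow_prime p hζ

omit [NumberField K] hK in
theorem caseII_p_dvd_pi_pow : (p : 𝓞 K) ∣ (hζ.toInteger - 1) ^ p := by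
  have h := (caseII_associated_pi_pow_p hζ).symm.dvd
  have hp1 : p = (p - 1) + 1 := by have := hp.out.one_lt; omega
  calc (p : 𝓞 K) ∣ (hζ.toInteger - 1) ^ (p - 1) := h
    _ ∣ (hζ.toInteger - 1) ^ p := pow_dvd_pow _ (by omega)

include hK in
theorem caseII_card_quot :
    Nat.card (𝓞 K ⧸ Ideal.span {hζ.toInteger - 1}) = p := by
  have hK' : IsCyclotomicExtension {p ^ (0 + 1)} ℚ K := by simpa using hK
  have hζ' : IsPrimitiveRoot ζ (p ^ (0 + 1)) := by simpa using hζ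
  have := IsCyclotomicExtension.Rat.absNorm_span_zeta_sub_one p 0 hζ'
  rw [Ideal.absNorm_apply, Submodule.cardQuot_apply] at this
  exact this

include hK in
/-- Every element of `𝓞 K` is congruent to a rational integer modulo `ζ - 1`. -/
theorem caseII_exists_int_dvd_sub (x : 𝓞 K) : ∃ a : ℤ, hζ.toInteger - 1 ∣ x - a := by
  classical
  set I : Ideal (𝓞 K) := Ideal.span {hζ.toInteger - 1} with hI
  have hcard := caseII_card_quot hζ
  have hfin : Finite (𝓞 K ⧸ I) := Nat.finite_of_card_ne_zero (by rw [hcard]; exact hp.out.ne_zero)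
  let f : ZMod p → 𝓞 K ⧸ I := fun a => Ideal.Quotient.mk I ((a.val : 𝓞 K))
  have hinj : Function.Injective f := by
    intro a b hab
    have hab' : Ideal.Quotient.mk I ((a.val : 𝓞 K)) = Ideal.Quotient.mk I ((b.val : 𝓞 K)) := hab
    have h1 : hζ.toInteger - 1 ∣ ((((a.val : ℤ) - (b.val : ℤ) : ℤ)) : 𝓞 K) := by
      rw [← Ideal.mem_span_singleton, ← hI, ← Ideal.Quotient.eq_zero_iff_mem]
      push_cast
      rw [map_sub]
      exact sub_eq_zero.mpr hab'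
    rw [caseII_pi_dvd_intCast_iff hζ] at h1
    have h2 := (ZMod.intCast_zmod_eq_zero_iff_dvd _ p).mpr h1
    push_cast at h2
    simpa [sub_eq_zero] using h2
  have hbij : Function.Bijective f :=
    hinj.bijective_of_nat_card_le (by rw [hcard, Nat.card_zmod])
  obtain ⟨a, ha⟩ := hbij.2 (Ideal.Quotient.mk I x)
  have ha' : Ideal.Quotient.mk I ((a.val : 𝓞 K)) = Ideal.Quotient.mk I x := ha
  refine ⟨(a.val : ℤ), ?_⟩
  rw [← Ideal.mem_span_singleton, ← hI, ← Ideal.Quotient.eq_zero_iff_mem, map_sub]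
  push_cast
  rw [ha', sub_self]

include hK hζ in
/-- `p`-th powers are congruent to rational integers modulo `p`. -/
theorem caseII_exists_int_dvd_pow_sub (w : 𝓞 K) : ∃ a : ℤ, (p : 𝓞 K) ∣ w ^ p - a := by
  obtain ⟨a, t, ht⟩ := caseII_exists_int_dvd_sub hζ w
  have hw : w = (a : 𝓞 K) + (hζ.toInteger - 1) * t := by rw [← ht]; ring
  obtain ⟨r, hr⟩ := exists_add_pow_prime_eq hp.out (a : 𝓞 K) ((hζ.toInteger - 1) * t)
  obtain ⟨c, hc⟩ := caseII_p_dvd_pi_pow hζ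
  refine ⟨a ^ p, c * t ^ p + (a : 𝓞 K) * ((hζ.toInteger - 1) * t) * r, ?_⟩
  rw [hw, hr, mul_pow, hc]
  push_cast
  ring

omit [NumberField K] hK in
/-- `ζ^j - ζ^i` is `ζ - 1` times a unit for `i < j < p`. -/
theorem caseII_exists_unit_sub {i j : ℕ} (hij : i < j) (hj : j < p) :
    ∃ u : (𝓞 K)ˣ, hζ.toInteger ^ j - hζ.toInteger ^ i = (hζ.toInteger - 1) * u := by
  have hcop : (j - i).Coprime p := by
    refine Nat.Coprime.symm ((Nat.Prime.coprime_iff_not_dvd hp.out).mpr ?_)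
    exact Nat.not_dvd_of_pos_of_lt (by omega) (by omega)
  obtain ⟨u, hu⟩ := hζ.toInteger_isPrimitiveRoot.associated_pow_add_sub_sub_one
    hp.out.two_le i hcop
  refine ⟨u, ?_⟩
  rw [hu, Nat.add_sub_cancel' hij.le]

omit [NumberField K] hK in
theorem caseII_isUnit_one_add (hp2 : p ≠ 2) : IsUnit (1 + hζ.toInteger) := by
  have hcop : (2 : ℕ).Coprime p :=
    (Nat.coprime_primes Nat.prime_two hp.out).mpr (Ne.symm hp2)
  have := hζ.toInteger_isPrimitiveRoot.geom_sum_isUnit hp.out.two_le hcop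
  simpa [Finset.sum_range_succ] using this

omit [NumberField K] hK in
theorem caseII_prod_eq (hp2 : p ≠ 2) (x y : 𝓞 K) :
    ∏ i ∈ range p, (x + hζ.toInteger ^ i * y) = x ^ p + y ^ p := by
  classical
  have hodd : Odd p := hp.out.odd_of_ne_two hp2
  have hζ' := hζ.toInteger_isPrimitiveRoot
  rw [hζ'.pow_add_pow_eq_prod_add_mul x y hodd]
  have himg : nthRootsFinset p (1 : 𝓞 K) = (range p).image (fun i => hζ.toInteger ^ i) := by
    symm
    apply Finset.eq_of_subset_of_card_le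
    · intro η hη
      obtain ⟨i, -, rfl⟩ := Finset.mem_image.mp hη
      rw [mem_nthRootsFinset hp.out.pos, ← pow_mul, mul_comm, pow_mul, hζ'.pow_eq_one, one_pow]
    · rw [hζ'.card_nthRootsFinset, Finset.card_image_of_injOn, Finset.card_range]
      intro i hi j hj hij
      exact hζ'.pow_inj (Finset.mem_range.mp hi) (Finset.mem_range.mp hj) hij
  rw [himg, Finset.prod_image]
  intro i hi j hj hij
  exact hζ'.pow_inj (Finset.mem_range.mp hi) (Finset.mem_range.mp hj) hij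

end Toolbox

section General

/-- In a Bézout domain, if a product of pairwise coprime elements is associated to a `k`-th
power, then so is each factor. -/
theorem caseII_exists_associated_pow_of_prod {R : Type*} [CommRing R] [IsDomain R] [IsBezout R]
    {ι : Type*} [DecidableEq ι] (s : Finset ι) (f : ι → R) (c : R) (k : ℕ)
    (hcop : ∀ i ∈ s, ∀ j ∈ s, i ≠ j → IsCoprime (f i) (f j))
    (h : Associated (c ^ k) (∏ i ∈ s, f i)) :
    ∀ i ∈ s, ∃ d : R, Associated (d ^ k) (f i) := by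
  intro i hi
  rw [← Finset.mul_prod_erase s f hi] at h
  refine exists_associated_pow_of_associated_pow_mul ?_ h
  refine IsCoprime.prod_right fun j hj => ?_
  exact hcop i hi j (Finset.mem_of_mem_erase hj) (Finset.ne_of_mem_erase hj).symm

end General

section Descent

variable {p : ℕ} [hp : Fact p.Prime] {K : Type*} [Field K] [NumberField K]
  [hK : IsCyclotomicExtension {p} ℚ K] {ζ : K} (hζ : IsPrimitiveRoot ζ p)

include hK in
/-- All the factors `x + ζ^i y` are divisible by `ζ - 1`. -/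
theorem caseII_pi_dvd_factor (hp2 : p ≠ 2) {x y z : 𝓞 K} {ε : (𝓞 K)ˣ} {m : ℕ} (hm : 1 ≤ m)
    (h : x ^ p + y ^ p = ε * (hζ.toInteger - 1) ^ (p * m) * z ^ p) (i : ℕ) :
    hζ.toInteger - 1 ∣ x + hζ.toInteger ^ i * y := by
  have hπ := caseII_pi_prime hζ
  have hprod := caseII_prod_eq hζ hp2 x y
  have hpm : p * m ≠ 0 := Nat.mul_ne_zero hp.out.ne_zero (by omega)
  have h1 : hζ.toInteger - 1 ∣ ∏ i ∈ range p, (x + hζ.toInteger ^ i * y) := by
    rw [hprod, h]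
    exact Dvd.dvd.mul_right (Dvd.dvd.mul_left (dvd_pow_self _ hpm) _) _
  obtain ⟨i₁, -, hi₁⟩ := (Prime.dvd_finsetProd_iff hπ _).mp h1
  have h2 : ∀ j : ℕ, hζ.toInteger - 1 ∣ hζ.toInteger ^ j - 1 := fun j => by
    simpa using sub_dvd_pow_sub_pow hζ.toInteger 1 j
  have e : x + hζ.toInteger ^ i * y = (x + hζ.toInteger ^ i₁ * y)
      + ((hζ.toInteger ^ i - 1) - (hζ.toInteger ^ i₁ - 1)) * y := by ring
  rw [e]
  exact dvd_add hi₁ (Dvd.dvd.mul_right (dvd_sub (h2 i) (h2 i₁)) _)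

include hK in
/-- Some factor `x + ζ^i y` is divisible by `(ζ - 1)^2`. -/
theorem caseII_exists_sq_dvd {x y : 𝓞 K} (hxy : hζ.toInteger - 1 ∣ x + y)
    (hy : ¬ hζ.toInteger - 1 ∣ y) :
    ∃ i : ℕ, (hζ.toInteger - 1) ^ 2 ∣ x + hζ.toInteger ^ i * y := by
  obtain ⟨s, hs⟩ := hxy
  obtain ⟨a, ha⟩ := caseII_exists_int_dvd_sub hζ s
  obtain ⟨b, hb⟩ := caseII_exists_int_dvd_sub hζ y
  have hpb : ¬ (p : ℤ) ∣ b := by
    intro hpb
    have h1 : hζ.toInteger - 1 ∣ (b : 𝓞 K) := (caseII_pi_dvd_intCast_iff hζ).mpr hpb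
    exact hy (by simpa using dvd_add hb h1)
  have hb0 : ((b : ℤ) : ZMod p) ≠ 0 := by
    rwa [Ne, ZMod.intCast_zmod_eq_zero_iff_dvd]
  set i₀ : ℕ := ((-(a : ZMod p)) * (b : ZMod p)⁻¹).val with hi₀
  have hdiv : (p : ℤ) ∣ a + i₀ * b := by
    rw [← ZMod.intCast_zmod_eq_zero_iff_dvd]
    push_cast
    rw [hi₀, ZMod.natCast_zmod_val]
    field_simp
    ring
  have hdiv' : hζ.toInteger - 1 ∣ ((a + i₀ * b : ℤ) : 𝓞 K) :=
    (caseII_pi_dvd_intCast_iff hζ).mpr hdiv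
  set g : 𝓞 K := ∑ k ∈ range i₀, hζ.toInteger ^ k with hg
  have hg1 : hζ.toInteger ^ i₀ - 1 = (hζ.toInteger - 1) * g := by rw [hg, mul_geom_sum]
  have hg2 : hζ.toInteger - 1 ∣ g - (i₀ : 𝓞 K) := by
    have e : g - (i₀ : 𝓞 K) = ∑ k ∈ range i₀, (hζ.toInteger ^ k - 1) := by
      rw [Finset.sum_sub_distrib, Finset.sum_const, Finset.card_range, nsmul_eq_mul, mul_one]
    rw [e]
    exact Finset.dvd_sum fun k _ => by simpa using sub_dvd_pow_sub_pow hζ.toInteger 1 k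
  refine ⟨i₀, ?_⟩
  have e : x + hζ.toInteger ^ i₀ * y = (hζ.toInteger - 1) * (s + g * y) := by
    have e' : x + hζ.toInteger ^ i₀ * y = (x + y) + (hζ.toInteger ^ i₀ - 1) * y := by ring
    rw [e', hs, hg1]
    ring
  rw [e, pow_two]
  refine mul_dvd_mul_left _ ?_
  have e2 : s + g * y = (s - a) + (g - i₀) * y + i₀ * (y - b) + ((a + i₀ * b : ℤ) : 𝓞 K) := by
    push_cast
    ring
  rw [e2]
  exact dvd_add (dvd_add (dvd_add ha (Dvd.dvd.mul_right hg2 _)) (Dvd.dvd.mul_left hb _)) hdiv'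

include hK in
/-- The quotients `(x + ζ^i y) / (ζ - 1)` are pairwise coprime. -/
theorem caseII_isCoprime_quot {x y : 𝓞 K} (hxy : IsCoprime x y) {i j : ℕ} (hij : i < j)
    (hj : j < p) {ti tj : 𝓞 K} (hti : x + hζ.toInteger ^ i * y = (hζ.toInteger - 1) * ti)
    (htj : x + hζ.toInteger ^ j * y = (hζ.toInteger - 1) * tj) : IsCoprime ti tj := by
  obtain ⟨u, hu⟩ := caseII_exists_unit_sub hζ hij hj
  have hπ0 : hζ.toInteger - 1 ≠ 0 := (caseII_pi_prime hζ).ne_zero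
  have e1 : tj - ti = u * y := by
    apply mul_left_cancel₀ hπ0
    linear_combination hti - htj + y * hu
  have e2 : hζ.toInteger ^ j * ti - hζ.toInteger ^ i * tj = u * x := by
    apply mul_left_cancel₀ hπ0
    linear_combination (-hζ.toInteger ^ j) * hti + hζ.toInteger ^ i * htj + x * hu
  obtain ⟨r, s, hrs⟩ := hxy
  have hu1 : (↑u⁻¹ : 𝓞 K) * u = 1 := by simp
  refine ⟨↑u⁻¹ * (r * hζ.toInteger ^ j - s), ↑u⁻¹ * (s - r * hζ.toInteger ^ i), ?_⟩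
  linear_combination ((↑u⁻¹ : 𝓞 K) * r) * e2 + ((↑u⁻¹ : 𝓞 K) * s) * e1 + (r * x + s * y) * hu1 + hrs

include hK in
/-- The descent step, after normalising so that `(ζ - 1)^2 ∣ x + y`. -/
theorem caseII_step_aux [IsPrincipalIdealRing (𝓞 K)] (hp2 : p ≠ 2)
    (hKL : ∀ (u : (𝓞 K)ˣ) (a : ℤ), (p : 𝓞 K) ∣ (u : 𝓞 K) - a → ∃ v : (𝓞 K)ˣ, u = v ^ p)
    {x y z : 𝓞 K} {ε : (𝓞 K)ˣ} {m : ℕ} (hm : 1 ≤ m) (hy : ¬ hζ.toInteger - 1 ∣ y)
    (hz : ¬ hζ.toInteger - 1 ∣ z) (hxy : IsCoprime x y)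
    (h : x ^ p + y ^ p = ε * (hζ.toInteger - 1) ^ (p * m) * z ^ p)
    (hsq : (hζ.toInteger - 1) ^ 2 ∣ x + y) :
    2 ≤ m ∧ ∃ (x' y' z' : 𝓞 K) (ε' : (𝓞 K)ˣ), ¬ hζ.toInteger - 1 ∣ y' ∧
      ¬ hζ.toInteger - 1 ∣ z' ∧ IsCoprime x' y' ∧
      x' ^ p + y' ^ p = ε' * (hζ.toInteger - 1) ^ (p * (m - 1)) * z' ^ p := by
  classical
  have hπ : Prime (hζ.toInteger - 1) := caseII_pi_prime hζ
  have hπ0 : hζ.toInteger - 1 ≠ 0 := hπ.ne_zero
  have hp0 : p ≠ 0 := hp.out.ne_zero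
  have hp3 : 3 ≤ p := by
    have := hp.out.two_le
    omega
  have hζpow : hζ.toInteger ^ p = 1 := hζ.toInteger_isPrimitiveRoot.pow_eq_one
  -- all factors are divisible by `π`
  have hdiv : ∀ i, hζ.toInteger - 1 ∣ x + hζ.toInteger ^ i * y :=
    caseII_pi_dvd_factor hζ hp2 hm h
  choose t ht using hdiv
  -- `π ∤ t i` for `1 ≤ i < p`
  have ht_ndvd : ∀ i, 1 ≤ i → i < p → ¬ hζ.toInteger - 1 ∣ t i := by
    intro i hi1 hip hdvd
    obtain ⟨u, hu⟩ := caseII_exists_unit_sub hζ (i := 0) (j := i) (by omega) hip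
    rw [pow_zero] at hu
    have h1 : (hζ.toInteger - 1) ^ 2 ∣ x + hζ.toInteger ^ i * y := by
      rw [ht i, pow_two]
      exact mul_dvd_mul_left _ hdvd
    have h2 : (hζ.toInteger - 1) ^ 2 ∣ (hζ.toInteger - 1) * (u * y) := by
      have e : (hζ.toInteger - 1) * (u * y) = (x + hζ.toInteger ^ i * y) - (x + y) := by
        linear_combination (-y) * hu
      rw [e]
      exact dvd_sub h1 hsq
    rw [pow_two] at h2
    have h3 : hζ.toInteger - 1 ∣ u * y := (mul_dvd_mul_iff_left hπ0).mp h2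
    exact hy ((Units.dvd_mul_left).mp h3)
  -- the product of the `t i`
  have hprod : ∏ i ∈ range p, t i = ε * (hζ.toInteger - 1) ^ (p * (m - 1)) * z ^ p := by
    have h1 : ∏ i ∈ range p, (x + hζ.toInteger ^ i * y)
        = (hζ.toInteger - 1) ^ p * ∏ i ∈ range p, t i := by
      rw [Finset.prod_congr rfl fun i _ => ht i, Finset.prod_mul_distrib, Finset.prod_const,
        Finset.card_range]
    rw [caseII_prod_eq hζ hp2, h] at h1
    have hpm : p * m = p + p * (m - 1) := by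
      obtain ⟨m', rfl⟩ : ∃ m', m = m' + 1 := ⟨m - 1, by omega⟩
      simp [Nat.mul_succ, Nat.add_comm]
    rw [hpm, pow_add] at h1
    apply mul_left_cancel₀ (pow_ne_zero p hπ0)
    rw [← h1]
    ring
  have hsplit : ∏ i ∈ range p, t i = t 0 * ∏ i ∈ Ico 1 p, t i := by
    rw [Finset.range_eq_Ico, Finset.prod_eq_prod_Ico_succ_bot hp.out.pos]
  set T := ∏ i ∈ Ico 1 p, t i with hT
  have hT_ndvd : ¬ hζ.toInteger - 1 ∣ T := by
    intro hd
    obtain ⟨i, hi, hdi⟩ := (Prime.dvd_finsetProd_iff hπ _).mp hd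
    rw [Finset.mem_Ico] at hi
    exact ht_ndvd i hi.1 hi.2 hdi
  have ht0 : hζ.toInteger - 1 ∣ t 0 := by
    have h1 : (hζ.toInteger - 1) ^ 2 ∣ (hζ.toInteger - 1) * t 0 := by
      rw [← ht 0]
      simpa using hsq
    rw [pow_two] at h1
    exact (mul_dvd_mul_iff_left hπ0).mp h1
  -- `m ≥ 2`
  have hm2 : 2 ≤ m := by
    by_contra hlt
    have hm1 : m = 1 := by omega
    subst hm1
    have h1 : hζ.toInteger - 1 ∣ ε * (hζ.toInteger - 1) ^ (p * (1 - 1)) * z ^ p := by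
      rw [← hprod, hsplit]
      exact Dvd.dvd.mul_right ht0 _
    simp only [Nat.sub_self, mul_zero, pow_zero, mul_one] at h1
    exact hz (hπ.dvd_of_dvd_pow ((Units.dvd_mul_left).mp h1))
  refine ⟨hm2, ?_⟩
  -- `t 0 = π ^ (p (m - 1)) * A'`
  have hpow_dvd : (hζ.toInteger - 1) ^ (p * (m - 1)) ∣ t 0 := by
    apply hπ.pow_dvd_of_dvd_mul_right _ hT_ndvd
    rw [← hsplit, hprod]
    exact Dvd.dvd.mul_right (Dvd.intro_left _ rfl) _
  obtain ⟨A', hA'⟩ := hpow_dvd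
  have hA'T : A' * T = ε * z ^ p := by
    apply mul_left_cancel₀ (pow_ne_zero (p * (m - 1)) hπ0)
    rw [← mul_assoc, ← hA', ← hsplit, hprod]
    ring
  have hA'_ndvd : ¬ hζ.toInteger - 1 ∣ A' := by
    intro hd
    have h1 : hζ.toInteger - 1 ∣ ε * z ^ p := by
      rw [← hA'T]
      exact Dvd.dvd.mul_right hd _
    exact hz (hπ.dvd_of_dvd_pow ((Units.dvd_mul_left).mp h1))
  -- pairwise coprimality
  have hcop : ∀ i j, i < p → j < p → i ≠ j → IsCoprime (t i) (t j) := by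
    intro i j hi hj hij
    rcases lt_or_gt_of_ne hij with h' | h'
    · exact caseII_isCoprime_quot hζ hxy h' hj (ht i) (ht j)
    · exact (caseII_isCoprime_quot hζ hxy h' hi (ht j) (ht i)).symm
  let f : ℕ → 𝓞 K := fun i => if i = 0 then A' else t i
  have hf0 : f 0 = A' := if_pos rfl
  have hfi : ∀ i, i ≠ 0 → f i = t i := fun i hi => if_neg hi
  have hfprod : ∏ i ∈ range p, f i = A' * T := by
    rw [Finset.range_eq_Ico, Finset.prod_eq_prod_Ico_succ_bot hp.out.pos, hf0]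
    congr 1
    refine Finset.prod_congr rfl fun i hi => hfi i ?_
    rw [Finset.mem_Ico] at hi
    omega
  have hA't0 : A' ∣ t 0 := ⟨(hζ.toInteger - 1) ^ (p * (m - 1)), by rw [hA']; ring⟩
  have hfcop : ∀ i ∈ range p, ∀ j ∈ range p, i ≠ j → IsCoprime (f i) (f j) := by
    intro i hi j hj hij
    rw [Finset.mem_range] at hi hj
    by_cases hi0 : i = 0
    · subst hi0
      rw [hf0, hfi j (Ne.symm hij)]
      exact IsCoprime.of_isCoprime_of_dvd_left (hcop 0 j hi hj hij) hA't0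
    · by_cases hj0 : j = 0
      · subst hj0
        rw [hf0, hfi i hi0]
        exact IsCoprime.of_isCoprime_of_dvd_right (hcop i 0 hi hj hij) hA't0
      · rw [hfi i hi0, hfi j hj0]
        exact hcop i j hi hj hij
  have hassoc : Associated (z ^ p) (∏ i ∈ range p, f i) := by
    rw [hfprod, hA'T]
    exact ⟨ε, by ring⟩
  have hpows := caseII_exists_associated_pow_of_prod (range p) f z p hfcop hassoc
  obtain ⟨ρ₀, η₀, hρ₀⟩ := hpows 0 (Finset.mem_range.mpr hp.out.pos)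
  obtain ⟨ρ₁, η₁, hρ₁⟩ := hpows 1 (Finset.mem_range.mpr hp.out.one_lt)
  obtain ⟨ρ₂, η₂, hρ₂⟩ := hpows (p - 1) (Finset.mem_range.mpr (by omega))
  rw [hf0] at hρ₀
  rw [hfi 1 one_ne_zero] at hρ₁
  rw [hfi (p - 1) (by omega)] at hρ₂
  -- the three-term relation
  have hrel : hζ.toInteger * (x + hζ.toInteger ^ (p - 1) * y) + (x + hζ.toInteger ^ 1 * y)
      = (1 + hζ.toInteger) * (x + hζ.toInteger ^ 0 * y) := by
    have e : hζ.toInteger * hζ.toInteger ^ (p - 1) = 1 := by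
      rw [← pow_succ', Nat.sub_add_cancel hp.out.pos, hζpow]
    linear_combination y * e
  rw [ht (p - 1), ht 1, ht 0, hA', ← hρ₀, ← hρ₁, ← hρ₂] at hrel
  have hrel2 : hζ.toInteger * (ρ₂ ^ p * η₂) + ρ₁ ^ p * η₁
      = (1 + hζ.toInteger) * ((hζ.toInteger - 1) ^ (p * (m - 1)) * (ρ₀ ^ p * η₀)) := by
    apply mul_left_cancel₀ hπ0
    linear_combination hrel
  obtain ⟨ζu, hζu⟩ : ∃ ζu : (𝓞 K)ˣ, (ζu : 𝓞 K) = hζ.toInteger :=
    ⟨(hζ.toInteger_isPrimitiveRoot.isUnit hp0).unit, rfl⟩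
  obtain ⟨ωu, hωu⟩ : ∃ ωu : (𝓞 K)ˣ, (ωu : 𝓞 K) = 1 + hζ.toInteger :=
    ⟨(caseII_isUnit_one_add hζ hp2).unit, rfl⟩
  set η : (𝓞 K)ˣ := ζu * η₂ * η₁⁻¹ with hη
  set ε' : (𝓞 K)ˣ := ωu * η₀ * η₁⁻¹ with hε'
  have hrel3 : ρ₁ ^ p + η * ρ₂ ^ p = ε' * (hζ.toInteger - 1) ^ (p * (m - 1)) * ρ₀ ^ p := by
    have h1 : (↑η₁⁻¹ : 𝓞 K) * η₁ = 1 := by simp
    rw [hη, hε']
    push_cast
    rw [hζu, hωu]
    linear_combination (↑η₁⁻¹ : 𝓞 K) * hrel2 - (ρ₁ ^ p) * h1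
  -- `η` is congruent to a rational integer modulo `p`
  have hp_dvd : (p : 𝓞 K) ∣ (hζ.toInteger - 1) ^ (p * (m - 1)) :=
    (caseII_p_dvd_pi_pow hζ).trans (pow_dvd_pow _ (Nat.le_mul_of_pos_right p (by omega)))
  obtain ⟨a₁, ha₁⟩ := caseII_exists_int_dvd_pow_sub hζ ρ₁
  obtain ⟨a₂, ha₂⟩ := caseII_exists_int_dvd_pow_sub hζ ρ₂
  have hρ₂_ndvd : ¬ hζ.toInteger - 1 ∣ ρ₂ := by
    intro hd
    apply ht_ndvd (p - 1) (by omega) (by omega)
    rw [← hρ₂]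
    exact Dvd.dvd.mul_right (dvd_pow hd hp0) _
  have hρ₀_ndvd : ¬ hζ.toInteger - 1 ∣ ρ₀ := by
    intro hd
    apply hA'_ndvd
    rw [← hρ₀]
    exact Dvd.dvd.mul_right (dvd_pow hd hp0) _
  have hpa₂ : ¬ (p : ℤ) ∣ a₂ := by
    intro hd
    have h1 : (p : 𝓞 K) ∣ (a₂ : 𝓞 K) := by
      obtain ⟨c, rfl⟩ := hd
      exact ⟨c, by push_cast; ring⟩
    have h2 : (p : 𝓞 K) ∣ ρ₂ ^ p := by simpa using dvd_add ha₂ h1
    have h3 : hζ.toInteger - 1 ∣ (p : 𝓞 K) := hζ.toInteger_sub_one_dvd_prime'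
    exact hρ₂_ndvd (hπ.dvd_of_dvd_pow (h3.trans h2))
  obtain ⟨b, hb⟩ : ∃ b : ℤ, (p : ℤ) ∣ a₂ * b - 1 := by
    have hcop' : IsCoprime a₂ (p : ℤ) :=
      ((Nat.prime_iff_prime_int.mp hp.out).coprime_iff_not_dvd.mpr hpa₂).symm
    obtain ⟨u, v, huv⟩ := hcop'
    exact ⟨u, ⟨-v, by linear_combination huv⟩⟩
  have hηc : (p : 𝓞 K) ∣ (η : 𝓞 K) - ((-(a₁ * b) : ℤ) : 𝓞 K) := by
    have h1 : (p : 𝓞 K) ∣ ρ₁ ^ p + η * ρ₂ ^ p := by
      rw [hrel3]
      exact Dvd.dvd.mul_right (Dvd.dvd.mul_left hp_dvd _) _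
    have h2 : (p : 𝓞 K) ∣ ((a₂ * b - 1 : ℤ) : 𝓞 K) := by
      obtain ⟨c, hc⟩ := hb
      exact ⟨c, by rw [hc]; push_cast; ring⟩
    have e : (η : 𝓞 K) - ((-(a₁ * b) : ℤ) : 𝓞 K)
        = -(η : 𝓞 K) * ((a₂ * b - 1 : ℤ) : 𝓞 K)
          + b * ((ρ₁ ^ p + η * ρ₂ ^ p) - (ρ₁ ^ p - a₁) - η * (ρ₂ ^ p - a₂)) := by
      push_cast
      ring
    rw [e]
    exact dvd_add (Dvd.dvd.mul_left h2 _)
      (Dvd.dvd.mul_left (dvd_sub (dvd_sub h1 ha₁) (Dvd.dvd.mul_left ha₂ _)) _)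
  obtain ⟨v, hv⟩ := hKL η _ hηc
  refine ⟨ρ₁, v * ρ₂, ρ₀, ε', ?_, hρ₀_ndvd, ?_, ?_⟩
  · intro hd
    exact hρ₂_ndvd ((Units.dvd_mul_left).mp hd)
  · have h1 : IsCoprime (t 1) (t (p - 1)) := hcop 1 (p - 1) hp.out.one_lt (by omega) (by omega)
    have h2 : ρ₁ ∣ t 1 := by
      rw [← hρ₁]
      exact Dvd.dvd.mul_right (dvd_pow_self _ hp0) _
    have h3 : ρ₂ ∣ t (p - 1) := by
      rw [← hρ₂]
      exact Dvd.dvd.mul_right (dvd_pow_self _ hp0) _
    have h4 : IsCoprime ρ₁ ρ₂ :=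
      IsCoprime.of_isCoprime_of_dvd_left (IsCoprime.of_isCoprime_of_dvd_right h1 h3) h2
    exact (isCoprime_mul_unit_left_right v.isUnit _ _).mpr h4
  · rw [mul_pow, ← Units.val_pow_eq_pow_val, ← hv]
    exact hrel3

include hK in
/-- The descent step. -/
theorem caseII_step [IsPrincipalIdealRing (𝓞 K)] (hp2 : p ≠ 2)
    (hKL : ∀ (u : (𝓞 K)ˣ) (a : ℤ), (p : 𝓞 K) ∣ (u : 𝓞 K) - a → ∃ v : (𝓞 K)ˣ, u = v ^ p)
    {x y z : 𝓞 K} {ε : (𝓞 K)ˣ} {m : ℕ} (hm : 1 ≤ m) (hy : ¬ hζ.toInteger - 1 ∣ y)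
    (hz : ¬ hζ.toInteger - 1 ∣ z) (hxy : IsCoprime x y)
    (h : x ^ p + y ^ p = ε * (hζ.toInteger - 1) ^ (p * m) * z ^ p) :
    2 ≤ m ∧ ∃ (x' y' z' : 𝓞 K) (ε' : (𝓞 K)ˣ), ¬ hζ.toInteger - 1 ∣ y' ∧
      ¬ hζ.toInteger - 1 ∣ z' ∧ IsCoprime x' y' ∧
      x' ^ p + y' ^ p = ε' * (hζ.toInteger - 1) ^ (p * (m - 1)) * z' ^ p := by
  have hp0 : p ≠ 0 := hp.out.ne_zero
  have hζpow : hζ.toInteger ^ p = 1 := hζ.toInteger_isPrimitiveRoot.pow_eq_one
  have h0 : hζ.toInteger - 1 ∣ x + y := by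
    simpa using caseII_pi_dvd_factor hζ hp2 hm h 0
  obtain ⟨i₀, hi₀⟩ := caseII_exists_sq_dvd hζ h0 hy
  have hunit : IsUnit (hζ.toInteger ^ i₀) := (hζ.toInteger_isPrimitiveRoot.isUnit hp0).pow i₀
  have hy' : ¬ hζ.toInteger - 1 ∣ hζ.toInteger ^ i₀ * y := by
    intro hd
    exact hy ((hunit.dvd_mul_left).mp hd)
  have hxy' : IsCoprime x (hζ.toInteger ^ i₀ * y) :=
    (isCoprime_mul_unit_left_right hunit _ _).mpr hxy
  have h' : x ^ p + (hζ.toInteger ^ i₀ * y) ^ p = ε * (hζ.toInteger - 1) ^ (p * m) * z ^ p := by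
    rw [mul_pow, ← pow_mul, mul_comm i₀ p, pow_mul, hζpow, one_pow, one_mul, h]
  exact caseII_step_aux hζ hp2 hKL hm hy' hz hxy' h' hi₀

include hK in
theorem caseII_descent_aux [IsPrincipalIdealRing (𝓞 K)] (hp2 : p ≠ 2)
    (hKL : ∀ (u : (𝓞 K)ˣ) (a : ℤ), (p : 𝓞 K) ∣ (u : 𝓞 K) - a → ∃ v : (𝓞 K)ˣ, u = v ^ p)
    (m : ℕ) : ∀ (x y z : 𝓞 K) (ε : (𝓞 K)ˣ), 1 ≤ m → ¬ hζ.toInteger - 1 ∣ y →
      ¬ hζ.toInteger - 1 ∣ z → IsCoprime x y →
      x ^ p + y ^ p = ε * (hζ.toInteger - 1) ^ (p * m) * z ^ p → False := by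
  induction m with
  | zero => intro x y z ε hm; omega
  | succ n ih =>
    intro x y z ε hm hy hz hxy h
    obtain ⟨hm2, x', y', z', ε', hy', hz', hxy', h'⟩ := caseII_step hζ hp2 hKL hm hy hz hxy h
    rw [Nat.add_sub_cancel] at h'
    exact ih x' y' z' ε' (by omega) hy' hz' hxy' h'

include hK in
/-- The integer start of the descent: no coprime solution with `p ∣ C`. -/
theorem caseII_core (hp2 : p ≠ 2)
    (hdesc : ∀ (x y z : 𝓞 K) (ε : (𝓞 K)ˣ) (m : ℕ), 1 ≤ m → ¬ hζ.toInteger - 1 ∣ y →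
      ¬ hζ.toInteger - 1 ∣ z → IsCoprime x y →
      x ^ p + y ^ p = ε * (hζ.toInteger - 1) ^ (p * m) * z ^ p → False)
    (A B C : ℤ) (hC : C ≠ 0) (hAB : IsCoprime A B) (hpC : (p : ℤ) ∣ C)
    (h : A ^ p + B ^ p = C ^ p) : False := by
  have hp0 : p ≠ 0 := hp.out.ne_zero
  have hp1 : 2 ≤ p := hp.out.two_le
  have _hp2 := hp2
  have hpZ : Prime (p : ℤ) := Nat.prime_iff_prime_int.mp hp.out
  have hpB : ¬ (p : ℤ) ∣ B := by
    intro hB
    have hA : (p : ℤ) ∣ A := by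
      have h1 : (p : ℤ) ∣ A ^ p := by
        have e : A ^ p = C ^ p - B ^ p := by linarith
        rw [e]
        exact dvd_sub (dvd_pow hpC hp0) (dvd_pow hB hp0)
      exact hpZ.dvd_of_dvd_pow h1
    exact hpZ.not_isUnit (hAB.isUnit_of_dvd' hA hB)
  have hfin : FiniteMultiplicity (p : ℤ) C :=
    Int.finiteMultiplicity_iff.mpr ⟨by simpa using hp.out.ne_one, hC⟩
  obtain ⟨C₀, hC₀, hpC₀⟩ := hfin.exists_eq_pow_mul_and_not_dvd
  set n := multiplicity (p : ℤ) C with hn_def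
  have hn : 1 ≤ n := by
    by_contra hn0
    have hn0' : n = 0 := by omega
    rw [hn0', pow_zero, one_mul] at hC₀
    exact hpC₀ (hC₀ ▸ hpC)
  obtain ⟨u, hu⟩ := caseII_associated_pi_pow_p hζ
  refine hdesc (A : 𝓞 K) (B : 𝓞 K) (C₀ : 𝓞 K) (u ^ (n * p)) ((p - 1) * n) ?_ ?_ ?_ ?_ ?_
  · exact Nat.mul_pos (by omega) hn
  · rwa [caseII_pi_dvd_intCast_iff hζ]
  · rwa [caseII_pi_dvd_intCast_iff hζ]
  · exact hAB.intCast
  · have h' : ((A ^ p + B ^ p : ℤ) : 𝓞 K) = ((C ^ p : ℤ) : 𝓞 K) := by rw [h]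
    have h'' : (C : 𝓞 K) = ((p : ℕ) : 𝓞 K) ^ n * (C₀ : 𝓞 K) := by
      conv_lhs => rw [hC₀]
      push_cast
      rfl
    push_cast at h'
    rw [h', h'', ← hu]
    push_cast
    ring

end Descent

section Final

variable {p : ℕ} [hpri : Fact p.Prime] {K : Type*} [Field K] [NumberField K]
  [IsCyclotomicExtension {p} ℚ K] {ζ : K} (hζ : IsPrimitiveRoot ζ p)

/-- **Kummer's descent** (case II), for a cyclotomic field with principal ring of integers and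
satisfying Kummer's lemma. -/
theorem caseII_descent [IsPrincipalIdealRing (𝓞 K)] (hp : p ≠ 2)
    (hKL : ∀ (u : (𝓞 K)ˣ) (a : ℤ), (p : 𝓞 K) ∣ (u : 𝓞 K) - (a : 𝓞 K) → ∃ v : (𝓞 K)ˣ, u = v ^ p)
    (x y z : 𝓞 K) (ε : (𝓞 K)ˣ) (m : ℕ) (hm : 1 ≤ m) (hx : ¬ (hζ.toInteger - 1) ∣ x)
    (hy : ¬ (hζ.toInteger - 1) ∣ y)
    (hz : ¬ (hζ.toInteger - 1) ∣ z) (hxy : IsCoprime x y)
    (h : x ^ p + y ^ p = ε * (hζ.toInteger - 1) ^ (p * m) * z ^ p) : False := by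
  have _hx := hx
  exact caseII_descent_aux hζ hp hKL m x y z ε hm hy hz hxy h

include hζ in
/-- **Case II of Fermat's Last Theorem** for a prime `p` whose cyclotomic ring of integers is
principal and satisfies Kummer's lemma. -/
theorem caseII [IsPrincipalIdealRing (𝓞 K)] (hp : p ≠ 2)
    (hKL : ∀ (u : (𝓞 K)ˣ) (a : ℤ), (p : 𝓞 K) ∣ (u : 𝓞 K) - (a : 𝓞 K) → ∃ v : (𝓞 K)ˣ, u = v ^ p)
    (a b c : ℤ) (ha : a ≠ 0) (hb : b ≠ 0) (hc : c ≠ 0) (hgcd : IsCoprime a b)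
    (hdvd : (p : ℤ) ∣ a * b * c) : a ^ p + b ^ p ≠ c ^ p := by
  intro h
  have hp0 : 0 < p := hpri.out.pos
  have hodd : Odd p := hpri.out.odd_of_ne_two hp
  have hpZ : Prime (p : ℤ) := Nat.prime_iff_prime_int.mp hpri.out
  have hdesc : ∀ (x y z : 𝓞 K) (ε : (𝓞 K)ˣ) (m : ℕ), 1 ≤ m → ¬ hζ.toInteger - 1 ∣ y →
      ¬ hζ.toInteger - 1 ∣ z → IsCoprime x y →
      x ^ p + y ^ p = ε * (hζ.toInteger - 1) ^ (p * m) * z ^ p → False :=
    fun x y z ε m hm hy hz hxy h => caseII_descent_aux hζ hp hKL m x y z ε hm hy hz hxy h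
  have hpp : p = (p - 1) + 1 := by omega
  -- `c` is coprime to `a` and to `b`
  have hcb : IsCoprime c b := by
    have h1 : IsCoprime (a ^ p + b * b ^ (p - 1)) b :=
      (IsCoprime.pow_left (m := p) hgcd).add_mul_left_left _
    have e : a ^ p + b * b ^ (p - 1) = c ^ p := by
      rw [← pow_succ', ← hpp, h]
    rw [e] at h1
    exact (IsCoprime.pow_left_iff hp0).mp h1
  have hca : IsCoprime c a := by
    have h1 : IsCoprime (b ^ p + a * a ^ (p - 1)) a :=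
      (IsCoprime.pow_left (m := p) hgcd.symm).add_mul_left_left _
    have e : b ^ p + a * a ^ (p - 1) = c ^ p := by
      rw [← pow_succ', ← hpp, ← h, add_comm]
    rw [e] at h1
    exact (IsCoprime.pow_left_iff hp0).mp h1
  rcases hpZ.dvd_or_dvd hdvd with hab | hc'
  · rcases hpZ.dvd_or_dvd hab with ha' | hb'
    · exact caseII_core hζ hp hdesc c (-b) a ha hcb.neg_right ha'
        (by rw [hodd.neg_pow]; linarith)
    · exact caseII_core hζ hp hdesc c (-a) b hb hca.neg_right hb'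
        (by rw [hodd.neg_pow]; linarith)
  · exact caseII_core hζ hp hdesc a b c hc hgcd hc' h

end Final

end Fermat.Agent.Kummer
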