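/-
KUMMER (K12 helper): the integer start of the case II descent.
From `a ^ p + b ^ p = c ^ p` with `p ∣ a * b * c` one gets a solution of
`x ^ p + y ^ p = ε * λ ^ (p * m) * z ^ p` in the cyclotomic integers.
-/
import Mathlib

set_option autoImplicit false

namespace Fermat.Agent.Kummer

open NumberField

/-- Rearrangement: without loss of generality `p` divides the right hand side. -/
theorem caseIIStart_wlog {p : ℕ} (hp : p.Prime) (hp2 : p ≠ 2) (a b c : ℤ) (ha : a ≠ 0)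
    (hb : b ≠ 0) (hc : c ≠ 0) (hgcd : IsCoprime a b) (hdvd : (p : ℤ) ∣ a * b * c)
    (h : a ^ p + b ^ p = c ^ p) :
    ∃ x y z : ℤ, IsCoprime x y ∧ z ≠ 0 ∧ (p : ℤ) ∣ z ∧ x ^ p + y ^ p = z ^ p := by
  have hodd : Odd p := hp.odd_of_ne_two hp2
  have hpZ : Prime (p : ℤ) := Nat.prime_iff_prime_int.mp hp
  have hpp : p - 1 + 1 = p := Nat.sub_add_cancel hp.pos
  have hbc : IsCoprime b c := by
    have h1 : IsCoprime b (a ^ p + b * b ^ (p - 1)) :=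
      (hgcd.symm.pow_right (n := p)).add_mul_left_right _
    rw [← pow_succ', hpp, h] at h1
    exact (IsCoprime.pow_right_iff hp.pos).mp h1
  have hac : IsCoprime a c := by
    have h1 : IsCoprime a (b ^ p + a * a ^ (p - 1)) :=
      (hgcd.pow_right (n := p)).add_mul_left_right _
    rw [← pow_succ', hpp, add_comm, h] at h1
    exact (IsCoprime.pow_right_iff hp.pos).mp h1
  rcases hpZ.dvd_or_dvd hdvd with hab | hpc
  · rcases hpZ.dvd_or_dvd hab with hpa | hpb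
    · refine ⟨b, -c, -a, hbc.neg_right, neg_ne_zero.mpr ha, (dvd_neg.mpr hpa), ?_⟩
      rw [hodd.neg_pow, hodd.neg_pow]
      linarith
    · refine ⟨a, -c, -b, hac.neg_right, neg_ne_zero.mpr hb, (dvd_neg.mpr hpb), ?_⟩
      rw [hodd.neg_pow, hodd.neg_pow]
      linarith
  · exact ⟨a, b, c, hgcd, hc, hpc, h⟩

/-- The integer start of the case II descent. -/
theorem caseII_of_descent {p : ℕ} [hp : Fact p.Prime] {K : Type*} [Field K] [NumberField K]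
    [hK : IsCyclotomicExtension {p} ℚ K] {ζ : K} (hζ : IsPrimitiveRoot ζ p) (hp2 : p ≠ 2)
    (hdesc : ∀ (x y z : 𝓞 K) (ε : (𝓞 K)ˣ) (m : ℕ), 1 ≤ m → ¬ (hζ.toInteger - 1) ∣ x →
      ¬ (hζ.toInteger - 1) ∣ y → ¬ (hζ.toInteger - 1) ∣ z → IsCoprime x y →
      x ^ p + y ^ p = ε * (hζ.toInteger - 1) ^ (p * m) * z ^ p → False)
    (a b c : ℤ) (ha : a ≠ 0) (hb : b ≠ 0) (hc : c ≠ 0) (hgcd : IsCoprime a b)
    (hdvd : (p : ℤ) ∣ a * b * c) : a ^ p + b ^ p ≠ c ^ p := by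
  intro h
  obtain ⟨x, y, z, hxy, hz, hpz, hxyz⟩ :=
    caseIIStart_wlog hp.out hp2 a b c ha hb hc hgcd hdvd h
  have hpZ : Prime (p : ℤ) := Nat.prime_iff_prime_int.mp hp.out
  have hzp : (p : ℤ) ∣ z ^ p := dvd_pow hpz hp.out.ne_zero
  -- `p ∤ x`, `p ∤ y`
  have hpx : ¬ (p : ℤ) ∣ x := by
    intro hpx
    have hpy : (p : ℤ) ∣ y := by
      have h2 : (p : ℤ) ∣ x ^ p := dvd_pow hpx hp.out.ne_zero
      have h3 : y ^ p = z ^ p - x ^ p := by linarith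
      exact hpZ.dvd_of_dvd_pow (h3 ▸ dvd_sub hzp h2)
    exact hpZ.not_isUnit (hxy.isUnit_of_dvd' hpx hpy)
  have hpy : ¬ (p : ℤ) ∣ y := by
    intro hpy
    have hpx' : (p : ℤ) ∣ x := by
      have h2 : (p : ℤ) ∣ y ^ p := dvd_pow hpy hp.out.ne_zero
      have h3 : x ^ p = z ^ p - y ^ p := by linarith
      exact hpZ.dvd_of_dvd_pow (h3 ▸ dvd_sub hzp h2)
    exact hpx hpx'
  -- `z = p ^ n * z₀`
  have hfin : FiniteMultiplicity (p : ℤ) z :=
    Int.finiteMultiplicity_iff.mpr ⟨by simpa using hp.out.ne_one, hz⟩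
  obtain ⟨z₀, hz₀, hpz₀⟩ := hfin.exists_eq_pow_mul_and_not_dvd
  obtain ⟨n, hn⟩ : ∃ n : ℕ, n = multiplicity (p : ℤ) z := ⟨_, rfl⟩
  rw [← hn] at hz₀
  have hn1 : 1 ≤ n := by
    by_contra hcon
    have hn0 : n = 0 := by omega
    rw [hn0, pow_zero, one_mul] at hz₀
    exact hpz₀ (hz₀ ▸ hpz)
  -- `p = λ ^ (p - 1) * w`
  obtain ⟨w, hw⟩ := IsCyclotomicExtension.Rat.associated_zeta_sub_one_pow_prime p hζ
  refine hdesc (x : 𝓞 K) (y : 𝓞 K) (z₀ : 𝓞 K) (w ^ (n * p)) ((p - 1) * n) ?_ ?_ ?_ ?_ ?_ ?_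
  · have h2 := hp.out.two_le
    exact Nat.mul_pos (by omega) hn1
  · rwa [IsCyclotomicExtension.Rat.zeta_sub_one_dvd_intCast_iff' p hζ]
  · rwa [IsCyclotomicExtension.Rat.zeta_sub_one_dvd_intCast_iff' p hζ]
  · rwa [IsCyclotomicExtension.Rat.zeta_sub_one_dvd_intCast_iff' p hζ]
  · exact hxy.intCast
  · have hcast : ((x ^ p + y ^ p : ℤ) : 𝓞 K) = ((z ^ p : ℤ) : 𝓞 K) := by rw [hxyz]
    push_cast at hcast
    rw [hcast, hz₀]
    push_cast
    rw [← hw]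
    ring

end Fermat.Agent.Kummer
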