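import Mathlib

/-!
# Kummer project, package K2: cyclotomic toolbox

`K` is a `p`-th cyclotomic extension of `ℚ` (`p` prime), `ζ` a primitive `p`-th root of unity,
`λ = hζ.toInteger - 1` in `𝓞 K`.
-/

set_option autoImplicit false
set_option linter.unusedSectionVars false

open NumberField

namespace Fermat.Agent.Kummer

variable {p : ℕ} [hp : Fact p.Prime] {K : Type*} [Field K] [NumberField K]
  [hK : IsCyclotomicExtension {p} ℚ K] {ζ : K} (hζ : IsPrimitiveRoot ζ p)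

/-- `λ = ζ - 1` is prime. -/
theorem lam_prime : Prime (hζ.toInteger - 1) := hζ.zeta_sub_one_prime'

theorem lam_ne_zero : hζ.toInteger - 1 ≠ 0 := (lam_prime hζ).ne_zero

/-- `λ` divides `p`. -/
theorem lam_dvd_p : hζ.toInteger - 1 ∣ (p : 𝓞 K) := hζ.toInteger_sub_one_dvd_prime'

/-- `λ ^ (p - 1)` is associated to `p`. -/
theorem associated_lam_pow_p : Associated ((hζ.toInteger - 1) ^ (p - 1)) (p : 𝓞 K) :=
  IsCyclotomicExtension.Rat.associated_zeta_sub_one_pow_prime p hζ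

/-- An integer is divisible by `λ` iff it is divisible by `p`. -/
theorem lam_dvd_intCast_iff {n : ℤ} : hζ.toInteger - 1 ∣ (n : 𝓞 K) ↔ (p : ℤ) ∣ n :=
  IsCyclotomicExtension.Rat.zeta_sub_one_dvd_intCast_iff' p hζ

/-- The residue ring modulo `λ` has `p` elements. -/
theorem card_quot_lam : Nat.card (𝓞 K ⧸ Ideal.span {hζ.toInteger - 1}) = p := by
  have hK' : IsCyclotomicExtension {p ^ (0 + 1)} ℚ K := by simpa using hK
  have hζ' : IsPrimitiveRoot ζ (p ^ (0 + 1)) := by simpa using hζ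
  have h := IsCyclotomicExtension.Rat.absNorm_span_zeta_sub_one p 0 hζ'
  rw [Ideal.absNorm_apply, Submodule.cardQuot_apply] at h
  exact h

/-- Every algebraic integer of `K` is congruent to a rational integer modulo `λ`. -/
theorem exists_int_sub_dvd (x : 𝓞 K) : ∃ a : ℤ, hζ.toInteger - 1 ∣ x - a := by
  classical
  have hfin : Finite (𝓞 K ⧸ Ideal.span {hζ.toInteger - 1}) :=
    Nat.finite_of_card_ne_zero (by rw [card_quot_lam hζ]; exact hp.out.ne_zero)
  let f : Fin p → 𝓞 K ⧸ Ideal.span {hζ.toInteger - 1} :=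
    fun i => Ideal.Quotient.mk _ ((i : ℕ) : 𝓞 K)
  have hinj : Function.Injective f := by
    intro i j hij
    have h1 : hζ.toInteger - 1 ∣ (((i : ℕ) : ℤ) - ((j : ℕ) : ℤ) : ℤ) := by
      have := (Ideal.Quotient.eq.mp hij)
      rw [Ideal.mem_span_singleton] at this
      simpa using this
    rw [lam_dvd_intCast_iff hζ] at h1
    have h2 : ((i : ℕ) : ℤ) ≡ ((j : ℕ) : ℤ) [ZMOD p] := (Int.modEq_of_dvd (by
      have := dvd_neg.mpr h1
      simpa using this))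
    have h3 : (i : ℕ) ≡ (j : ℕ) [MOD p] := Int.natCast_modEq_iff.mp h2
    exact Fin.ext (by
      have := Nat.ModEq.eq_of_lt_of_lt h3 i.isLt j.isLt
      exact this)
  have hbij : Function.Bijective f := by
    rw [Nat.bijective_iff_injective_and_card]
    exact ⟨hinj, by rw [card_quot_lam hζ, Nat.card_eq_fintype_card, Fintype.card_fin]⟩
  obtain ⟨i, hi⟩ := hbij.2 (Ideal.Quotient.mk _ x)
  refine ⟨((i : ℕ) : ℤ), ?_⟩
  have := Ideal.Quotient.eq.mp hi.symm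
  rw [Ideal.mem_span_singleton] at this
  simpa using this

/-- The `p`-th power of an algebraic integer of `K` is congruent to a rational integer modulo
`p`. -/
theorem exists_int_pow_sub_dvd (x : 𝓞 K) : ∃ a : ℤ, (p : 𝓞 K) ∣ x ^ p - a := by
  have hζ := IsCyclotomicExtension.zeta_spec p ℚ K
  obtain ⟨a, y, hy⟩ := exists_int_sub_dvd hζ x
  refine ⟨a ^ p, ?_⟩
  have hx : x = (a : 𝓞 K) + (hζ.toInteger - 1) * y := by rw [← hy]; ring
  obtain ⟨r, hr⟩ := exists_add_pow_prime_eq hp.out (a : 𝓞 K) ((hζ.toInteger - 1) * y)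
  have h1 : (p : 𝓞 K) ∣ ((hζ.toInteger - 1) * y) ^ p := by
    have h2 : (p : 𝓞 K) ∣ (hζ.toInteger - 1) ^ p := by
      have h3 : (hζ.toInteger - 1) ^ p = (hζ.toInteger - 1) ^ (p - 1) * (hζ.toInteger - 1) := by
        rw [← pow_succ, Nat.sub_add_cancel hp.out.one_le]
      rw [h3]
      exact Dvd.dvd.mul_right (associated_lam_pow_p hζ).symm.dvd _
    rw [mul_pow]
    exact Dvd.dvd.mul_right h2 _
  rw [hx, hr]
  push_cast
  have : (a : 𝓞 K) ^ p + ((hζ.toInteger - 1) * y) ^ p +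
      (p : 𝓞 K) * (a : 𝓞 K) * ((hζ.toInteger - 1) * y) * r - (a : 𝓞 K) ^ p =
      ((hζ.toInteger - 1) * y) ^ p + (p : 𝓞 K) * ((a : 𝓞 K) * ((hζ.toInteger - 1) * y) * r) := by
    ring
  rw [this]
  exact dvd_add h1 (dvd_mul_right _ _)

/-- Factorisation of `x ^ p + y ^ p` (`p` odd). -/
theorem pow_add_pow_eq_prod (hp2 : p ≠ 2) (x y : 𝓞 K) :
    x ^ p + y ^ p = ∏ i ∈ Finset.range p, (x + hζ.toInteger ^ i * y) := by
  have hζ' := hζ.toInteger_isPrimitiveRoot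
  have hodd : Odd p := hp.out.odd_of_ne_two hp2
  rw [hζ'.pow_add_pow_eq_prod_add_mul x y hodd]
  symm
  refine Finset.prod_nbij (fun i => hζ.toInteger ^ i) ?_ ?_ ?_ (fun _ _ => rfl)
  · intro i _
    rw [Polynomial.mem_nthRootsFinset hp.out.pos, ← pow_mul, mul_comm, pow_mul, hζ'.pow_eq_one,
      one_pow]
  · exact hζ'.injOn_pow
  · intro η hη
    rw [Finset.mem_coe, Polynomial.mem_nthRootsFinset hp.out.pos] at hη
    obtain ⟨i, hi, rfl⟩ := hζ'.eq_pow_of_pow_eq_one hη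
    exact ⟨i, Finset.mem_coe.mpr (Finset.mem_range.mpr hi), rfl⟩

/-- `ζ ^ i - ζ ^ j` is associated to `λ` when `i ≢ j` modulo `p`. -/
theorem associated_lam_zeta_pow_sub_pow {i j : ℕ} (hij : ¬ i ≡ j [MOD p]) :
    Associated (hζ.toInteger - 1) (hζ.toInteger ^ i - hζ.toInteger ^ j) := by
  have hζ' := hζ.toInteger_isPrimitiveRoot
  have hmem : ∀ k : ℕ, hζ.toInteger ^ k ∈ Polynomial.nthRootsFinset p (1 : 𝓞 K) := by
    intro k
    rw [Polynomial.mem_nthRootsFinset hp.out.pos, ← pow_mul, mul_comm, pow_mul, hζ'.pow_eq_one,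
      one_pow]
  refine hζ'.nthRootsFinset_pairwise_associated_sub_one_sub_of_prime hp.out (hmem i) (hmem j) ?_
  intro h
  apply hij
  have hfin : IsOfFinOrder hζ.toInteger :=
    isOfFinOrder_iff_pow_eq_one.mpr ⟨p, hp.out.pos, hζ'.pow_eq_one⟩
  have := hfin.pow_eq_pow_iff_modEq.mp h
  rwa [← hζ'.eq_orderOf] at this

/-- `1 + ζ` is a unit (`p` odd). -/
theorem isUnit_one_add_zeta (hp2 : p ≠ 2) : IsUnit (1 + hζ.toInteger) := by
  have hζ' := hζ.toInteger_isPrimitiveRoot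
  have hcop : Nat.Coprime 2 p :=
    (Nat.coprime_primes Nat.prime_two hp.out).mpr (Ne.symm hp2)
  have := hζ'.geom_sum_isUnit hp.out.two_le hcop
  simpa [Finset.sum_range_succ] using this

/-- An integer is divisible by `λ ^ p` iff it is divisible by `p ^ 2`. -/
theorem lam_pow_dvd_intCast_iff {n : ℤ} :
    (hζ.toInteger - 1) ^ p ∣ (n : 𝓞 K) ↔ (p : ℤ) ^ 2 ∣ n := by
  obtain ⟨u, hu⟩ := associated_lam_pow_p hζ
  have hpp : (hζ.toInteger - 1) ^ p = (hζ.toInteger - 1) ^ (p - 1) * (hζ.toInteger - 1) := by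
    rw [← pow_succ, Nat.sub_add_cancel hp.out.one_le]
  constructor
  · intro h
    have h1 : hζ.toInteger - 1 ∣ (n : 𝓞 K) := (dvd_pow_self _ hp.out.ne_zero).trans h
    obtain ⟨m, rfl⟩ := (lam_dvd_intCast_iff hζ).mp h1
    have h2 : (hζ.toInteger - 1) ^ (p - 1) * (hζ.toInteger - 1) ∣
        (hζ.toInteger - 1) ^ (p - 1) * ((u : 𝓞 K) * (m : 𝓞 K)) := by
      rw [← hpp, ← mul_assoc, hu]
      simpa using h
    have h3 : hζ.toInteger - 1 ∣ (u : 𝓞 K) * (m : 𝓞 K) :=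
      (mul_dvd_mul_iff_left (pow_ne_zero _ (lam_ne_zero hζ))).mp h2
    have h4 : hζ.toInteger - 1 ∣ (m : 𝓞 K) := (Units.dvd_mul_left.mp h3)
    obtain ⟨k, rfl⟩ := (lam_dvd_intCast_iff hζ).mp h4
    exact ⟨k, by ring⟩
  · rintro ⟨m, rfl⟩
    have h1 : (hζ.toInteger - 1) ^ p ∣ ((hζ.toInteger - 1) ^ (p - 1)) ^ 2 := by
      rw [← pow_mul]
      exact pow_dvd_pow _ (by have := hp.out.two_le; omega)
    have h2 : ((hζ.toInteger - 1) ^ (p - 1)) ^ 2 ∣ (p : 𝓞 K) ^ 2 :=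
      pow_dvd_pow_of_dvd (Dvd.intro _ hu) 2
    push_cast
    exact Dvd.dvd.mul_right (h1.trans h2) _

/-- Congruences pass to products. -/
theorem prod_sub_pow_dvd {R ι : Type*} [CommRing R] (s : Finset ι) (f : ι → R) (c d : R)
    (h : ∀ i ∈ s, d ∣ f i - c) : d ∣ ∏ i ∈ s, f i - c ^ s.card := by
  rw [← Ideal.mem_span_singleton, ← Ideal.Quotient.eq, map_prod, map_pow, ← Finset.prod_const]
  refine Finset.prod_congr rfl fun i hi => ?_
  rw [Ideal.Quotient.eq, Ideal.mem_span_singleton]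
  exact h i hi

variable (p) in
include hK in
attribute [local instance] FractionRing.liftAlgebra in
/-- The norm of an algebraic integer of `K` is the product of its Galois conjugates. -/
theorem intCast_norm_eq_prod (x : 𝓞 K) :
    ((Algebra.norm ℤ x : ℤ) : 𝓞 K) = ∏ σ : 𝓞 K ≃ₐ[ℤ] 𝓞 K, σ x := by
  have : IsGalois ℚ K := IsCyclotomicExtension.isGalois {p} ℚ K
  have : IsGalois (FractionRing ℤ) (FractionRing (𝓞 K)) := by
    refine IsGalois.of_equiv_equiv (f := (FractionRing.algEquiv ℤ ℚ).toRingEquiv.symm)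
      (g := (FractionRing.algEquiv (𝓞 K) K).toRingEquiv.symm) <|
        RingHom.ext fun x ↦ IsFractionRing.algEquiv_commutes (FractionRing.algEquiv ℤ ℚ).symm
          (FractionRing.algEquiv (𝓞 K) K).symm _
  rw [← Algebra.algebraMap_intNorm_of_isGalois, Algebra.intNorm_eq_norm]
  simp

/-- The Galois group has `p - 1` elements. -/
theorem card_aut_ringOfIntegers : Fintype.card (𝓞 K ≃ₐ[ℤ] 𝓞 K) = p - 1 := by
  have : IsGalois ℚ K := IsCyclotomicExtension.isGalois {p} ℚ K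
  rw [← Fintype.card_congr (galRestrict ℤ ℚ K (𝓞 K)).toEquiv, ← Nat.card_eq_fintype_card,
    IsGalois.card_aut_eq_finrank, IsCyclotomicExtension.Rat.finrank p K,
    Nat.totient_prime hp.out]

/-- If `x ≡ c` modulo `λ ^ k` with `c` a rational integer, then `N(x) ≡ c ^ (p - 1)` modulo
`λ ^ k`. -/
theorem lam_pow_dvd_norm_sub (x : 𝓞 K) (c : ℤ) (k : ℕ)
    (h : (hζ.toInteger - 1) ^ k ∣ x - c) :
    (hζ.toInteger - 1) ^ k ∣ ((Algebra.norm ℤ x : ℤ) : 𝓞 K) - (c : 𝓞 K) ^ (p - 1) := by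
  have hconj : ∀ σ : 𝓞 K ≃ₐ[ℤ] 𝓞 K, (hζ.toInteger - 1) ^ k ∣ σ x - c := by
    intro σ
    obtain ⟨y, hy⟩ := h
    obtain ⟨v, hv⟩ := hζ.toInteger_isPrimitiveRoot.associated_sub_one_map_sub_one σ
    have hx : x = (c : 𝓞 K) + (hζ.toInteger - 1) ^ k * y := by rw [← hy]; ring
    have h1 : σ x - c = σ (hζ.toInteger - 1) ^ k * σ y := by
      rw [hx]
      simp only [map_add, map_mul, map_pow, map_intCast]
      ring
    rw [h1, ← hv, mul_pow]
    exact ⟨(v : 𝓞 K) ^ k * σ y, by ring⟩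
  rw [intCast_norm_eq_prod p, ← card_aut_ringOfIntegers (K := K) (p := p), ← Finset.card_univ]
  exact prod_sub_pow_dvd _ _ _ _ fun σ _ => hconj σ

/-- A unit of `ℤ` congruent to a `(p - 1)`-th power modulo an odd prime `p` is `1`. -/
theorem int_unit_eq_one_of_dvd (hp2 : p ≠ 2) {n c : ℤ} (hn : IsUnit n)
    (h : (p : ℤ) ∣ n - c ^ (p - 1)) : n = 1 := by
  rcases Int.isUnit_iff.mp hn with h1 | h1
  · exact h1
  · exfalso
    rw [h1] at h
    have hpprime : Prime (p : ℤ) := Nat.prime_iff_prime_int.mp hp.out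
    by_cases hc : (p : ℤ) ∣ c
    · have h2 : (p : ℤ) ∣ c ^ (p - 1) :=
        dvd_pow hc (by have := hp.out.two_le; omega)
      have h3 : (p : ℤ) ∣ -1 := by
        have := dvd_add h h2
        simpa using this
      exact hpprime.not_unit (isUnit_of_dvd_unit h3 (by decide))
    · have hcop : IsCoprime c (p : ℤ) := (hpprime.coprime_iff_not_dvd.mpr hc).symm
      have h2 : (p : ℤ) ∣ c ^ (p - 1) - 1 :=
        (Int.modEq_iff_dvd.mp (Int.ModEq.pow_card_sub_one_eq_one hp.out hcop).symm)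
      have h3 : (p : ℤ) ∣ 2 := by
        have := dvd_add h h2
        have h4 : (-1 - c ^ (p - 1)) + (c ^ (p - 1) - 1) = -2 := by ring
        rw [h4] at this
        exact (dvd_neg.mp this)
      have h5 : p ∣ 2 := by exact_mod_cast h3
      exact hp2 ((Nat.prime_dvd_prime_iff_eq hp.out Nat.prime_two).mp h5)

/-- Every unit of `𝓞 K` has norm `1` (`p` odd). -/
theorem norm_unit_eq_one (hp2 : p ≠ 2) (u : (𝓞 K)ˣ) : Algebra.norm ℤ (u : 𝓞 K) = 1 := by
  have hζ := IsCyclotomicExtension.zeta_spec p ℚ K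
  obtain ⟨c, hc⟩ := exists_int_sub_dvd hζ (u : 𝓞 K)
  have h1 := lam_pow_dvd_norm_sub hζ (u : 𝓞 K) c 1 (by simpa using hc)
  have h2 : (p : ℤ) ∣ Algebra.norm ℤ (u : 𝓞 K) - c ^ (p - 1) := by
    rw [← lam_dvd_intCast_iff hζ]
    push_cast
    simpa using h1
  exact int_unit_eq_one_of_dvd hp2 (u.isUnit.map (Algebra.norm ℤ)) h2

/-- KEY (blueprint III.1): a unit congruent to a rational integer modulo `p` is congruent to the
`p`-th power of a rational integer modulo `λ ^ p`. -/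
theorem exists_int_pow_congr (hp2 : p ≠ 2) (u : (𝓞 K)ˣ) (a : ℤ)
    (h : (p : 𝓞 K) ∣ (u : 𝓞 K) - a) :
    ∃ c : ℤ, (hζ.toInteger - 1) ^ p ∣ (u : 𝓞 K) - (c : 𝓞 K) ^ p := by
  obtain ⟨w, hw⟩ := h
  obtain ⟨b, w', hw'⟩ := exists_int_sub_dvd hζ w
  have hpp : (hζ.toInteger - 1) ^ p = (hζ.toInteger - 1) ^ (p - 1) * (hζ.toInteger - 1) := by
    rw [← pow_succ, Nat.sub_add_cancel hp.out.one_le]
  have hlp : (hζ.toInteger - 1) ^ p ∣ (p : 𝓞 K) * (hζ.toInteger - 1) := by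
    rw [hpp]
    exact mul_dvd_mul_right (associated_lam_pow_p hζ).dvd _
  refine ⟨a + p * b, ?_⟩
  have hu : (u : 𝓞 K) - ((a + p * b : ℤ) : 𝓞 K) = (p : 𝓞 K) * (hζ.toInteger - 1) * w' := by
    push_cast
    linear_combination hw + (p : 𝓞 K) * hw'
  have h4 : (hζ.toInteger - 1) ^ p ∣ (u : 𝓞 K) - ((a + p * b : ℤ) : 𝓞 K) := by
    rw [hu]
    exact Dvd.dvd.mul_right hlp w'
  have h1 := lam_pow_dvd_norm_sub hζ (u : 𝓞 K) (a + p * b) p h4
  have h2 : (p : ℤ) ^ 2 ∣ Algebra.norm ℤ (u : 𝓞 K) - (a + p * b) ^ (p - 1) := by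
    rw [← lam_pow_dvd_intCast_iff hζ]
    push_cast
    push_cast at h1
    exact h1
  rw [norm_unit_eq_one hp2 u] at h2
  have h3 : (p : ℤ) ^ 2 ∣ (a + p * b) - (a + p * b) ^ p := by
    have h5 : (a + p * b) - (a + p * b) ^ p = (a + p * b) * (1 - (a + p * b) ^ (p - 1)) := by
      rw [mul_sub, mul_one, ← pow_succ', Nat.sub_add_cancel hp.out.one_le]
    rw [h5]
    exact Dvd.dvd.mul_left h2 _
  have h6 : (hζ.toInteger - 1) ^ p ∣ (((a + p * b) - (a + p * b) ^ p : ℤ) : 𝓞 K) :=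
    (lam_pow_dvd_intCast_iff hζ).mpr h3
  have h7 : (u : 𝓞 K) - (((a + p * b : ℤ) : 𝓞 K)) ^ p =
      ((u : 𝓞 K) - ((a + p * b : ℤ) : 𝓞 K)) + (((a + p * b) - (a + p * b) ^ p : ℤ) : 𝓞 K) := by
    push_cast
    ring
  rw [h7]
  exact dvd_add h4 h6

end Fermat.Agent.Kummer
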