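import Mathlib

/-!
# Kummer project (FLT for the regular primes 5, 7, 11, 13): shared definitions

The action of a field automorphism on the units of the ring of integers, the norm operator
`∏ i < p, σ ^ i` and the operator `x ↦ x / σ x` on units.
All declarations live in `Fermat.Agent.Kummer`.
-/

set_option autoImplicit false

noncomputable section

namespace Fermat.Agent.Kummer

open NumberField

variable {K L : Type*} [Field K] [Field L] [Algebra K L]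

/-- The action of `σ ∈ Gal(L/K)` on the units of `𝓞 L`. -/
def unitsAut (σ : L ≃ₐ[K] L) : (𝓞 L)ˣ ≃* (𝓞 L)ˣ :=
  Units.mapEquiv (RingOfIntegers.mapRingEquiv (σ : L ≃+* L)).toMulEquiv

@[simp] theorem coe_unitsAut (σ : L ≃ₐ[K] L) (x : (𝓞 L)ˣ) :
    (((unitsAut σ x : (𝓞 L)ˣ) : 𝓞 L) : L) = σ ((x : 𝓞 L) : L) := rfl

theorem unitsAut_one : unitsAut (1 : L ≃ₐ[K] L) = MulEquiv.refl (𝓞 L)ˣ := by
  ext x
  rfl

theorem unitsAut_mul (σ τ : L ≃ₐ[K] L) (x : (𝓞 L)ˣ) :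
    unitsAut (σ * τ) x = unitsAut σ (unitsAut τ x) := by
  ext
  rfl

theorem unitsAut_pow (σ : L ≃ₐ[K] L) (n : ℕ) (x : (𝓞 L)ˣ) :
    unitsAut (σ ^ n) x = (unitsAut σ)^[n] x := by
  induction n generalizing x with
  | zero => rw [pow_zero, unitsAut_one]; rfl
  | succ n ih => rw [pow_succ, unitsAut_mul, ih, Function.iterate_succ_apply]

/-- The norm operator `x ↦ ∏ i < n, σ ^ i x` on units of `𝓞 L`. -/
def unitsNorm (σ : L ≃ₐ[K] L) (n : ℕ) : (𝓞 L)ˣ →* (𝓞 L)ˣ :=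
  ∏ i ∈ Finset.range n, (unitsAut (σ ^ i)).toMonoidHom

theorem unitsNorm_apply (σ : L ≃ₐ[K] L) (n : ℕ) (x : (𝓞 L)ˣ) :
    unitsNorm σ n x = ∏ i ∈ Finset.range n, unitsAut (σ ^ i) x := by
  simp [unitsNorm]

/-- The operator `x ↦ x / σ x` on units of `𝓞 L`. -/
def unitsDelta (σ : L ≃ₐ[K] L) : (𝓞 L)ˣ →* (𝓞 L)ˣ :=
  MonoidHom.id _ / (unitsAut σ).toMonoidHom

theorem unitsDelta_apply (σ : L ≃ₐ[K] L) (x : (𝓞 L)ˣ) :
    unitsDelta σ x = x / unitsAut σ x := rfl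

theorem coe_unitsDelta (σ : L ≃ₐ[K] L) (x : (𝓞 L)ˣ) :
    (((unitsDelta σ x : (𝓞 L)ˣ) : 𝓞 L) : L) = ((x : 𝓞 L) : L) / σ ((x : 𝓞 L) : L) := by
  have h : unitsDelta σ x * unitsAut σ x = x := by
    rw [unitsDelta_apply, div_mul_cancel]
  have h2 : (((unitsDelta σ x : (𝓞 L)ˣ) : 𝓞 L) : L) * σ ((x : 𝓞 L) : L) = ((x : 𝓞 L) : L) := by
    rw [← coe_unitsAut, ← map_mul, ← Units.val_mul, h]
  rw [eq_div_iff, h2]
  rw [← coe_unitsAut]
  exact RingOfIntegers.coe_ne_zero_iff.mpr (Units.ne_zero _)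

end Fermat.Agent.Kummer

end
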