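/-
KUMMER (K9 helper): a generic criterion for the different ideal to be trivial.
-/
import Mathlib

set_option autoImplicit false

namespace Fermat.Agent.Kummer

open NumberField Polynomial

/-- If `x : 𝓞 L` generates `L / K`, is a root of some `h : (𝓞 K)[X]`, and `h'(x)` is a unit,
then the different ideal of `𝓞 L / 𝓞 K` is trivial (so `L / K` is unramified everywhere). -/
theorem differentIdeal_eq_top_of_isUnit_derivative {K L : Type*} [Field K] [Field L]
    [NumberField K] [NumberField L] [Algebra K L] (x : 𝓞 L)
    (hx : IntermediateField.adjoin K {(x : L)} = ⊤) (h : (𝓞 K)[X]) (hroot : aeval x h = 0)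
    (hunit : IsUnit (aeval x (derivative h))) : differentIdeal (𝓞 K) (𝓞 L) = ⊤ := by
  have hint : IsIntegral (𝓞 K) x := (RingOfIntegers.isIntegral x).tower_top
  obtain ⟨g, hg⟩ : minpoly (𝓞 K) x ∣ h := minpoly.isIntegrallyClosed_dvd hint hroot
  have hintK : IsIntegral K (x : L) := (hint.map (IsScalarTower.toAlgHom (𝓞 K) (𝓞 L) L)).tower_top
  have hx' : Algebra.adjoin K {algebraMap (𝓞 L) L x} = ⊤ := by
    rw [← IntermediateField.adjoin_simple_toSubalgebra_of_isAlgebraic hintK.isAlgebraic, hx,
      IntermediateField.top_toSubalgebra]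
  have hmem := aeval_derivative_mem_differentIdeal (𝓞 K) K L x hx'
  have hder : aeval x (derivative h) = aeval x (derivative (minpoly (𝓞 K) x)) * aeval x g := by
    rw [hg, derivative_mul, map_add, map_mul, map_mul, minpoly.aeval, zero_mul, add_zero]
  rw [hder] at hunit
  exact Ideal.eq_top_of_isUnit_mem _ (Ideal.mul_mem_right _ _ hmem) hunit

end Fermat.Agent.Kummer
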