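import Mathlib

/-!
# Families of units with a sign pattern at the infinite places

A family of units `u w`, indexed by the infinite places, such that `u w` has absolute value
`< 1` at every place different from `w`, generates a subgroup of finite index in the unit
group, and the multiplicative relations between the `u w` form an infinite cyclic group.
-/

set_option autoImplicit false

open NumberField NumberField.InfinitePlace NumberField.Units
  NumberField.Units.dirichletUnitTheorem Module Finset Matrix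

namespace Fermat.Agent.Kummer

variable {L : Type*} [Field L] [NumberField L]

set_option backward.isDefEq.respectTransparency.types false in
/-- the log vectors of the family are linearly independent once the distinguished place is
dropped -/
theorem df_linearIndependent (u : InfinitePlace L → (𝓞 L)ˣ)
    (hu : ∀ w w' : InfinitePlace L, w' ≠ w → Real.log (w' ((u w : 𝓞 L) : L)) < 0) :
    LinearIndependent ℝ (fun w : {w : InfinitePlace L // w ≠ w₀} =>
      logEmbedding L (Additive.ofMul (u w))) := by
  classical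
  let B := Pi.basisFun ℝ {w : InfinitePlace L // w ≠ w₀}
  let v := fun w : { w : InfinitePlace L // w ≠ w₀ } ↦ logEmbedding L (Additive.ofMul (u w))
  suffices B.det v ≠ 0 by
    rw [← isUnit_iff_ne_zero, ← Basis.is_basis_iff_det] at this
    exact this.1
  rw [Basis.det_apply]
  refine det_ne_zero_of_sum_col_lt_diag (fun w ↦ ?_)
  simp_rw [Real.norm_eq_abs, B, Basis.coePiBasisFun.toMatrix_eq_transpose, Matrix.transpose_apply]
  rw [← sub_pos, sum_congr rfl (fun x hx ↦ abs_of_neg ?_), sum_neg_distrib, sub_neg_eq_add,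
    sum_erase_eq_sub (mem_univ _), ← add_comm_sub]
  · refine add_pos_of_nonneg_of_pos ?_ ?_
    · rw [sub_nonneg]
      exact le_abs_self _
    · rw [sum_logEmbedding_component (u w)]
      refine mul_pos_of_neg_of_neg ?_ (hu w w₀ w.prop.symm)
      rw [mult]; split_ifs <;> norm_num
  · refine mul_neg_of_pos_of_neg ?_ (hu w x ?_)
    · rw [mult]; split_ifs <;> norm_num
    · exact Subtype.ext_iff.not.mp (ne_of_mem_erase hx)

theorem df_log_prod (u : InfinitePlace L → (𝓞 L)ˣ) (c : InfinitePlace L → ℤ) :
    logEmbedding L (Additive.ofMul (∏ w, u w ^ c w))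
      = ∑ w, (c w : ℝ) • logEmbedding L (Additive.ofMul (u w)) := by
  rw [ofMul_prod, map_sum]
  refine Finset.sum_congr rfl fun w _ => ?_
  rw [ofMul_zpow, map_zsmul]
  exact (Int.cast_smul_eq_zsmul ℝ (c w) _).symm

/-- a relation whose exponent at the distinguished place vanishes is trivial -/
theorem df_eq_zero (u : InfinitePlace L → (𝓞 L)ˣ)
    (hu : ∀ w w' : InfinitePlace L, w' ≠ w → Real.log (w' ((u w : 𝓞 L) : L)) < 0)
    (c : InfinitePlace L → ℤ) (hc : ∏ w, u w ^ c w = 1) (h0 : c w₀ = 0) : c = 0 := by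
  classical
  have h1 := df_log_prod u c
  rw [hc, ofMul_one, map_zero, Fintype.sum_eq_add_sum_subtype_ne _ w₀, h0, Int.cast_zero,
    zero_smul, zero_add] at h1
  have h3 := Fintype.linearIndependent_iff.mp (df_linearIndependent u hu)
    (fun w => (c w : ℝ)) h1.symm
  funext w
  by_cases hw : w = w₀
  · rw [hw, h0]; rfl
  · exact_mod_cast h3 ⟨w, hw⟩

/-- any family of units indexed by the infinite places satisfies a nontrivial relation -/
theorem df_exists_relation (v : InfinitePlace L → (𝓞 L)ˣ) :
    ∃ g : InfinitePlace L → ℤ, g ≠ 0 ∧ ∏ w, v w ^ g w = 1 := by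
  classical
  have hcard : finrank ℤ (Additive (𝓞 L)ˣ) < Fintype.card (InfinitePlace L) := by
    rw [NumberField.Units.finrank_eq, NumberField.Units.rank]
    exact Nat.sub_lt Fintype.card_pos one_pos
  have hnot : ¬ LinearIndependent ℤ (fun w => Additive.ofMul (v w)) := fun h =>
    absurd h.fintype_card_le_finrank (not_le.mpr hcard)
  obtain ⟨g, hg, i, hi⟩ := Fintype.not_linearIndependent_iff.mp hnot
  refine ⟨g, fun h => hi (by rw [h]; rfl), ?_⟩
  apply Additive.ofMul.injective
  rw [ofMul_prod, ofMul_one, ← hg]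
  exact Finset.sum_congr rfl fun w _ => ofMul_zpow _ _

theorem dirichlet_family (u : InfinitePlace L → (𝓞 L)ˣ)
    (hu : ∀ w w' : InfinitePlace L, w' ≠ w → Real.log (w' ((u w : 𝓞 L) : L)) < 0) :
    (Subgroup.closure (Set.range u)).FiniteIndex ∧
    ∃ w₀ : InfinitePlace L → ℤ, w₀ ≠ 0 ∧
      ∀ c : InfinitePlace L → ℤ, ∏ w, u w ^ c w = 1 ↔ ∃ n : ℤ, c = n • w₀ := by
  classical
  constructor
  · -- finite index: the quotient is finitely generated and torsion
    set H := Subgroup.closure (Set.range u) with hH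
    have : Group.FG (𝓞 L)ˣ := Group.fg_iff_monoid_fg.mpr inferInstance
    have htors : ∀ y : (𝓞 L)ˣ ⧸ H, IsOfFinOrder y := by
      intro y
      obtain ⟨x, rfl⟩ := QuotientGroup.mk_surjective y
      obtain ⟨g, hg0, hg⟩ := df_exists_relation (fun w => if w = w₀ then x else u w)
      have hsplit : x ^ g w₀ * ∏ w ∈ univ.erase w₀, u w ^ g w = 1 := by
        rw [← hg, ← Finset.mul_prod_erase univ _ (mem_univ (w₀ : InfinitePlace L))]
        simp only [if_true]
        congr 1
        refine Finset.prod_congr rfl fun w hw => ?_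
        rw [if_neg (Finset.ne_of_mem_erase hw)]
      have hgw : g w₀ ≠ 0 := by
        intro h0
        apply hg0
        apply df_eq_zero u hu g _ h0
        rw [← Finset.mul_prod_erase univ _ (mem_univ (w₀ : InfinitePlace L)), h0, zpow_zero,
          one_mul]
        rw [h0, zpow_zero, one_mul] at hsplit
        exact hsplit
      have hx : x ^ g w₀ ∈ H := by
        rw [eq_inv_of_mul_eq_one_left hsplit]
        exact H.inv_mem (Subgroup.prod_mem _ fun w _ =>
          H.zpow_mem (Subgroup.subset_closure ⟨w, rfl⟩) _)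
      refine (isOfFinOrder_iff_zpow_eq_one (x := (x : (𝓞 L)ˣ ⧸ H))).mpr ⟨g w₀, hgw, ?_⟩
      rw [← QuotientGroup.mk_zpow]
      exact (QuotientGroup.eq_one_iff _).mpr hx
    have hfin : Finite ((𝓞 L)ˣ ⧸ H) :=
      CommGroup.finite_of_fg_isMulTorsion _ (fun y => htors y)
    exact Subgroup.finiteIndex_of_finite_quotient
  · -- the relation module
    obtain ⟨g, hg0, hg⟩ := df_exists_relation u
    have hgw : g w₀ ≠ 0 := fun h0 => hg0 (df_eq_zero u hu g hg h0)
    have hS : ∃ m : ℕ, 0 < m ∧ ∃ c : InfinitePlace L → ℤ,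
        ∏ w, u w ^ c w = 1 ∧ (c w₀).natAbs = m :=
      ⟨(g w₀).natAbs, Int.natAbs_pos.mpr hgw, g, hg, rfl⟩
    obtain ⟨hm0, c0, hc0, hc0m⟩ := Nat.find_spec hS
    have hmin := fun m hm => Nat.find_min' hS (m := m) hm
    have hc0w : c0 w₀ ≠ 0 := by
      intro h
      rw [h] at hc0m
      simp only [Int.natAbs_zero] at hc0m
      omega
    have hsmul : ∀ (n : ℤ) (c : InfinitePlace L → ℤ), ∏ w, u w ^ c w = 1 →
        ∏ w, u w ^ (n • c) w = 1 := by
      intro n c hc
      have : ∀ w, u w ^ (n • c) w = (u w ^ c w) ^ n := fun w => by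
        rw [Pi.smul_apply, smul_eq_mul, mul_comm, _root_.zpow_mul]
      simp_rw [this]
      rw [Finset.prod_zpow, hc, _root_.one_zpow]
    refine ⟨c0, fun h => hc0w (by rw [h]; rfl), fun c => ⟨fun hc => ?_, ?_⟩⟩
    · refine ⟨c w₀ / c0 w₀, ?_⟩
      set q := c w₀ / c0 w₀ with hq
      have hrel : ∏ w, u w ^ (c - q • c0) w = 1 := by
        have : ∀ w, u w ^ (c - q • c0) w = u w ^ c w * (u w ^ (q • c0) w)⁻¹ := fun w => by
          rw [Pi.sub_apply, _root_.zpow_sub]
        simp_rw [this]
        rw [Finset.prod_mul_distrib, Finset.prod_inv_distrib, hc, hsmul q c0 hc0, inv_one,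
          one_mul]
      by_contra hne
      have hd : c - q • c0 ≠ 0 := fun h => hne (sub_eq_zero.mp h)
      have hdw : (c - q • c0) w₀ ≠ 0 := fun h0 => hd (df_eq_zero u hu _ hrel h0)
      have hmod : (c - q • c0) w₀ = c w₀ % c0 w₀ := by
        rw [Pi.sub_apply, Pi.smul_apply, smul_eq_mul, hq, Int.emod_def]
        ring
      have hlt : ((c - q • c0) w₀).natAbs < (c0 w₀).natAbs := by
        rw [hmod]
        have h1 := Int.emod_nonneg (c w₀) hc0w
        have h2 := Int.emod_lt_abs (c w₀) hc0w
        have h3 := Int.natAbs_lt_natAbs_of_nonneg_of_lt h1 h2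
        rwa [Int.natAbs_abs] at h3
      have := hmin _ ⟨Int.natAbs_pos.mpr hdw, _, hrel, rfl⟩
      omega
    · rintro ⟨n, rfl⟩
      exact hsmul n c0 hc0

end Fermat.Agent.Kummer
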