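import Mathlib
import Fermat.Agent.Kummer.Defs

/-!
# Kummer project, K7a2: an equivariant Dirichlet family of units

Let `L / K` be a Galois extension of number fields of odd prime degree `p`.  Then `Gal(L/K)` acts
freely on the infinite places of `L`, and there is a family of units `u w` (`w` an infinite place
of `L`) with `u (g • w) = g (u w)` and `log |u w|_{w'} < 0` for all `w' ≠ w`.
-/

set_option autoImplicit false

open NumberField

namespace Fermat.Agent.Kummer

section

variable {K L : Type*} [Field K] [Field L] [NumberField K] [NumberField L] [Algebra K L]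

/-- In a Galois extension of odd prime degree all stabilisers of infinite places are trivial. -/
theorem equivFamily_stabilizer_eq_bot [IsGalois K L] (p : ℕ) [Fact p.Prime] (hp : p ≠ 2)
    (hKL : Module.finrank K L = p) (w : InfinitePlace L) :
    MulAction.stabilizer (L ≃ₐ[K] L) w = ⊥ := by
  have hcard : Nat.card (L ≃ₐ[K] L) = p := by rw [IsGalois.card_aut_eq_finrank, hKL]
  have hdvd : Nat.card (MulAction.stabilizer (L ≃ₐ[K] L) w) ∣ p := by
    rw [← hcard]
    exact Subgroup.card_subgroup_dvd_card _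
  rw [← Subgroup.card_eq_one]
  rcases InfinitePlace.nat_card_stabilizer_eq_one_or_two K w with h | h
  · exact h
  · rw [h] at hdvd
    exact absurd ((Nat.prime_dvd_prime_iff_eq Nat.prime_two (Fact.out : p.Prime)).mp hdvd).symm hp

/-- A generator of the Galois group moves every infinite place. -/
theorem equivFamily_smul_ne [IsGalois K L] (p : ℕ) [Fact p.Prime] (hp : p ≠ 2)
    (hKL : Module.finrank K L = p) (σ : L ≃ₐ[K] L) (hσ : ∀ τ, τ ∈ Subgroup.zpowers σ)
    (w : InfinitePlace L) : σ • w ≠ w := by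
  intro h
  have hmem : σ ∈ MulAction.stabilizer (L ≃ₐ[K] L) w := h
  rw [equivFamily_stabilizer_eq_bot p hp hKL w, Subgroup.mem_bot] at hmem
  have hcard : Nat.card (L ≃ₐ[K] L) = p := by rw [IsGalois.card_aut_eq_finrank, hKL]
  have hsub : Subsingleton (L ≃ₐ[K] L) := by
    refine ⟨fun a b => ?_⟩
    have ha := hσ a
    have hb := hσ b
    rw [hmem, Subgroup.zpowers_one_eq_bot, Subgroup.mem_bot] at ha hb
    rw [ha, hb]
  have h1 : Nat.card (L ≃ₐ[K] L) = 1 := Nat.card_unique
  have hp1 : p = 1 := by rw [← hcard, h1]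
  exact (Fact.out : p.Prime).ne_one hp1

omit [NumberField K] in
/-- An equivariant family of Dirichlet units, given that the Galois group acts freely on the
infinite places. -/
theorem equivFamily_exists_of_free
    (hfree : ∀ w : InfinitePlace L, MulAction.stabilizer (L ≃ₐ[K] L) w = ⊥) :
    ∃ u : InfinitePlace L → (𝓞 L)ˣ,
      (∀ (g : L ≃ₐ[K] L) (w : InfinitePlace L), u (g • w) = unitsAut g (u w)) ∧
      ∀ w w' : InfinitePlace L, w' ≠ w → Real.log (w' ((u w : 𝓞 L) : L)) < 0 := by
  classical
  -- orbit representatives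
  let rep : InfinitePlace L → InfinitePlace L := fun w =>
    Quotient.out (Quotient.mk (MulAction.orbitRel (L ≃ₐ[K] L) (InfinitePlace L)) w)
  have hrep : ∀ w, ∃ g : L ≃ₐ[K] L, g • rep w = w := by
    intro w
    have h : rep w ∈ MulAction.orbit (L ≃ₐ[K] L) w := by
      have h0 := Quotient.exact (Quotient.out_eq
        (Quotient.mk (MulAction.orbitRel (L ≃ₐ[K] L) (InfinitePlace L)) w))
      exact MulAction.orbitRel_apply.mp h0
    obtain ⟨g, hg⟩ := h
    exact ⟨g⁻¹, by rw [← hg]; exact inv_smul_smul _ _⟩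
  have hrep_smul : ∀ (g : L ≃ₐ[K] L) w, rep (g • w) = rep w := by
    intro g w
    have : Quotient.mk (MulAction.orbitRel (L ≃ₐ[K] L) (InfinitePlace L)) (g • w)
        = Quotient.mk (MulAction.orbitRel (L ≃ₐ[K] L) (InfinitePlace L)) w :=
      Quotient.sound ⟨g, rfl⟩
    show Quotient.out _ = Quotient.out _
    rw [this]
  choose γ hγ using hrep
  have huniq : ∀ (w : InfinitePlace L) (h : L ≃ₐ[K] L), h • rep w = w → h = γ w := by
    intro w h hh
    have h1 : (γ w)⁻¹ * h ∈ MulAction.stabilizer (L ≃ₐ[K] L) (rep w) := by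
      rw [MulAction.mem_stabilizer_iff]
      calc ((γ w)⁻¹ * h) • rep w = (γ w)⁻¹ • (h • rep w) := mul_smul _ _ _
        _ = (γ w)⁻¹ • (γ w • rep w) := by rw [hh, hγ w]
        _ = rep w := inv_smul_smul _ _
    rw [hfree, Subgroup.mem_bot] at h1
    exact (inv_mul_eq_one.mp h1).symm
  choose η hη using fun w₁ : InfinitePlace L => Units.dirichletUnitTheorem.exists_unit L w₁
  refine ⟨fun w => unitsAut (γ w) (η (rep w)), ?_, ?_⟩
  · intro g w
    have h1 : γ (g • w) = g * γ w := by
      symm
      apply huniq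
      rw [hrep_smul, mul_smul, hγ w]
    show unitsAut (γ (g • w)) (η (rep (g • w))) = _
    rw [h1, hrep_smul]
    apply Units.ext
    apply RingOfIntegers.ext
    rfl
  · intro w w' hne
    have h1 : (γ w)⁻¹ • w' ≠ rep w := by
      intro h
      apply hne
      rw [← hγ w, ← h, smul_inv_smul]
    have h2 := hη (rep w) ((γ w)⁻¹ • w') h1
    have h3 : ((γ w)⁻¹ • w') ((η (rep w) : 𝓞 L) : L)
        = w' ((unitsAut (γ w) (η (rep w)) : 𝓞 L) : L) := by
      rw [InfinitePlace.smul_apply, coe_unitsAut]
      rfl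
    rw [← h3]
    exact h2

/-- For a Galois extension of number fields of odd prime degree there is a family of units
`u w`, equivariant for the whole Galois group, with `log |u w|_{w'} < 0` for `w' ≠ w`. -/
theorem equivFamily_exists_all [IsGalois K L] (p : ℕ) [Fact p.Prime] (hp : p ≠ 2)
    (hKL : Module.finrank K L = p) :
    ∃ u : InfinitePlace L → (𝓞 L)ˣ,
      (∀ (g : L ≃ₐ[K] L) (w : InfinitePlace L), u (g • w) = unitsAut g (u w)) ∧
      ∀ w w' : InfinitePlace L, w' ≠ w → Real.log (w' ((u w : 𝓞 L) : L)) < 0 :=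
  equivFamily_exists_of_free (equivFamily_stabilizer_eq_bot p hp hKL)

/-- **K7a2.** `L / K` Galois of odd prime degree `p` with generator `σ`: `σ` moves every infinite
place of `L`, and there is a `σ`-equivariant family of units `u w` with `log |u w|_{w'} < 0` for
`w' ≠ w`. -/
theorem exists_equivariant_family [IsGalois K L] (p : ℕ) [Fact p.Prime] (hp : p ≠ 2)
    (hKL : Module.finrank K L = p) (σ : L ≃ₐ[K] L) (hσ : ∀ τ, τ ∈ Subgroup.zpowers σ) :
    (∀ w : InfinitePlace L, σ • w ≠ w) ∧
      ∃ u : InfinitePlace L → (𝓞 L)ˣ, (∀ w, u (σ • w) = unitsAut σ (u w)) ∧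
        ∀ w w' : InfinitePlace L, w' ≠ w → Real.log (w' ((u w : 𝓞 L) : L)) < 0 := by
  refine ⟨equivFamily_smul_ne p hp hKL σ hσ, ?_⟩
  obtain ⟨u, hu, hlog⟩ := equivFamily_exists_all (K := K) (L := L) p hp hKL
  exact ⟨u, fun w => hu σ w, hlog⟩

end

end Fermat.Agent.Kummer
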