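import Mathlib

/-!
Kummer project, package K7 (definitions): Galois action and relative norm on the
units of the ring of integers: `galU`, `normU`.
-/

set_option autoImplicit false

namespace Fermat.Agent.Kummer

open NumberField

section defs

variable {K L : Type*} [Field K] [Field L] [Algebra K L]

/-- The action of a Galois automorphism on the units of the ring of integers. -/
noncomputable def galU (τ : L ≃ₐ[K] L) : (𝓞 L)ˣ →* (𝓞 L)ˣ :=
  Units.map ((RingOfIntegers.mapRingHom ((τ : L ≃+* L) : L →+* L)) : 𝓞 L →* 𝓞 L)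

theorem coe_galU (τ : L ≃ₐ[K] L) (u : (𝓞 L)ˣ) :
    (((galU τ u : (𝓞 L)ˣ) : 𝓞 L) : L) = τ ((u : 𝓞 L) : L) := rfl

theorem galU_one (u : (𝓞 L)ˣ) : galU (1 : L ≃ₐ[K] L) u = u := by
  apply Units.ext; apply RingOfIntegers.ext; rfl

theorem galU_mul (τ τ' : L ≃ₐ[K] L) (u : (𝓞 L)ˣ) : galU (τ * τ') u = galU τ (galU τ' u) := by
  apply Units.ext; apply RingOfIntegers.ext; rfl

variable (K) in
/-- The relative norm as an endomorphism of the unit group. -/
noncomputable def normU [FiniteDimensional K L] : (𝓞 L)ˣ →* (𝓞 L)ˣ :=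
  ∏ τ : L ≃ₐ[K] L, galU τ

theorem normU_apply [FiniteDimensional K L] (u : (𝓞 L)ˣ) :
    normU K u = ∏ τ : L ≃ₐ[K] L, galU τ u := by
  unfold normU
  rw [MonoidHom.finsetProd_apply]

theorem normU_galU [FiniteDimensional K L] (τ : L ≃ₐ[K] L) (u : (𝓞 L)ˣ) :
    normU K (galU τ u) = normU K u := by
  rw [normU_apply, normU_apply]
  simp_rw [← galU_mul]
  exact Fintype.prod_equiv (Equiv.mulRight τ) _ _ (fun _ => rfl)

theorem galU_normU [FiniteDimensional K L] (τ : L ≃ₐ[K] L) (u : (𝓞 L)ˣ) :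
    galU τ (normU K u) = normU K u := by
  rw [normU_apply, map_prod]
  simp_rw [← galU_mul]
  exact Fintype.prod_equiv (Equiv.mulLeft τ) _ _ (fun _ => rfl)

theorem coe_normU [FiniteDimensional K L] [IsGalois K L] (u : (𝓞 L)ˣ) :
    (((normU K u : (𝓞 L)ˣ) : 𝓞 L) : L) = algebraMap K L (Algebra.norm K ((u : 𝓞 L) : L)) := by
  rw [Algebra.norm_eq_prod_automorphisms, normU_apply]
  simp only [Units.coe_prod, map_prod]
  rfl

end defs

end Fermat.Agent.Kummer
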