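/-
KUMMER package K6: the Herbrand index lemma (pure group theory).
-/
import Mathlib

set_option autoImplicit false

namespace Fermat.Agent.Kummer

/-- `[A : B] = [ker f : ker f ∩ B] * [f A : f B]`. -/
@[to_additive herbrand_index_formula_add]
theorem herbrand_index_formula {A : Type*} [CommGroup A] (f : A →* A) (B : Subgroup A) :
    (f.ker ⊓ B).relIndex f.ker * (B.map f).relIndex f.range = B.index := by
  have h1 : B.relIndex (B ⊔ f.ker) * (B ⊔ f.ker).index = B.index :=
    Subgroup.relIndex_mul_index le_sup_left
  have h2 : (B ⊔ f.ker).index = (B.map f).relIndex f.range := by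
    rw [← Subgroup.comap_map_eq, Subgroup.index_comap]
  have h3 : B.relIndex (B ⊔ f.ker) = B.relIndex f.ker := Subgroup.relIndex_sup_left f.ker B
  rw [Subgroup.inf_relIndex_left, ← h1, h2, h3]

/-- The Herbrand index lemma: for commuting-to-trivial endomorphisms `f`, `g` of a commutative
group `A` and a stable subgroup `B` of finite index, the Herbrand quotients of `A` and `B`
agree (in cross-multiplied form, valid with the convention that infinite indices are `0`). -/
@[to_additive herbrand_index_add]
theorem herbrand_index {A : Type*} [CommGroup A] (f g : A →* A) (hfg : ∀ x, f (g x) = 1)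
    (hgf : ∀ x, g (f x) = 1) (B : Subgroup A) [B.FiniteIndex] (hfB : ∀ x ∈ B, f x ∈ B)
    (hgB : ∀ x ∈ B, g x ∈ B) :
    g.range.relIndex f.ker * (B.map f).relIndex (g.ker ⊓ B) =
      f.range.relIndex g.ker * (B.map g).relIndex (f.ker ⊓ B) := by
  have hn : B.index ≠ 0 := Subgroup.FiniteIndex.index_ne_zero
  -- containments
  have hgA : g.range ≤ f.ker := by
    rintro _ ⟨x, rfl⟩
    exact hfg x
  have hfA : f.range ≤ g.ker := by
    rintro _ ⟨x, rfl⟩
    exact hgf x
  have hgBle : B.map g ≤ f.ker ⊓ B := by
    rintro _ ⟨x, hx, rfl⟩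
    exact ⟨hfg x, hgB x hx⟩
  have hfBle : B.map f ≤ g.ker ⊓ B := by
    rintro _ ⟨x, hx, rfl⟩
    exact ⟨hgf x, hfB x hx⟩
  -- chains of indices
  have c1 : (B.map g).relIndex g.range * g.range.relIndex f.ker = (B.map g).relIndex f.ker :=
    Subgroup.relIndex_mul_relIndex _ _ _ (Subgroup.map_le_range g B) hgA
  have c2 : (B.map g).relIndex (f.ker ⊓ B) * (f.ker ⊓ B).relIndex f.ker =
      (B.map g).relIndex f.ker :=
    Subgroup.relIndex_mul_relIndex _ _ _ hgBle inf_le_left
  have c3 : (B.map f).relIndex f.range * f.range.relIndex g.ker = (B.map f).relIndex g.ker :=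
    Subgroup.relIndex_mul_relIndex _ _ _ (Subgroup.map_le_range f B) hfA
  have c4 : (B.map f).relIndex (g.ker ⊓ B) * (g.ker ⊓ B).relIndex g.ker =
      (B.map f).relIndex g.ker :=
    Subgroup.relIndex_mul_relIndex _ _ _ hfBle inf_le_left
  have i1 := herbrand_index_formula f B
  have i2 := herbrand_index_formula g B
  -- arithmetic
  generalize g.range.relIndex f.ker = a1 at *
  generalize (B.map f).relIndex (g.ker ⊓ B) = b2 at *
  generalize f.range.relIndex g.ker = a2 at *
  generalize (B.map g).relIndex (f.ker ⊓ B) = b1 at *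
  generalize (B.map g).relIndex g.range = rg at *
  generalize (B.map f).relIndex f.range = rf at *
  generalize (f.ker ⊓ B).relIndex f.ker = kf at *
  generalize (g.ker ⊓ B).relIndex g.ker = kg at *
  generalize (B.map g).relIndex f.ker = X at *
  generalize (B.map f).relIndex g.ker = Y at *
  generalize B.index = n at *
  have key : n * (a1 * b2) = n * (a2 * b1) := by
    calc n * (a1 * b2) = kg * (rg * a1) * b2 := by rw [← i2]; ring
      _ = kg * (b1 * kf) * b2 := by rw [c1, c2]
      _ = (b2 * kg) * b1 * kf := by ring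
      _ = (rf * a2) * b1 * kf := by rw [c4, c3]
      _ = n * (a2 * b1) := by rw [← i1]; ring
  exact Nat.eq_of_mul_eq_mul_left (Nat.pos_of_ne_zero hn) key

end Fermat.Agent.Kummer
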