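import Mathlib
import Fermat.Agent.Kummer.Herbrand
import Fermat.Agent.Kummer.GalUnits

/-!
Kummer project, package K8 (glue): Hilbert's Theorem 92 for a cyclic extension `L/K` of number
fields of odd prime degree, deduced from the Herbrand index lemma (K6) and the existence of a
Galois stable subgroup of finite index of the unit group with explicit cohomology (K7).
-/

set_option autoImplicit false

open NumberField

namespace Fermat.Agent.Kummer

namespace H92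

variable {K L : Type*} [Field K] [Field L] [Algebra K L]

theorem units_ext {x y : (𝓞 L)ˣ} (h : ((x : 𝓞 L) : L) = ((y : 𝓞 L) : L)) : x = y :=
  Units.ext (RingOfIntegers.ext h)

theorem coe_div_units (x y : (𝓞 L)ˣ) :
    (((x / y : (𝓞 L)ˣ) : 𝓞 L) : L) = ((x : 𝓞 L) : L) / ((y : 𝓞 L) : L) := by
  rw [eq_div_iff (NumberField.Units.coe_ne_zero y)]
  exact congrArg (fun u : (𝓞 L)ˣ => ((u : 𝓞 L) : L)) (div_mul_cancel x y)

/-- `x ↦ x / σ x` as an endomorphism of the unit group -/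
noncomputable def dlU (σ : L ≃ₐ[K] L) : (𝓞 L)ˣ →* (𝓞 L)ˣ :=
  MonoidHom.id _ / galU σ

theorem dlU_apply (σ : L ≃ₐ[K] L) (x : (𝓞 L)ˣ) : dlU σ x = x / galU σ x := by
  unfold dlU
  rw [MonoidHom.div_apply]
  rfl

theorem coe_dlU (σ : L ≃ₐ[K] L) (x : (𝓞 L)ˣ) :
    (((dlU σ x : (𝓞 L)ˣ) : 𝓞 L) : L) = ((x : 𝓞 L) : L) / σ ((x : 𝓞 L) : L) := by
  rw [dlU_apply, coe_div_units]
  rfl

end H92

/-- Hilbert 92 from the Herbrand index lemma and the structure of a finite index subgroup of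
the units (the output of package K7). -/
theorem hilbert92_of_units_subgroup {K L : Type*} [Field K] [Field L] [Algebra K L]
    [FiniteDimensional K L] [IsGalois K L] (σ : L ≃ₐ[K] L)
    (h : ∃ B : Subgroup (𝓞 L)ˣ, B.FiniteIndex ∧ (∀ τ : L ≃ₐ[K] L, ∀ x ∈ B, galU τ x ∈ B) ∧
      (∀ x ∈ B, galU σ x = x → ∃ y ∈ B, normU K y = x) ∧
      ∃ y₀ ∈ B, normU K y₀ = 1 ∧ ∀ y ∈ B, y₀ ≠ y / galU σ y) :
    ∃ η : (𝓞 L)ˣ, Algebra.norm K ((η : 𝓞 L) : L) = 1 ∧
      ∀ ε : (𝓞 L)ˣ, ((η : 𝓞 L) : L) ≠ ((ε : 𝓞 L) : L) / σ ((ε : 𝓞 L) : L) := by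
  obtain ⟨B, hBfin, hBσ, hBfix, y0, hy0B, hy0N, hy0⟩ := h
  have hfg : ∀ x, normU K (H92.dlU σ x) = 1 := by
    intro x
    rw [H92.dlU_apply, map_div, normU_galU, div_self']
  have hgf : ∀ x, H92.dlU σ (normU K x) = 1 := by
    intro x
    rw [H92.dlU_apply, galU_normU, div_self']
  have hfB : ∀ x ∈ B, normU K x ∈ B := by
    intro x hx
    rw [normU_apply]
    exact Subgroup.prod_mem B fun τ _ => hBσ τ x hx
  have hgB : ∀ x ∈ B, H92.dlU σ x ∈ B := by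
    intro x hx
    rw [H92.dlU_apply]
    exact B.div_mem hx (hBσ σ x hx)
  have key := @herbrand_index _ _ (normU K) (H92.dlU σ) hfg hgf B hBfin hfB hgB
  have h1 : (B.map (normU K)).relIndex ((H92.dlU σ).ker ⊓ B) = 1 := by
    rw [Subgroup.relIndex_eq_one]
    rintro x ⟨hx1, hx2⟩
    have hx1' : x / galU σ x = 1 := by
      rw [← H92.dlU_apply]
      exact MonoidHom.mem_ker.mp hx1
    obtain ⟨y, hy, hxy⟩ := hBfix x hx2 (div_eq_one.mp hx1').symm
    exact ⟨y, hy, hxy⟩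
  have h2 : (B.map (H92.dlU σ)).relIndex ((normU K).ker ⊓ B) ≠ 1 := by
    rw [Ne, Subgroup.relIndex_eq_one]
    intro hle
    have hy0mem : y0 ∈ (normU K).ker ⊓ B := ⟨MonoidHom.mem_ker.mpr hy0N, hy0B⟩
    obtain ⟨y, hy, hyy0⟩ := hle hy0mem
    exact hy0 y hy (by rw [← hyy0, H92.dlU_apply])
  have h3 : (H92.dlU σ).range.relIndex (normU K).ker ≠ 1 := by
    intro h
    rw [h, h1, one_mul] at key
    exact h2 (Nat.eq_one_of_mul_eq_one_left key.symm)
  rw [Ne, Subgroup.relIndex_eq_one] at h3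
  obtain ⟨η, hη1, hη2⟩ := SetLike.not_le_iff_exists.mp h3
  refine ⟨η, ?_, fun ε hε => hη2 ⟨ε, H92.units_ext (by rw [H92.coe_dlU, hε])⟩⟩
  apply FaithfulSMul.algebraMap_injective K L
  rw [← coe_normU, MonoidHom.mem_ker.mp hη1, map_one]
  rfl

end Fermat.Agent.Kummer
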