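/-
KUMMER package K7b: the permutation-module algebra behind Hilbert 92 (pure algebra).

`W` a finite set with a fixed-point-free permutation `τ` of prime order `p ≠ 2`, `E` a commutative
group with an automorphism `s`, `u : W → E` equivariant, and the relations among the `u w` form an
infinite cyclic group `ℤ • w₀`, `w₀ ≠ 0`.  Then in `B = closure (range u)`:
(i) every `s`-fixed element is a norm `∏_{i<p} s^i y`, `y ∈ B`;
(ii) there is `y₀ ∈ B` of norm `1` which is not of the form `y / s y`, `y ∈ B`.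
-/
import Mathlib

set_option autoImplicit false
set_option linter.unusedSectionVars false
set_option linter.unusedSimpArgs false

namespace Fermat.Agent.Kummer

section UnitsAlgebra

variable {W : Type*} [Fintype W] {E : Type*} [CommGroup E]

/-- the product `∏ w, u w ^ c w` -/
noncomputable def uaProd (u : W → E) (c : W → ℤ) : E := ∏ w, u w ^ c w

theorem uaProd_zero (u : W → E) : uaProd u 0 = 1 := by simp [uaProd]

theorem uaProd_add (u : W → E) (c d : W → ℤ) :
    uaProd u (c + d) = uaProd u c * uaProd u d := by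
  simp [uaProd, zpow_add, Finset.prod_mul_distrib]

theorem uaProd_neg (u : W → E) (c : W → ℤ) : uaProd u (-c) = (uaProd u c)⁻¹ := by
  simp [uaProd, Finset.prod_inv_distrib]

theorem uaProd_sub (u : W → E) (c d : W → ℤ) :
    uaProd u (c - d) = uaProd u c / uaProd u d := by
  rw [sub_eq_add_neg, uaProd_add, uaProd_neg, div_eq_mul_inv]

theorem uaProd_sum {ι : Type*} (u : W → E) (t : Finset ι) (c : ι → W → ℤ) :
    uaProd u (∑ i ∈ t, c i) = ∏ i ∈ t, uaProd u (c i) := by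
  classical
  induction t using Finset.induction_on with
  | empty => simp [uaProd_zero]
  | insert a t ha ih => rw [Finset.sum_insert ha, Finset.prod_insert ha, uaProd_add, ih]

theorem uaProd_single [DecidableEq W] (u : W → E) (w : W) :
    uaProd u (Pi.single w 1) = u w := by
  unfold uaProd
  rw [Finset.prod_eq_single w]
  · simp
  · intro b _ hb
    simp [Pi.single_apply, hb]
  · intro h
    exact absurd (Finset.mem_univ w) h

/-- the subgroup generated by the `u w` consists of the products `∏ w, u w ^ c w` -/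
theorem mem_closure_range_iff (u : W → E) (x : E) :
    x ∈ Subgroup.closure (Set.range u) ↔ ∃ c : W → ℤ, x = ∏ w, u w ^ c w := by
  classical
  constructor
  · intro hx
    induction hx using Subgroup.closure_induction with
    | mem x hx =>
      obtain ⟨w, rfl⟩ := hx
      exact ⟨Pi.single w 1, (uaProd_single u w).symm⟩
    | one => exact ⟨0, (uaProd_zero u).symm⟩
    | mul x y _ _ hx hy =>
      obtain ⟨c, rfl⟩ := hx
      obtain ⟨d, rfl⟩ := hy
      exact ⟨c + d, (uaProd_add u c d).symm⟩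
    | inv x _ hx =>
      obtain ⟨c, rfl⟩ := hx
      exact ⟨-c, (uaProd_neg u c).symm⟩
  · rintro ⟨c, rfl⟩
    exact Subgroup.prod_mem _ fun w _ =>
      Subgroup.zpow_mem _ (Subgroup.subset_closure (Set.mem_range_self w)) _

/-- equivariance of the product map: precomposing the exponents with `τ⁻¹` applies `s` -/
theorem uaProd_comp_symm (u : W → E) (τ : Equiv.Perm W) (s : E ≃* E)
    (hu : ∀ w, u (τ w) = s (u w)) (c : W → ℤ) :
    uaProd u (c ∘ τ.symm) = s (uaProd u c) := by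
  unfold uaProd
  rw [map_prod, ← Equiv.prod_comp τ (fun w => u w ^ (c ∘ τ.symm) w)]
  refine Finset.prod_congr rfl fun w _ => ?_
  simp [hu, map_zpow]

theorem uaProd_comp_pow (u : W → E) (ρ : Equiv.Perm W) (s : E ≃* E)
    (h : ∀ c : W → ℤ, uaProd u (c ∘ ρ) = s (uaProd u c)) (c : W → ℤ) (i : ℕ) :
    uaProd u (c ∘ ⇑(ρ ^ i)) = (s ^ i) (uaProd u c) := by
  induction i with
  | zero => simp
  | succ i ih =>
    have h1 : c ∘ ⇑(ρ ^ (i + 1)) = (c ∘ ⇑(ρ ^ i)) ∘ ⇑ρ := by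
      funext w
      simp [pow_succ, Equiv.Perm.mul_apply]
    rw [h1, h, ih, pow_succ', MulAut.mul_apply]

/-! ### Free orbits -/

theorem ua_dvd_of_pow_apply_eq {p : ℕ} (hp : p.Prime) (ρ : Equiv.Perm W) (hρp : ρ ^ p = 1)
    (hρ : ∀ w, ρ w ≠ w) {k : ℕ} {w : W} (h : (ρ ^ k) w = w) : p ∣ k := by
  have h1 : Function.IsPeriodicPt ρ k w := by
    rw [Function.IsPeriodicPt, Function.IsFixedPt, Equiv.Perm.iterate_eq_pow]
    exact h
  have h2 : Function.IsPeriodicPt ρ p w := by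
    rw [Function.IsPeriodicPt, Function.IsFixedPt, Equiv.Perm.iterate_eq_pow, hρp]
    rfl
  have h3 := h2.minimalPeriod_dvd
  have h4 : Function.minimalPeriod ρ w ≠ 1 := by
    intro h5
    rw [Function.minimalPeriod_eq_one_iff_isFixedPt] at h5
    exact hρ w h5
  rcases (Nat.dvd_prime hp).1 h3 with h5 | h5
  · exact absurd h5 h4
  · rw [← h5]
    exact h1.minimalPeriod_dvd

theorem ua_eq_of_pow_apply_eq {p : ℕ} (hp : p.Prime) (ρ : Equiv.Perm W) (hρp : ρ ^ p = 1)
    (hρ : ∀ w, ρ w ≠ w) {i j : ℕ} (hi : i < p) (hj : j < p) {w : W}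
    (h : (ρ ^ i) w = (ρ ^ j) w) : i = j := by
  wlog hij : i ≤ j generalizing i j
  · exact (this hj hi h.symm (le_of_not_ge hij)).symm
  have h1 : (ρ ^ (j - i)) ((ρ ^ i) w) = (ρ ^ i) w := by
    rw [← Equiv.Perm.mul_apply, ← pow_add, Nat.sub_add_cancel hij, h]
  have h2 := ua_dvd_of_pow_apply_eq hp ρ hρp hρ h1
  have h3 : j - i = 0 := Nat.eq_zero_of_dvd_of_lt h2 (lt_of_le_of_lt (Nat.sub_le j i) hj)
  omega

/-- the orbit relation of a permutation -/
def uaSetoid (ρ : Equiv.Perm W) : Setoid W where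
  r a b := ∃ i : ℤ, (ρ ^ i) a = b
  iseqv :=
    ⟨fun a => ⟨0, by simp⟩,
      fun {a b} ⟨i, hi⟩ => ⟨-i, by rw [← hi, ← Equiv.Perm.mul_apply, ← zpow_add]; simp⟩,
      fun {a b c} ⟨i, hi⟩ ⟨j, hj⟩ => ⟨j + i, by rw [zpow_add, Equiv.Perm.mul_apply, hi, hj]⟩⟩

/-- a chosen representative of the orbit of `w` -/
noncomputable def uaRep (ρ : Equiv.Perm W) (w : W) : W := (Quotient.mk (uaSetoid ρ) w).out

theorem uaRep_spec (ρ : Equiv.Perm W) (w : W) : ∃ i : ℤ, (ρ ^ i) (uaRep ρ w) = w :=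
  Quotient.mk_out (s := uaSetoid ρ) w

theorem uaRep_zpow (ρ : Equiv.Perm W) (i : ℤ) (w : W) : uaRep ρ ((ρ ^ i) w) = uaRep ρ w := by
  unfold uaRep
  congr 1
  refine Quotient.sound (s := uaSetoid ρ) ⟨-i, ?_⟩
  rw [← Equiv.Perm.mul_apply, ← zpow_add]
  simp

theorem uaRep_pow (ρ : Equiv.Perm W) (i : ℕ) (w : W) : uaRep ρ ((ρ ^ i) w) = uaRep ρ w := by
  have := uaRep_zpow ρ (i : ℤ) w
  rwa [zpow_natCast] at this

theorem uaRep_idem (ρ : Equiv.Perm W) (w : W) : uaRep ρ (uaRep ρ w) = uaRep ρ w := by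
  obtain ⟨i, hi⟩ := uaRep_spec ρ w
  conv_rhs => rw [← hi]
  rw [uaRep_zpow]

theorem uaRep_exists_pow {p : ℕ} (hp : p.Prime) (ρ : Equiv.Perm W) (hρp : ρ ^ p = 1) (w : W) :
    ∃ i : ℕ, i < p ∧ (ρ ^ i) w = uaRep ρ w := by
  obtain ⟨j, hj⟩ := uaRep_spec ρ w
  have hp0 : (0 : ℤ) < (p : ℤ) := by exact_mod_cast hp.pos
  have h1 : (ρ ^ (-j)) w = uaRep ρ w := by
    have h0 := congrArg (⇑(ρ ^ (-j))) hj
    rw [← Equiv.Perm.mul_apply, ← zpow_add] at h0
    simpa using h0.symm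
  rw [zpow_eq_zpow_emod' (-j) hρp] at h1
  have h2 : 0 ≤ (-j) % (p : ℤ) := Int.emod_nonneg _ hp0.ne'
  have h3 : (-j) % (p : ℤ) < (p : ℤ) := Int.emod_lt_of_pos _ hp0
  refine ⟨((-j) % (p : ℤ)).toNat, ?_, ?_⟩
  · have : (((-j) % (p : ℤ)).toNat : ℤ) < (p : ℤ) := by rwa [Int.toNat_of_nonneg h2]
    exact_mod_cast this
  · rw [← zpow_natCast, Int.toNat_of_nonneg h2]
    exact h1

/-- Restriction of `f` to the chosen orbit representatives. -/
noncomputable def uaRestr (ρ : Equiv.Perm W) (f : W → ℤ) : W → ℤ := by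
  classical
  exact fun w => if uaRep ρ w = w then f w else 0

/-- For an invariant `f`, the orbit sums of its restriction to the representatives recover `f`. -/
theorem uaRestr_sum {p : ℕ} (hp : p.Prime) (ρ : Equiv.Perm W) (hρp : ρ ^ p = 1)
    (hρ : ∀ w, ρ w ≠ w) (f : W → ℤ) (hf : ∀ w, f (ρ w) = f w) (w : W) :
    ∑ i ∈ Finset.range p, uaRestr ρ f ((ρ ^ i) w) = f w := by
  classical
  have hfpow : ∀ (i : ℕ) (v : W), f ((ρ ^ i) v) = f v := by
    intro i
    induction i with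
    | zero => intro v; simp
    | succ i ih =>
      intro v
      rw [pow_succ', Equiv.Perm.mul_apply, hf, ih]
  obtain ⟨i₀, hi₀, hi₀eq⟩ := uaRep_exists_pow hp ρ hρp w
  rw [Finset.sum_eq_single_of_mem i₀ (Finset.mem_range.2 hi₀)]
  · unfold uaRestr
    rw [hi₀eq, if_pos (uaRep_idem ρ w), ← hi₀eq, hfpow]
  · intro i hi hne
    unfold uaRestr
    rw [if_neg]
    intro h
    rw [uaRep_pow, ← hi₀eq] at h
    exact hne (ua_eq_of_pow_apply_eq hp ρ hρp hρ (Finset.mem_range.1 hi) hi₀ h.symm)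

/-- the orbit sum functional is invariant under precomposition with `ρ` -/
theorem ua_orbitSum_comp {p : ℕ} (hp : p.Prime) (ρ : Equiv.Perm W) (hρp : ρ ^ p = 1)
    (c : W → ℤ) (w : W) :
    ∑ i ∈ Finset.range p, (c ∘ ρ) ((ρ ^ i) w) = ∑ i ∈ Finset.range p, c ((ρ ^ i) w) := by
  obtain ⟨q, rfl⟩ : ∃ q, p = q + 1 := ⟨p - 1, (Nat.succ_pred_eq_of_pos hp.pos).symm⟩
  have h1 : ∀ i : ℕ, (c ∘ ρ) ((ρ ^ i) w) = c ((ρ ^ (i + 1)) w) := by
    intro i
    simp [pow_succ', Equiv.Perm.mul_apply]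
  simp only [h1]
  rw [Finset.sum_range_succ, Finset.sum_range_succ', hρp]
  simp

end UnitsAlgebra

/-- **K7b.** The permutation-module algebra behind Hilbert 92. -/
theorem units_algebra {W : Type*} [Fintype W] {E : Type*} [CommGroup E] (p : ℕ) [Fact p.Prime]
    (hp : p ≠ 2) (τ : Equiv.Perm W) (hτp : τ ^ p = 1) (hτ : ∀ w, τ w ≠ w) (s : E ≃* E)
    (u : W → E) (hu : ∀ w, u (τ w) = s (u w)) (w₀ : W → ℤ) (hw₀ : w₀ ≠ 0)
    (hrel : ∀ c : W → ℤ, ∏ w, u w ^ c w = 1 ↔ ∃ n : ℤ, c = n • w₀) :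
    (∀ x ∈ Subgroup.closure (Set.range u), s x = x →
      ∃ y ∈ Subgroup.closure (Set.range u), x = ∏ i ∈ Finset.range p, (s ^ i) y) ∧
    (∃ y₀ ∈ Subgroup.closure (Set.range u), ∏ i ∈ Finset.range p, (s ^ i) y₀ = 1 ∧
      ∀ y ∈ Subgroup.closure (Set.range u), y₀ ≠ y / s y) := by
  classical
  have hpp : p.Prime := Fact.out
  have hodd : Odd p := hpp.odd_of_ne_two hp
  -- work with ρ = τ⁻¹
  set ρ : Equiv.Perm W := τ.symm with hρdef
  have hρp : ρ ^ p = 1 := by
    have : ρ = τ⁻¹ := rfl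
    rw [this, inv_pow, hτp, inv_one]
  have hρ : ∀ w, ρ w ≠ w := by
    intro w h
    apply hτ w
    have := congrArg τ h
    rw [hρdef, Equiv.apply_symm_apply] at this
    exact this.symm
  have hφρ : ∀ c : W → ℤ, uaProd u (c ∘ ρ) = s (uaProd u c) := uaProd_comp_symm u τ s hu
  have hrel' : ∀ c : W → ℤ, uaProd u c = 1 ↔ ∃ n : ℤ, c = n • w₀ := hrel
  have hmem : ∀ x, x ∈ Subgroup.closure (Set.range u) ↔ ∃ c : W → ℤ, x = uaProd u c :=
    mem_closure_range_iff u
  -- a point where w₀ does not vanish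
  obtain ⟨w₁, hw₁⟩ : ∃ w₁, w₀ w₁ ≠ 0 := by
    by_contra hcon
    push Not at hcon
    exact hw₀ (funext hcon)
  -- w₀ is ρ-invariant
  have hw₀ρ : w₀ ∘ ρ = w₀ := by
    have h1 : uaProd u (w₀ ∘ ρ) = 1 := by
      rw [hφρ, (hrel' w₀).2 ⟨1, by simp⟩, map_one]
    obtain ⟨n, hn⟩ := (hrel' _).1 h1
    have h2 : ∀ k : ℕ, w₀ ∘ ⇑(ρ ^ k) = n ^ k • w₀ := by
      intro k
      induction k with
      | zero => simp
      | succ k ih =>
        have : w₀ ∘ ⇑(ρ ^ (k + 1)) = (w₀ ∘ ρ) ∘ ⇑(ρ ^ k) := by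
          funext w
          simp [pow_succ', Equiv.Perm.mul_apply]
        rw [this, hn]
        funext w
        have := congrFun ih w
        simp only [Function.comp_apply, Pi.smul_apply, smul_eq_mul] at this ⊢
        rw [this, pow_succ]
        ring
    have h3 := congrFun (h2 p) w₁
    rw [hρp] at h3
    simp only [Equiv.Perm.coe_one, Function.comp_apply, id_eq, Pi.smul_apply, smul_eq_mul] at h3
    have h4 : n ^ p = 1 := by
      have : (n ^ p - 1) * w₀ w₁ = 0 := by linarith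
      rcases mul_eq_zero.1 this with h | h
      · linarith
      · exact absurd h hw₁
    have h5 : n = 1 := by
      have : n ^ p = 1 ^ p := by rw [h4, one_pow]
      exact hodd.pow_inj.1 this
    rw [hn, h5, one_smul]
  have hw₀ρ' : ∀ w, w₀ (ρ w) = w₀ w := fun w => congrFun hw₀ρ w
  have hw₀pow : ∀ (i : ℕ) (v : W), w₀ ((ρ ^ i) v) = w₀ v := by
    intro i
    induction i with
    | zero => intro v; simp
    | succ i ih =>
      intro v
      rw [pow_succ', Equiv.Perm.mul_apply, hw₀ρ', ih]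
  -- orbit sum functional at w₁
  let ε : (W → ℤ) → ℤ := fun c => ∑ i ∈ Finset.range p, c ((ρ ^ i) w₁)
  have hεw₀ : ∀ n : ℤ, ε (n • w₀) = n * (p * w₀ w₁) := by
    intro n
    simp only [ε, Pi.smul_apply, smul_eq_mul, hw₀pow, Finset.sum_const, Finset.card_range,
      nsmul_eq_mul]
    ring
  have hεcomp : ∀ c : W → ℤ, ε (c ∘ ρ) = ε c := fun c => ua_orbitSum_comp hpp ρ hρp c w₁
  have hεsub : ∀ c d : W → ℤ, ε (c - d) = ε c - ε d := by
    intro c d
    simp only [ε, Pi.sub_apply, Finset.sum_sub_distrib]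
  have hεadd : ∀ c d : W → ℤ, ε (c + d) = ε c + ε d := by
    intro c d
    simp only [ε, Pi.add_apply, Finset.sum_add_distrib]
  have hp0 : (p : ℤ) ≠ 0 := by exact_mod_cast hpp.ne_zero
  -- norm formula
  have hnorm : ∀ g : W → ℤ, uaProd u (fun w => ∑ i ∈ Finset.range p, g ((ρ ^ i) w))
      = ∏ i ∈ Finset.range p, (s ^ i) (uaProd u g) := by
    intro g
    have h1 : (fun w => ∑ i ∈ Finset.range p, g ((ρ ^ i) w))
        = ∑ i ∈ Finset.range p, g ∘ ⇑(ρ ^ i) := by
      funext w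
      simp [Finset.sum_apply]
    rw [h1, uaProd_sum]
    exact Finset.prod_congr rfl fun i _ => uaProd_comp_pow u ρ s hφρ g i
  refine ⟨?_, ?_⟩
  · -- (i)
    intro x hx hsx
    obtain ⟨f, rfl⟩ := (hmem x).1 hx
    have h1 : uaProd u (f ∘ ρ - f) = 1 := by
      rw [uaProd_sub, hφρ, hsx, div_self']
    obtain ⟨n, hn⟩ := (hrel' _).1 h1
    have h2 : n * (p * w₀ w₁) = 0 := by
      rw [← hεw₀, ← hn, hεsub, hεcomp, sub_self]
    have hn0 : n = 0 := by
      rcases mul_eq_zero.1 h2 with h | h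
      · exact h
      · rcases mul_eq_zero.1 h with h | h
        · exact absurd h hp0
        · exact absurd h hw₁
    have hfρ : ∀ w, f (ρ w) = f w := by
      intro w
      have := congrFun hn w
      simp only [hn0, zero_smul, Pi.sub_apply, Function.comp_apply, Pi.zero_apply] at this
      linarith
    refine ⟨uaProd u (uaRestr ρ f), (hmem _).2 ⟨_, rfl⟩, ?_⟩
    rw [← hnorm]
    congr 1
    funext w
    exact (uaRestr_sum hpp ρ hρp hρ f hfρ w).symm
  · -- (ii)
    refine ⟨uaProd u (uaRestr ρ w₀), (hmem _).2 ⟨_, rfl⟩, ?_, ?_⟩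
    · rw [← hnorm]
      have : (fun w => ∑ i ∈ Finset.range p, uaRestr ρ w₀ ((ρ ^ i) w)) = w₀ := by
        funext w
        exact uaRestr_sum hpp ρ hρp hρ w₀ hw₀ρ' w
      rw [this]
      exact (hrel' w₀).2 ⟨1, by simp⟩
    · intro y hy hcon
      obtain ⟨f, rfl⟩ := (hmem y).1 hy
      have h1 : uaProd u (uaRestr ρ w₀ - (f - f ∘ ρ)) = 1 := by
        rw [uaProd_sub, uaProd_sub, hφρ, hcon, div_self']
      obtain ⟨n, hn⟩ := (hrel' _).1 h1
      have h2 : ε (uaRestr ρ w₀) = w₀ w₁ := uaRestr_sum hpp ρ hρp hρ w₀ hw₀ρ' w₁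
      have h3 : w₀ w₁ = n * (p * w₀ w₁) := by
        rw [← hεw₀, ← hn, hεsub, hεsub, hεcomp, sub_self, sub_zero, h2]
      have h4 : (1 - n * p) * w₀ w₁ = 0 := by linarith
      have h5 : 1 - n * (p : ℤ) = 0 := by
        rcases mul_eq_zero.1 h4 with h | h
        · exact h
        · exact absurd h hw₁
      have h6 : (p : ℤ) ∣ 1 := ⟨n, by linarith⟩
      have h7 : p ∣ 1 := by exact_mod_cast h6
      exact hpp.one_lt.ne' (Nat.dvd_one.1 h7)

end Fermat.Agent.Kummer
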