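import Mathlib
import Fermat.Agent.Kummer.Defs
import Fermat.Agent.Kummer.GalUnits
import Fermat.Agent.Kummer.Hilbert92Glue
import Fermat.Agent.Kummer.EquivariantFamily
import Fermat.Agent.Kummer.DirichletFamily
import Fermat.Agent.Kummer.UnitsAlgebra

/-!
# Kummer project: Hilbert 92 from the split route

Assembly of the equivariant Dirichlet family (K7a2), the Dirichlet family lemma (K7a1) and the
permutation module algebra (K7b) into the structure theorem for a finite index subgroup of the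
units (K7), and then Hilbert's Theorem 92 through the Herbrand index glue (K8).
-/

set_option autoImplicit false

open NumberField

namespace Fermat.Agent.Kummer

section

variable {K L : Type*} [Field K] [Field L] [NumberField K] [NumberField L] [Algebra K L]

omit [NumberField K] [NumberField L] in
theorem h92parts_galU_eq (τ : L ≃ₐ[K] L) (x : (𝓞 L)ˣ) : galU τ x = unitsAut τ x :=
  Units.ext (RingOfIntegers.ext rfl)

omit [NumberField K] [NumberField L] in
theorem h92parts_unitsAut_pow (σ : L ≃ₐ[K] L) (i : ℕ) (x : (𝓞 L)ˣ) :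
    ((unitsAut σ) ^ i) x = unitsAut (σ ^ i) x := by
  induction i generalizing x with
  | zero => rw [pow_zero, pow_zero, unitsAut_one]; rfl
  | succ n ih =>
    rw [pow_succ, pow_succ, MulAut.mul_apply, ih, unitsAut_mul]

omit [NumberField K] [NumberField L] in
/-- A product over a finite group generated by `σ` is a product over the powers of `σ`. -/
theorem h92parts_prod_eq [FiniteDimensional K L] (σ : L ≃ₐ[K] L)
    (hσ : ∀ τ, τ ∈ Subgroup.zpowers σ) {M : Type*} [CommMonoid M] (f : (L ≃ₐ[K] L) → M) :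
    ∏ τ : L ≃ₐ[K] L, f τ = ∏ i ∈ Finset.range (Nat.card (L ≃ₐ[K] L)), f (σ ^ i) := by
  have hord : orderOf σ = Nat.card (L ≃ₐ[K] L) := orderOf_eq_card_of_forall_mem_zpowers hσ
  rw [← hord]
  symm
  refine Finset.prod_bij (fun i _ => σ ^ i) (fun _ _ => Finset.mem_univ _) ?_ ?_ (fun _ _ => rfl)
  · intro i hi j hj hij
    exact pow_injOn_Iio_orderOf (Finset.mem_range.mp hi) (Finset.mem_range.mp hj) hij
  · intro τ _
    have hτ := hσ τ
    rw [← mem_powers_iff_mem_zpowers] at hτ
    obtain ⟨n, hn⟩ := hτ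
    refine ⟨n % orderOf σ, Finset.mem_range.mpr (Nat.mod_lt _ (orderOf_pos σ)), ?_⟩
    rw [pow_mod_orderOf]
    exact hn

/-- **K7 (split route).** The structure theorem for a Galois stable subgroup of finite index of
the units of a cyclic extension of odd prime degree. -/
theorem exists_units_subgroup_parts [IsGalois K L] (p : ℕ) [Fact p.Prime] (hp : p ≠ 2)
    (hKL : Module.finrank K L = p) (σ : L ≃ₐ[K] L) (hσ : ∀ τ, τ ∈ Subgroup.zpowers σ) :
    ∃ B : Subgroup (𝓞 L)ˣ, B.FiniteIndex ∧ (∀ τ : L ≃ₐ[K] L, ∀ x ∈ B, galU τ x ∈ B) ∧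
      (∀ x ∈ B, galU σ x = x → ∃ y ∈ B, normU K y = x) ∧
      ∃ y₀ ∈ B, normU K y₀ = 1 ∧ ∀ y ∈ B, y₀ ≠ y / galU σ y := by
  have hcard : Nat.card (L ≃ₐ[K] L) = p := by rw [IsGalois.card_aut_eq_finrank, hKL]
  obtain ⟨u, hu, hlog⟩ := equivFamily_exists_all (K := K) (L := L) p hp hKL
  obtain ⟨hfin, w₀, hw₀, hrel⟩ := dirichlet_family u hlog
  have hfree := equivFamily_smul_ne p hp hKL σ hσ
  -- the permutation of the infinite places induced by `σ`
  let τ : Equiv.Perm (InfinitePlace L) := MulAction.toPerm σ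
  have hτp : τ ^ p = 1 := by
    have h1 : σ ^ p = 1 := by rw [← hcard]; exact pow_card_eq_one'
    have h2 : τ ^ p = MulAction.toPerm (σ ^ p) := by
      change (MulAction.toPermHom (L ≃ₐ[K] L) (InfinitePlace L) σ) ^ p = _
      rw [← map_pow]
      rfl
    rw [h2, h1]
    ext w
    simp
  have hτ : ∀ w, τ w ≠ w := fun w => hfree w
  have huτ : ∀ w, u (τ w) = unitsAut σ (u w) := fun w => hu σ w
  obtain ⟨hi, y₀, hy₀, hy₀N, hy₀D⟩ :=
    units_algebra p hp τ hτp hτ (unitsAut σ) u huτ w₀ hw₀ hrel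
  have hnorm : ∀ y : (𝓞 L)ˣ,
      normU K y = ∏ i ∈ Finset.range p, ((unitsAut σ) ^ i) y := by
    intro y
    rw [normU_apply, h92parts_prod_eq σ hσ (fun τ => galU τ y), hcard]
    refine Finset.prod_congr rfl fun i _ => ?_
    rw [h92parts_galU_eq, h92parts_unitsAut_pow]
  refine ⟨Subgroup.closure (Set.range u), hfin, ?_, ?_, y₀, hy₀, ?_, ?_⟩
  · intro g x hx
    induction hx using Subgroup.closure_induction with
    | mem x hx =>
      obtain ⟨w, rfl⟩ := hx
      rw [h92parts_galU_eq, ← hu g w]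
      exact Subgroup.subset_closure ⟨_, rfl⟩
    | one => rw [map_one]; exact Subgroup.one_mem _
    | mul x y _ _ hx hy => rw [map_mul]; exact Subgroup.mul_mem _ hx hy
    | inv x _ hx => rw [map_inv]; exact Subgroup.inv_mem _ hx
  · intro x hx hfix
    rw [h92parts_galU_eq] at hfix
    obtain ⟨y, hy, hxy⟩ := hi x hx hfix
    exact ⟨y, hy, by rw [hnorm, hxy]⟩
  · rw [hnorm, hy₀N]
  · intro y hy
    rw [h92parts_galU_eq]
    exact hy₀D y hy

/-- **Hilbert 92 (split route).** -/
theorem hilbert92_parts [IsGalois K L] (p : ℕ) [Fact p.Prime] (hp : p ≠ 2)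
    (hKL : Module.finrank K L = p) (σ : L ≃ₐ[K] L) (hσ : ∀ τ, τ ∈ Subgroup.zpowers σ) :
    ∃ η : (𝓞 L)ˣ, Algebra.norm K ((η : 𝓞 L) : L) = 1 ∧
      ∀ ε : (𝓞 L)ˣ, ((η : 𝓞 L) : L) ≠ ((ε : 𝓞 L) : L) / σ ((ε : 𝓞 L) : L) :=
  hilbert92_of_units_subgroup σ (exists_units_subgroup_parts p hp hKL σ hσ)

end

end Fermat.Agent.Kummer
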