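import Mathlib

/-!
Hilbert 94 for unramified cyclic extensions `L/K` of number fields with `𝓞 K` a principal ideal
domain: a Galois-stable ideal of `𝓞 L` is extended from `𝓞 K`, hence (Hilbert 90) every unit of
relative norm one is of the form `ε / σ ε` for a unit `ε`.
-/

set_option autoImplicit false

open NumberField
open scoped Pointwise

namespace Fermat.Agent.Kummer

section

variable {K L : Type} [Field K] [Field L] [NumberField K] [NumberField L] [Algebra K L]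

/-- unramified: every prime has ramification index one -/
theorem h94_ramificationIdx_eq_one (hunr : differentIdeal (𝓞 K) (𝓞 L) = ⊤)
    (P : Ideal (𝓞 L)) [P.IsPrime] : P.ramificationIdx (𝓞 K) = 1 := by
  have h1 : ¬ P ∣ differentIdeal (𝓞 K) (𝓞 L) := by
    rw [hunr, Ideal.dvd_iff_le, top_le_iff]
    exact Ideal.IsPrime.ne_top inferInstance
  have h2 : Algebra.IsUnramifiedAt (𝓞 K) P := not_dvd_differentIdeal_iff.mp h1
  exact Ideal.ramificationIdx_eq_one_of_isUnramifiedAt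

/-- unramified: the extension of a maximal ideal is the product of the primes over it -/
theorem h94_map_eq_prod (hunr : differentIdeal (𝓞 K) (𝓞 L) = ⊤)
    (p : Ideal (𝓞 K)) [p.IsMaximal] (hp : p ≠ ⊥) :
    Ideal.map (algebraMap (𝓞 K) (𝓞 L)) p = ∏ P ∈ (p.primesOver (𝓞 L)).toFinset, P := by
  rw [Ideal.map_algebraMap_eq_finsetProd_pow hp]
  refine Finset.prod_congr rfl fun P hP => ?_
  rw [Set.mem_toFinset] at hP
  have : P.IsPrime := hP.1
  rw [h94_ramificationIdx_eq_one hunr P, pow_one]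

variable [IsGalois K L]

/-- In an unramified Galois extension, a Galois-stable ideal is extended from the base. -/
theorem h94_ambiguous (hunr : differentIdeal (𝓞 K) (𝓞 L) = ⊤)
    (I : Ideal (𝓞 L)) (hI : I ≠ ⊥) (hstab : ∀ τ : L ≃ₐ[K] L, τ • I = I) :
    ∃ J : Ideal (𝓞 K), I = J.map (algebraMap (𝓞 K) (𝓞 L)) := by
  induction' hn : Ideal.absNorm I using Nat.strong_induction_on with n ih generalizing I
  by_cases htop : I = ⊤
  · exact ⟨⊤, by rw [htop, Ideal.map_top]⟩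
  obtain ⟨P, hPmax, hIP⟩ := Ideal.exists_le_maximal I htop
  have hPbot : P ≠ ⊥ := fun h => hI (le_bot_iff.mp (h ▸ hIP))
  set p : Ideal (𝓞 K) := P.under (𝓞 K) with hp_def
  have : P.LiesOver p := ⟨rfl⟩
  have hpmax : p.IsMaximal := Ideal.IsMaximal.under (𝓞 K) P
  have hpbot : p ≠ ⊥ := Ideal.under_ne_bot (𝓞 K) hPbot
  -- every prime over `p` divides `I`
  have hdiv : ∀ Q ∈ (p.primesOver (𝓞 L)).toFinset, Q ∣ I := by
    intro Q hQ
    rw [Set.mem_toFinset] at hQ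
    have : Q.IsPrime := hQ.1
    have : Q.LiesOver p := hQ.2
    obtain ⟨τ, hτ⟩ := Ideal.exists_smul_eq_of_isGaloisGroup p P Q (L ≃ₐ[K] L)
    rw [Ideal.dvd_iff_le, ← hτ, ← hstab τ]
    exact Ideal.pointwise_smul_le_pointwise_smul_iff.mpr hIP
  have hprime : ∀ Q ∈ (p.primesOver (𝓞 L)).toFinset, Prime Q := by
    intro Q hQ
    rw [Set.mem_toFinset] at hQ
    have : Q.IsPrime := hQ.1
    have : Q.LiesOver p := hQ.2
    exact Ideal.prime_of_isPrime (Ideal.ne_bot_of_liesOver_of_ne_bot hpbot Q) hQ.1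
  have hdvd : Ideal.map (algebraMap (𝓞 K) (𝓞 L)) p ∣ I := by
    rw [h94_map_eq_prod hunr p hpbot]
    exact Finset.prod_primes_dvd I hprime hdiv
  obtain ⟨I', hI'⟩ := hdvd
  have hmapbot : Ideal.map (algebraMap (𝓞 K) (𝓞 L)) p ≠ ⊥ :=
    Ideal.map_ne_bot_of_ne_bot hpbot
  have hmaptop : Ideal.map (algebraMap (𝓞 K) (𝓞 L)) p ≠ ⊤ := by
    intro h
    have h1 : Ideal.map (algebraMap (𝓞 K) (𝓞 L)) p ≤ P := Ideal.map_comap_le
    rw [h, top_le_iff] at h1
    exact hPmax.ne_top h1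
  have hI'bot : I' ≠ ⊥ := by
    rintro rfl
    exact hI (by rw [hI', Ideal.mul_bot])
  have hfix : ∀ τ : L ≃ₐ[K] L, τ • Ideal.map (algebraMap (𝓞 K) (𝓞 L)) p =
      Ideal.map (algebraMap (𝓞 K) (𝓞 L)) p := by
    intro τ
    rw [Ideal.pointwise_smul_def, Ideal.map_map]
    congr 1
    ext a
    simp
  have hstab' : ∀ τ : L ≃ₐ[K] L, τ • I' = I' := by
    intro τ
    have h1 := hstab τ
    rw [hI', smul_mul', hfix τ] at h1
    exact mul_left_cancel₀ hmapbot h1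
  have hnorm : Ideal.absNorm I = Ideal.absNorm (Ideal.map (algebraMap (𝓞 K) (𝓞 L)) p) *
      Ideal.absNorm I' := by
    rw [hI', map_mul]
  have h1 : Ideal.absNorm (Ideal.map (algebraMap (𝓞 K) (𝓞 L)) p) ≠ 1 := by
    rw [Ne, Ideal.absNorm_eq_one_iff]
    exact hmaptop
  have h0 : Ideal.absNorm (Ideal.map (algebraMap (𝓞 K) (𝓞 L)) p) ≠ 0 := by
    rw [Ne, Ideal.absNorm_eq_zero_iff]
    exact hmapbot
  have h0' : Ideal.absNorm I' ≠ 0 := by
    rw [Ne, Ideal.absNorm_eq_zero_iff]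
    exact hI'bot
  have hlt : Ideal.absNorm I' < n := by
    rw [← hn, hnorm]
    have h2 : 2 ≤ Ideal.absNorm (Ideal.map (algebraMap (𝓞 K) (𝓞 L)) p) := by omega
    nlinarith [Nat.pos_of_ne_zero h0']
  obtain ⟨J', hJ'⟩ := ih (Ideal.absNorm I') hlt I' hI'bot hstab' rfl
  exact ⟨p * J', by rw [hI', hJ', Ideal.map_mul]⟩

/-- Hilbert 94 (unit form): in an unramified cyclic extension `L/K` with `𝓞 K` a PID, every unit
of norm one is of the form `ε / σ ε` for a unit `ε`. -/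
theorem hilbert94_unit [IsPrincipalIdealRing (𝓞 K)]
    (hunr : differentIdeal (𝓞 K) (𝓞 L) = ⊤)
    (σ : L ≃ₐ[K] L) (hσ : ∀ τ, τ ∈ Subgroup.zpowers σ)
    (η : (𝓞 L)ˣ) (hη : Algebra.norm K ((η : 𝓞 L) : L) = 1) :
    ∃ ε : (𝓞 L)ˣ, ((η : 𝓞 L) : L) = ((ε : 𝓞 L) : L) / σ ((ε : 𝓞 L) : L) := by
  have : IsCyclic (L ≃ₐ[K] L) := ⟨σ, fun τ => hσ τ⟩
  obtain ⟨α, hα0, hα⟩ := groupCohomology.exists_mul_galRestrict_of_norm_eq_one
    (A := 𝓞 K) (K := K) (L := L) (B := 𝓞 L) hσ (η := (η : 𝓞 L)) hη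
  -- the ideal generated by `α` is Galois stable
  have hσα : σ • α = (η⁻¹ : (𝓞 L)ˣ) * α := by
    have h1 : σ • α = galRestrict (𝓞 K) K L (𝓞 L) σ α := by
      apply RingOfIntegers.ext
      rw [show ((galRestrict (𝓞 K) K L (𝓞 L) σ α : 𝓞 L) : L) = σ (α : L) from
        algebraMap_galRestrict_apply (𝓞 K) σ α]
      rfl
    rw [h1]
    nth_rewrite 2 [← hα]
    rw [← mul_assoc, ← Units.val_mul, inv_mul_cancel, Units.val_one, one_mul]
  have hstabσ : σ • Ideal.span {α} = Ideal.span {α} := by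
    rw [Ideal.smul_closure, Set.smul_set_singleton, hσα]
    exact Ideal.span_singleton_eq_span_singleton.mpr
      (associated_unit_mul_left_iff.mpr (Associated.refl α)) 
  have hstab : ∀ τ : L ≃ₐ[K] L, τ • Ideal.span {α} = Ideal.span {α} := by
    intro τ
    have h1 : Subgroup.zpowers σ ≤ MulAction.stabilizer (L ≃ₐ[K] L) (Ideal.span {α}) := by
      rw [Subgroup.zpowers_le]
      exact MulAction.mem_stabilizer_iff.mpr hstabσ
    exact MulAction.mem_stabilizer_iff.mp (h1 (hσ τ))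
  have hI0 : Ideal.span {α} ≠ ⊥ := by
    rw [Ne, Ideal.span_singleton_eq_bot]
    exact hα0
  obtain ⟨J, hJ⟩ := h94_ambiguous hunr (Ideal.span {α}) hI0 hstab
  obtain ⟨a, ha⟩ := IsPrincipalIdealRing.principal J
  rw [ha] at hJ
  change Ideal.span {α} = Ideal.map (algebraMap (𝓞 K) (𝓞 L)) (Ideal.span {a}) at hJ
  rw [Ideal.map_span, Set.image_singleton, Ideal.span_singleton_eq_span_singleton] at hJ
  obtain ⟨u, hu⟩ := hJ
  -- `α * u = a`
  have ha0 : algebraMap (𝓞 K) (𝓞 L) a ≠ 0 := by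
    rw [← hu]
    exact mul_ne_zero hα0 u.ne_zero
  refine ⟨u⁻¹, ?_⟩
  have hαL : (α : L) = (algebraMap (𝓞 K) (𝓞 L) a : L) * (((u⁻¹ : (𝓞 L)ˣ) : 𝓞 L) : L) := by
    rw [← hu, ← map_mul, mul_assoc, ← Units.val_mul, mul_inv_cancel, Units.val_one, mul_one]
  have hσa : σ (algebraMap (𝓞 K) (𝓞 L) a : L) = (algebraMap (𝓞 K) (𝓞 L) a : L) := by
    have h1 : (algebraMap (𝓞 K) (𝓞 L) a : L) = algebraMap K L (a : K) := rfl
    rw [h1, AlgEquiv.commutes]
  have hαL' : ((η : 𝓞 L) : L) * σ (α : L) = (α : L) := by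
    have h1 : algebraMap (𝓞 L) L ((η : 𝓞 L) * galRestrict (𝓞 K) K L (𝓞 L) σ α) =
        algebraMap (𝓞 L) L α := by rw [hα]
    rw [map_mul, algebraMap_galRestrict_apply] at h1
    exact h1
  have ha0' : (algebraMap (𝓞 K) (𝓞 L) a : L) ≠ 0 := by
    intro h
    exact ha0 (RingOfIntegers.coe_eq_zero_iff.mp h)
  have hε0 : (((u⁻¹ : (𝓞 L)ˣ) : 𝓞 L) : L) ≠ 0 := by
    intro h
    exact (u⁻¹).ne_zero (RingOfIntegers.coe_eq_zero_iff.mp h)
  have hσε0 : σ (((u⁻¹ : (𝓞 L)ˣ) : 𝓞 L) : L) ≠ 0 := by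
    rw [Ne, map_eq_zero_iff σ σ.injective]
    exact hε0
  rw [hαL, map_mul, hσa] at hαL'
  rw [eq_div_iff hσε0]
  have h2 : (algebraMap (𝓞 K) (𝓞 L) a : L) * (((η : 𝓞 L) : L) * σ (((u⁻¹ : (𝓞 L)ˣ) : 𝓞 L) : L)) =
      (algebraMap (𝓞 K) (𝓞 L) a : L) * (((u⁻¹ : (𝓞 L)ˣ) : 𝓞 L) : L) := by
    rw [← hαL']
    ring
  exact mul_left_cancel₀ ha0' h2

/-- Hilbert 94: combined with Hilbert 92 (existence of a unit of norm one which is not of the
form `ε / σ ε`), there is no unramified cyclic extension of a number field whose ring of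
integers is a principal ideal domain. -/
theorem hilbert94_of_hilbert92 [IsPrincipalIdealRing (𝓞 K)]
    (hunr : differentIdeal (𝓞 K) (𝓞 L) = ⊤)
    (σ : L ≃ₐ[K] L) (hσ : ∀ τ, τ ∈ Subgroup.zpowers σ)
    (h92 : ∃ η : (𝓞 L)ˣ, Algebra.norm K ((η : 𝓞 L) : L) = 1 ∧
      ∀ ε : (𝓞 L)ˣ, ((η : 𝓞 L) : L) ≠ ((ε : 𝓞 L) : L) / σ ((ε : 𝓞 L) : L)) : False := by
  obtain ⟨η, hη, hne⟩ := h92
  obtain ⟨ε, hε⟩ := hilbert94_unit hunr σ hσ η hη
  exact hne ε hε

end

end Fermat.Agent.Kummer
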