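import Mathlib

/-!
# Kummer extensions `K(u^(1/p))` of the `p`-th cyclotomic field that are unramified

Let `K` be the `p`-th cyclotomic field, `λ = ζ - 1`, `u` a unit of `𝓞 K` with
`λ ^ p ∣ u - c ^ p` for an integer `c`, and `L = K(θ)` with `θ ^ p = u`, `[L : K] = p`.
Then `x = (θ - c) / λ` is integral, a root of the monic polynomial
`h(X) = ((λ X + c) ^ p - u) / λ ^ p`, and `h'(x) = (p / λ ^ (p - 1)) θ ^ (p - 1)` is a unit.
Hence the different ideal of `𝓞 L` over `𝓞 K` is trivial and every prime is unramified.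
-/

set_option autoImplicit false

open NumberField Polynomial

namespace Fermat.Agent.Kummer

section Unramified

variable {p : ℕ} [hpp : Fact p.Prime] {K : Type*} [Field K] [NumberField K]
  {L : Type*} [Field L] [NumberField L] [Algebra K L]

/-- The polynomial `(λ X + c) ^ p - u` is divisible by the constant `λ ^ p`. -/
theorem unram_exists_poly {ζ : K} (hζ : IsPrimitiveRoot ζ p) (u : 𝓞 K) (c : ℤ)
    (hc : (hζ.toInteger - 1) ^ p ∣ u - (c : 𝓞 K) ^ p) :
    ∃ h : (𝓞 K)[X], (C (hζ.toInteger - 1) * X + C (c : 𝓞 K)) ^ p - C u =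
      C ((hζ.toInteger - 1) ^ p) * h := by
  set lam := hζ.toInteger - 1 with hlam
  have hdvd : C (lam ^ p) ∣ (C lam * X + C (c : 𝓞 K)) ^ p - C u := by
    rw [C_dvd_iff_dvd_coeff]
    intro j
    have hG : (C lam * X + C (c : 𝓞 K)) ^ p = ((X + C (c : 𝓞 K)) ^ p).comp (C lam * X) := by
      simp [pow_comp]
    rw [coeff_sub, hG, comp_C_mul_X_coeff, coeff_X_add_C_pow, coeff_C]
    obtain ⟨ε, hε⟩ := IsCyclotomicExtension.Rat.associated_zeta_sub_one_pow_prime p hζ
    rcases Nat.eq_zero_or_pos j with rfl | hj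
    · simp only [Nat.sub_zero, Nat.choose_zero_right, Nat.cast_one, mul_one, pow_zero, if_true]
      rw [← dvd_neg, neg_sub]
      exact hc
    · rw [if_neg hj.ne', sub_zero]
      rcases lt_or_ge j p with hjp | hjp
      · obtain ⟨m, hm⟩ := hpp.out.dvd_choose_self hj.ne' hjp
        have h1 : lam ^ p ∣ (p : 𝓞 K) * lam ^ j := by
          rw [← hε]
          have h2 : lam ^ p = lam ^ (p - 1) * lam := by
            rw [← pow_succ, Nat.sub_add_cancel hpp.out.one_le]
          rw [h2]
          have h3 : lam ∣ lam ^ j := dvd_pow_self lam hj.ne'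
          obtain ⟨t, ht⟩ := h3
          exact ⟨ε * t, by rw [ht]; ring⟩
        rw [hm]
        push_cast
        obtain ⟨t, ht⟩ := h1
        exact ⟨(c : 𝓞 K) ^ (p - j) * m * t, by linear_combination (c : 𝓞 K) ^ (p - j) * m * ht⟩
      · rcases hjp.eq_or_lt with rfl | hlt
        · simp
        · rw [Nat.choose_eq_zero_of_lt hlt]; simp
  obtain ⟨h, hh⟩ := hdvd
  exact ⟨h, hh⟩

/-- If `C a * h = G` with `G` of leading coefficient `a ≠ 0` and degree `n`, then `h` is monic
of degree `n`. -/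
theorem unram_monic_of_C_mul {R : Type*} [CommRing R] [IsDomain R] {a : R} (ha : a ≠ 0)
    {h G : R[X]} {n : ℕ} (hG : G = C a * h) (hlead : G.leadingCoeff = a) (hdeg : G.natDegree = n) :
    h.Monic ∧ h.natDegree = n := by
  constructor
  · have := hlead
    rw [hG, leadingCoeff_mul, leadingCoeff_C] at this
    have h1 : a * h.leadingCoeff = a * 1 := by rw [this, mul_one]
    exact mul_left_cancel₀ ha h1
  · rw [← hdeg, hG, natDegree_C_mul ha]

/-- The polynomial `(λ X + c) ^ p - u` has leading coefficient `λ ^ p` and degree `p`. -/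
theorem unram_lead {R : Type*} [CommRing R] [IsDomain R] {a : R} (ha : a ≠ 0) (c u : R) {n : ℕ}
    (hn : n ≠ 0) :
    ((C a * X + C c) ^ n - C u).leadingCoeff = a ^ n ∧
      ((C a * X + C c) ^ n - C u).natDegree = n := by
  have h1 : (C a * X + C c).natDegree = 1 := natDegree_linear ha
  have h2 : (C a * X + C c).leadingCoeff = a := leadingCoeff_linear ha
  have h3 : ((C a * X + C c) ^ n).natDegree = n := by
    rw [natDegree_pow, h1, mul_one]
  have h4 : ((C a * X + C c) ^ n).leadingCoeff = a ^ n := by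
    rw [leadingCoeff_pow, h2]
  have h5 : (C u).degree < ((C a * X + C c) ^ n).degree := by
    have hne : (C a * X + C c) ^ n ≠ 0 := by
      intro h0
      rw [h0, leadingCoeff_zero] at h4
      exact pow_ne_zero n ha h4.symm
    rw [degree_eq_natDegree hne, h3]
    exact lt_of_le_of_lt degree_C_le (by exact_mod_cast Nat.pos_of_ne_zero hn)
  constructor
  · rw [leadingCoeff_sub_of_degree_lt h5, h4]
  · rw [natDegree_sub_eq_left_of_natDegree_lt, h3]
    rw [h3, natDegree_C]
    exact Nat.pos_of_ne_zero hn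

/-- **The Kummer extension is unramified.**  Let `K` be the `p`-th cyclotomic field,
`u` a unit of `𝓞 K` congruent to the `p`-th power of a rational integer modulo `(ζ - 1) ^ p`,
and `L = K(θ)` with `θ ^ p = u` of degree `p` over `K`.  Then the different ideal of `𝓞 L`
over `𝓞 K` is the unit ideal. -/
theorem differentIdeal_eq_top_of_kummer [IsCyclotomicExtension {p} ℚ K] {ζ : K}
    (hζ : IsPrimitiveRoot ζ p) (u : (𝓞 K)ˣ) (c : ℤ)
    (hc : (hζ.toInteger - 1) ^ p ∣ (u : 𝓞 K) - (c : 𝓞 K) ^ p)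
    (θ : L) (hθ : θ ^ p = algebraMap (𝓞 K) L (u : 𝓞 K))
    (hgen : IntermediateField.adjoin K {θ} = ⊤) (hdeg : Module.finrank K L = p) :
    differentIdeal (𝓞 K) (𝓞 L) = ⊤ := by
  classical
  have hp0 : p ≠ 0 := hpp.out.ne_zero
  set lam : 𝓞 K := hζ.toInteger - 1 with hlam
  have hlam0 : lam ≠ 0 := hζ.zeta_sub_one_prime'.ne_zero
  obtain ⟨h, hh⟩ := unram_exists_poly hζ (u : 𝓞 K) c hc
  obtain ⟨ε, hε⟩ := IsCyclotomicExtension.Rat.associated_zeta_sub_one_pow_prime p hζ
  rw [← hlam] at hε hh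
  -- `h` is monic of degree `p`
  obtain ⟨hlead, hnatG⟩ := unram_lead hlam0 (c : 𝓞 K) (u : 𝓞 K) hp0
  obtain ⟨hmonic, hnat⟩ := unram_monic_of_C_mul (pow_ne_zero p hlam0) hh hlead hnatG
  -- elements of `L`
  have hinj : Function.Injective (algebraMap (𝓞 K) L) :=
    FaithfulSMul.algebraMap_injective (𝓞 K) L
  set lamL : L := algebraMap (𝓞 K) L lam with hlamL
  have hlamL0 : lamL ≠ 0 := by
    rw [hlamL]; exact (map_ne_zero_iff _ hinj).mpr hlam0
  set xL : L := (θ - (c : L)) / lamL with hxL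
  have hθx : lamL * xL + (c : L) = θ := by rw [hxL]; field_simp; ring
  -- evaluate the polynomial identity
  have hx0 : aeval xL h = 0 := by
    have h1 := congrArg (aeval xL) hh
    simp only [map_sub, map_pow, map_add, map_mul, aeval_C, aeval_X] at h1
    rw [← hlamL] at h1
    have hc' : (algebraMap (𝓞 K) L) (c : 𝓞 K) = (c : L) := by simp
    rw [hc', hθx, hθ, sub_self] at h1
    exact (mul_eq_zero.mp h1.symm).resolve_left (pow_ne_zero p hlamL0)
  have hxint : IsIntegral (𝓞 K) xL := ⟨h, hmonic, by rw [← aeval_def]; exact hx0⟩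
  have hxintZ : IsIntegral ℤ xL := isIntegral_trans xL hxint
  let x : 𝓞 L := ⟨xL, hxintZ⟩
  have hxcoe : algebraMap (𝓞 L) L x = xL := rfl
  have hinjL : Function.Injective (algebraMap (𝓞 L) L) :=
    FaithfulSMul.algebraMap_injective (𝓞 L) L
  -- `x` generates `L`
  have hadj : IntermediateField.adjoin K {xL} = ⊤ := by
    rw [eq_top_iff, ← hgen, IntermediateField.adjoin_simple_le_iff, ← hθx]
    have hx_mem : xL ∈ IntermediateField.adjoin K {xL} :=
      IntermediateField.mem_adjoin_simple_self K xL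
    have hl_mem : lamL ∈ IntermediateField.adjoin K {xL} := by
      rw [hlamL, IsScalarTower.algebraMap_apply (𝓞 K) K L]
      exact IntermediateField.algebraMap_mem _ _
    exact add_mem (mul_mem hl_mem hx_mem) (intCast_mem _ c)
  have hxK : IsIntegral K xL := hxint.tower_top
  have hdegm : (minpoly K xL).natDegree = p := by
    rw [← IntermediateField.adjoin.finrank hxK, hadj, IntermediateField.finrank_top', hdeg]
  have hmin : minpoly (𝓞 K) x = h := by
    have e1 : minpoly (𝓞 K) x = minpoly (𝓞 K) xL :=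
      (minpoly.algebraMap_eq hinjL x).symm
    have e2 : minpoly K xL = (minpoly (𝓞 K) xL).map (algebraMap (𝓞 K) K) :=
      minpoly.isIntegrallyClosed_eq_field_fractions' K hxint
    have e3 : (minpoly (𝓞 K) xL).natDegree = p := by
      rw [← hdegm, e2, (minpoly.monic hxint).natDegree_map]
    have hdvd : minpoly (𝓞 K) xL ∣ h := minpoly.isIntegrallyClosed_dvd hxint hx0
    rw [e1]
    exact (eq_of_monic_of_dvd_of_natDegree_le (minpoly.monic hxint) hmonic hdvd
      (by rw [hnat, e3])).symm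
  have hmem : aeval x (derivative h) ∈ differentIdeal (𝓞 K) (𝓞 L) := by
    rw [← hmin]
    apply aeval_derivative_mem_differentIdeal (𝓞 K) K L x
    rw [hxcoe, ← IntermediateField.adjoin_simple_toSubalgebra_of_isAlgebraic hxK.isAlgebraic,
      hadj, IntermediateField.top_toSubalgebra]
  -- the derivative at `x` is a unit
  have hθint : IsIntegral ℤ θ := by
    refine IsIntegral.of_pow (Nat.pos_of_ne_zero hp0) ?_
    rw [hθ]
    exact isIntegral_trans _ (isIntegral_algebraMap (R := 𝓞 K) (A := L) (x := (u : 𝓞 K)))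
  let θ' : 𝓞 L := ⟨θ, hθint⟩
  have hθ'coe : algebraMap (𝓞 L) L θ' = θ := rfl
  have hθ'unit : IsUnit θ' := by
    have h1 : θ' ^ p = algebraMap (𝓞 K) (𝓞 L) (u : 𝓞 K) := by
      apply hinjL
      rw [map_pow, hθ'coe, hθ, ← IsScalarTower.algebraMap_apply]
    have h2 : IsUnit (θ' ^ p) := by rw [h1]; exact (u.isUnit).map _
    exact (isUnit_pow_iff hp0).mp h2
  have hder : aeval x (derivative h) = algebraMap (𝓞 K) (𝓞 L) (ε : 𝓞 K) * θ' ^ (p - 1) := by
    apply hinjL
    rw [← aeval_algebraMap_apply, hxcoe, map_mul, map_pow, hθ'coe,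
      ← IsScalarTower.algebraMap_apply]
    have h1 := congrArg (fun q => aeval xL (derivative q)) hh
    simp only [derivative_pow, derivative_mul, derivative_C,
      derivative_X, map_sub, map_pow, map_add, map_mul, aeval_C, aeval_X, map_natCast,
      zero_mul, mul_zero, zero_add, add_zero, mul_one, sub_zero] at h1
    rw [← hlamL] at h1
    have hc' : (algebraMap (𝓞 K) L) (c : 𝓞 K) = (c : L) := by simp
    rw [hc', hθx] at h1
    have hpL : (p : L) = lamL ^ (p - 1) * algebraMap (𝓞 K) L (ε : 𝓞 K) := by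
      rw [hlamL, ← map_pow, ← map_mul, hε, map_natCast]
    have h2 : lamL ^ p = lamL ^ (p - 1) * lamL := by
      rw [← pow_succ, Nat.sub_add_cancel hpp.out.one_le]
    have h3 : lamL ^ p * aeval xL (derivative h) =
        lamL ^ p * (algebraMap (𝓞 K) L (ε : 𝓞 K) * θ ^ (p - 1)) := by
      rw [← h1, hpL, h2]; ring
    exact mul_left_cancel₀ (pow_ne_zero p hlamL0) h3
  have hunit : IsUnit (aeval x (derivative h)) := by
    rw [hder]
    exact ((ε.isUnit).map _).mul (hθ'unit.pow _)
  exact Ideal.eq_top_of_isUnit_mem _ hmem hunit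

/-- **The Kummer extension is unramified at every prime.** -/
theorem isUnramifiedAt_of_kummer [IsCyclotomicExtension {p} ℚ K] {ζ : K}
    (hζ : IsPrimitiveRoot ζ p) (u : (𝓞 K)ˣ) (c : ℤ)
    (hc : (hζ.toInteger - 1) ^ p ∣ (u : 𝓞 K) - (c : 𝓞 K) ^ p)
    (θ : L) (hθ : θ ^ p = algebraMap (𝓞 K) L (u : 𝓞 K))
    (hgen : IntermediateField.adjoin K {θ} = ⊤) (hdeg : Module.finrank K L = p)
    (P : Ideal (𝓞 L)) [P.IsPrime] : Algebra.IsUnramifiedAt (𝓞 K) P := by
  rw [← not_dvd_differentIdeal_iff, differentIdeal_eq_top_of_kummer hζ u c hc θ hθ hgen hdeg,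
    Ideal.dvd_iff_le]
  exact fun hle => (Ideal.IsPrime.ne_top inferInstance) (top_le_iff.mp hle)

/-- The same statement in the shape consumed by the Kummer lemma glue. -/
theorem differentIdeal_eq_top_of_pow_eq {p : ℕ} [Fact p.Prime] {K : Type*} [Field K]
    [NumberField K] [IsCyclotomicExtension {p} ℚ K] {ζ : K} (hζ : IsPrimitiveRoot ζ p)
    (_hp : p ≠ 2) {L : Type*} [Field L] [NumberField L] [Algebra K L] (u : (𝓞 K)ˣ) (c : ℤ)
    (hc : (hζ.toInteger - 1) ^ p ∣ (u : 𝓞 K) - (c : 𝓞 K) ^ p) (θ : L)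
    (hθ : θ ^ p = algebraMap K L ((u : 𝓞 K) : K)) (htop : IntermediateField.adjoin K {θ} = ⊤)
    (hdeg : Module.finrank K L = p) : differentIdeal (𝓞 K) (𝓞 L) = ⊤ :=
  differentIdeal_eq_top_of_kummer hζ u c hc θ
    (by rw [hθ, IsScalarTower.algebraMap_apply (𝓞 K) K L]) htop hdeg

end Unramified

end Fermat.Agent.Kummer
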