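import Mathlib
import Fermat.Agent.Kummer.Unramified
import Fermat.Agent.Kummer.Hilbert94

/-!
# Kummer's lemma for cyclotomic fields with principal ring of integers: the core glue (K11)

If `𝓞 K` is a principal ideal ring (`K = ℚ(ζ_p)`, `p` an odd prime), then every unit of `𝓞 K`
congruent to a rational integer modulo `p` is a `p`-th power of a unit. In this file the two
inputs "Hilbert 92 for the Kummer extension" and "a unit congruent to an integer modulo `p` is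
congruent to a `p`-th power of an integer modulo `(ζ - 1) ^ p`" are hypotheses.
-/

set_option autoImplicit false
set_option linter.style.haveILetI false

namespace Fermat.Agent.Kummer

open NumberField Polynomial

/-- An element of `K` whose `p`-th power is a unit of `𝓞 K` comes from a unit of `𝓞 K`. -/
theorem exists_unit_pow_eq_of_pow_eq {K : Type*} [Field K] [NumberField K] {p : ℕ} (hp0 : p ≠ 0)
    (u : (𝓞 K)ˣ) (b : K) (hb : b ^ p = ((u : 𝓞 K) : K)) : ∃ v : (𝓞 K)ˣ, u = v ^ p := by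
  have hbint : IsIntegral ℤ b := by
    apply IsIntegral.of_pow (Nat.pos_of_ne_zero hp0)
    rw [hb]
    exact (u : 𝓞 K).2
  obtain ⟨b', hbb'⟩ : ∃ b' : 𝓞 K, (b' : K) = b := ⟨⟨b, hbint⟩, rfl⟩
  have hb' : b' ^ p = (u : 𝓞 K) := by
    apply RingOfIntegers.ext
    rw [← hb, ← hbb']
    rfl
  have hunit : IsUnit b' := by
    rw [← isUnit_pow_iff hp0, hb']
    exact u.isUnit
  obtain ⟨v, hv⟩ := hunit
  refine ⟨v, Units.ext ?_⟩
  rw [Units.val_pow_eq_pow_val, hv, hb']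

/-- **Kummer's lemma**, core glue: Hilbert 92 (`h92`, for cyclic extensions of `K` of degree
`p`) and the congruence input (`hcong`) are hypotheses. -/
theorem kummers_lemma_core {p : ℕ} [Fact p.Prime] {K : Type} [Field K] [NumberField K]
    [IsCyclotomicExtension {p} ℚ K] [IsPrincipalIdealRing (𝓞 K)] (hp : p ≠ 2)
    (h92 : ∀ (L : Type) [Field L] [NumberField L] [Algebra K L] [IsGalois K L],
      Module.finrank K L = p → ∀ σ : L ≃ₐ[K] L, (∀ τ, τ ∈ Subgroup.zpowers σ) →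
      ∃ η : (𝓞 L)ˣ, Algebra.norm K ((η : 𝓞 L) : L) = 1 ∧
        ∀ ε : (𝓞 L)ˣ, ((η : 𝓞 L) : L) ≠ ((ε : 𝓞 L) : L) / σ ((ε : 𝓞 L) : L))
    {ζ : K} (hζ : IsPrimitiveRoot ζ p) (u : (𝓞 K)ˣ) (c : ℤ)
    (hc : (hζ.toInteger - 1) ^ p ∣ (u : 𝓞 K) - (c : 𝓞 K) ^ p) : ∃ v : (𝓞 K)ˣ, u = v ^ p := by
  have hpp : p.Prime := Fact.out
  by_contra hcon
  have hpow : ∀ b : K, b ^ p ≠ ((u : 𝓞 K) : K) := fun b hb =>
    hcon (exists_unit_pow_eq_of_pow_eq hpp.ne_zero u b hb)
  have hirr : Irreducible (X ^ p - C ((u : 𝓞 K) : K)) := X_pow_sub_C_irreducible_of_prime hpp hpow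
  haveI := Fact.mk hirr
  have hprim : (primitiveRoots p K).Nonempty := ⟨ζ, (mem_primitiveRoots hpp.pos).mpr hζ⟩
  haveI : IsSplittingField K (AdjoinRoot (X ^ p - C ((u : 𝓞 K) : K)))
      (X ^ p - C ((u : 𝓞 K) : K)) := isSplittingField_AdjoinRoot_X_pow_sub_C hprim hirr
  haveI : IsGalois K (AdjoinRoot (X ^ p - C ((u : 𝓞 K) : K))) :=
    isGalois_of_isSplittingField_X_pow_sub_C hprim hirr _
  haveI : FiniteDimensional K (AdjoinRoot (X ^ p - C ((u : 𝓞 K) : K))) :=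
    Polynomial.IsSplittingField.finiteDimensional _ (X ^ p - C ((u : 𝓞 K) : K))
  haveI : NumberField (AdjoinRoot (X ^ p - C ((u : 𝓞 K) : K))) := NumberField.of_module_finite K _
  haveI : NeZero p := ⟨hpp.ne_zero⟩
  have hcyc : IsCyclic ((AdjoinRoot (X ^ p - C ((u : 𝓞 K) : K))) ≃ₐ[K]
      (AdjoinRoot (X ^ p - C ((u : 𝓞 K) : K)))) :=
    isCyclic_of_isSplittingField_X_pow_sub_C hprim hirr _
  obtain ⟨σ, hσ⟩ := hcyc.exists_generator
  have hdeg : Module.finrank K (AdjoinRoot (X ^ p - C ((u : 𝓞 K) : K))) = p :=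
    finrank_of_isSplittingField_X_pow_sub_C hprim hirr _
  have hθ : (AdjoinRoot.root (X ^ p - C ((u : 𝓞 K) : K))) ^ p =
      algebraMap K (AdjoinRoot (X ^ p - C ((u : 𝓞 K) : K))) ((u : 𝓞 K) : K) :=
    root_X_pow_sub_C_pow p _
  have htop : IntermediateField.adjoin K {AdjoinRoot.root (X ^ p - C ((u : 𝓞 K) : K))} = ⊤ :=
    IntermediateField.adjoin_eq_top_of_algebra _ _ AdjoinRoot.adjoinRoot_eq_top
  have hdiff := differentIdeal_eq_top_of_pow_eq hζ hp u c hc
    (AdjoinRoot.root (X ^ p - C ((u : 𝓞 K) : K))) hθ htop hdeg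
  exact hilbert94_of_hilbert92 hdiff σ hσ
    (h92 (AdjoinRoot (X ^ p - C ((u : 𝓞 K) : K))) hdeg σ hσ)

end Fermat.Agent.Kummer
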