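import Mathlib

/-!
# Kummer project: Minkowski bound of a prime cyclotomic field

For `K = ℚ(ζ_p)`, `p` prime, Minkowski's bound
`(4 / π) ^ r₂ * (n! / n ^ n * √|d_K|)` equals
`(4 / π) ^ ((p - 1) / 2) * ((p - 1)! / (p - 1) ^ (p - 1) * √(p ^ (p - 2)))`
(`minkowski_prime_eq`), and is bounded by rational arithmetic using `3.14 < π`
(`minkowski_prime_lt`, `minkowski_prime_floor_le`).
-/

set_option autoImplicit false

namespace Fermat.Agent.Kummer

open NumberField InfinitePlace Nat Real Module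
open IsCyclotomicExtension IsCyclotomicExtension.Rat

variable (p : ℕ) [hp : Fact p.Prime] (K : Type*) [Field K] [NumberField K]
  [IsCyclotomicExtension {p} ℚ K]

/-- Explicit form of the Minkowski bound of `ℚ(ζ_p)`. -/
theorem minkowski_prime_eq :
    (4 / π) ^ nrComplexPlaces K *
      ((finrank ℚ K)! / (finrank ℚ K) ^ (finrank ℚ K) * √|discr K|) =
    (4 / π) ^ ((p - 1) / 2) *
      (((p - 1)! : ℕ) / ((p - 1 : ℕ) : ℝ) ^ (p - 1) * √((p : ℝ) ^ (p - 2))) := by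
  have hp0 : NeZero p := ⟨hp.out.ne_zero⟩
  rw [discr_prime p K, IsCyclotomicExtension.finrank (n := p) K
    (Polynomial.cyclotomic.irreducible_rat hp.out.pos),
    nrComplexPlaces_eq_totient_div_two p, totient_prime hp.out]
  congr 3
  push_cast
  rw [abs_mul, abs_pow, abs_pow, abs_neg, abs_one, one_pow, one_mul, Nat.abs_cast]

/-- Upper bound for the Minkowski bound of `ℚ(ζ_p)` by rational arithmetic: `s` is an upper
bound for `√(p ^ (p - 2))`. -/
theorem minkowski_prime_lt (s B : ℝ) (hs0 : 0 ≤ s) (hs : (p : ℝ) ^ (p - 2) ≤ s ^ 2)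
    (hB : (4 / 3.14) ^ ((p - 1) / 2) *
      (((p - 1)! : ℕ) / ((p - 1 : ℕ) : ℝ) ^ (p - 1) * s) < B) :
    (4 / π) ^ nrComplexPlaces K *
      ((finrank ℚ K)! / (finrank ℚ K) ^ (finrank ℚ K) * √|discr K|) < B := by
  rw [minkowski_prime_eq p K]
  have h1 : √((p : ℝ) ^ (p - 2)) ≤ s := by
    rw [Real.sqrt_le_left hs0]
    exact hs
  have h2 : (4 / π) ^ ((p - 1) / 2) ≤ (4 / 3.14) ^ ((p - 1) / 2) := by
    gcongr
    exact pi_gt_d2.le
  have h3 : (0 : ℝ) ≤ ((p - 1)! : ℕ) / ((p - 1 : ℕ) : ℝ) ^ (p - 1) := by positivity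
  refine lt_of_le_of_lt ?_ hB
  calc (4 / π) ^ ((p - 1) / 2) *
        (((p - 1)! : ℕ) / ((p - 1 : ℕ) : ℝ) ^ (p - 1) * √((p : ℝ) ^ (p - 2)))
      ≤ (4 / 3.14) ^ ((p - 1) / 2) *
        (((p - 1)! : ℕ) / ((p - 1 : ℕ) : ℝ) ^ (p - 1) * √((p : ℝ) ^ (p - 2))) := by
        apply mul_le_mul_of_nonneg_right h2
        exact mul_nonneg h3 (Real.sqrt_nonneg _)
    _ ≤ (4 / 3.14) ^ ((p - 1) / 2) *
        (((p - 1)! : ℕ) / ((p - 1 : ℕ) : ℝ) ^ (p - 1) * s) := by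
        apply mul_le_mul_of_nonneg_left _ (by positivity)
        exact mul_le_mul_of_nonneg_left h1 h3

/-- Floor form of `minkowski_prime_lt`. -/
theorem minkowski_prime_floor_le (s : ℝ) (n : ℕ) (hs0 : 0 ≤ s) (hs : (p : ℝ) ^ (p - 2) ≤ s ^ 2)
    (hB : (4 / 3.14) ^ ((p - 1) / 2) *
      (((p - 1)! : ℕ) / ((p - 1 : ℕ) : ℝ) ^ (p - 1) * s) < (n : ℝ) + 1) :
    ⌊(4 / π) ^ nrComplexPlaces K *
      ((finrank ℚ K)! / (finrank ℚ K) ^ (finrank ℚ K) * √|discr K|)⌋₊ ≤ n := by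
  have h := minkowski_prime_lt p K s (n + 1) hs0 hs hB
  have h' := (Nat.floor_lt (by positivity)).mpr (by exact_mod_cast h :
      (4 / π) ^ nrComplexPlaces K *
        ((finrank ℚ K)! / (finrank ℚ K) ^ (finrank ℚ K) * √|discr K|) < ((n + 1 : ℕ) : ℝ))
  omega

/-- The Minkowski bound of `ℚ(ζ₁₁)` is `< 60`. -/
theorem eleven_minkowski_floor_le (K : Type*) [Field K] [NumberField K]
    [IsCyclotomicExtension {11} ℚ K] :
    ⌊(4 / π) ^ nrComplexPlaces K *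
      ((finrank ℚ K)! / (finrank ℚ K) ^ (finrank ℚ K) * √|discr K|)⌋₊ ≤ 59 := by
  have : Fact (Nat.Prime 11) := ⟨by norm_num⟩
  refine minkowski_prime_floor_le 11 K 48559 59 (by norm_num) ?_ ?_
  · norm_num
  · norm_num [Nat.factorial]

/-- The Minkowski bound of `ℚ(ζ₁₃)` is `< 308`. -/
theorem thirteen_minkowski_floor_le (K : Type*) [Field K] [NumberField K]
    [IsCyclotomicExtension {13} ℚ K] :
    ⌊(4 / π) ^ nrComplexPlaces K *
      ((finrank ℚ K)! / (finrank ℚ K) ^ (finrank ℚ K) * √|discr K|)⌋₊ ≤ 307 := by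
  have : Fact (Nat.Prime 13) := ⟨by norm_num⟩
  refine minkowski_prime_floor_le 13 K 1338717 307 (by norm_num) ?_ ?_
  · norm_num
  · norm_num [Nat.factorial]

end Fermat.Agent.Kummer
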