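import Fermat.Agent.Kummer.PIDAux
import Fermat.Agent.Kummer.Minkowski

/-!
# Kummer project, K4: the ring of integers of `ℚ(ζ₁₁)` is a PID

Minkowski's bound is `< 60`. Among the primes `q ≤ 59`, only `q = 11` (ramified, the prime above
it is generated by `ζ - 1`) and `q = 23` (totally split; the primes above it are generated by the
conjugates of `1 - ζ + ζ ^ 3`) have a prime above them of norm `≤ 59`.
-/

set_option autoImplicit false

namespace Fermat.Agent.Kummer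

open NumberField Ideal

/-- The finite check: for a prime `q ≤ 59` different from `11` and `23`, no power `q ^ f ≤ 59`
is congruent to `1` modulo `11`. -/
theorem pid11_key : ∀ q ∈ Finset.range 60, ∀ f ∈ Finset.range 6,
    (2 ≤ q ∧ (q = 2 ∨ q % 2 ≠ 0) ∧ (q = 3 ∨ q % 3 ≠ 0) ∧ (q = 5 ∨ q % 5 ≠ 0) ∧
      (q = 7 ∨ q % 7 ≠ 0) ∧ q ≠ 11 ∧ q ≠ 23 ∧ 0 < f ∧ q ^ f ≤ 59) → q ^ f % 11 ≠ 1 % 11 := by
  decide

theorem pid11_r1 : ((13 : ℤ) : ZMod 23) ^ 11 = 1 := by decide

theorem pid11_r2 : ((13 : ℤ) : ZMod 23) ≠ 1 := by decide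

/-- The primes above `23` in `ℚ(ζ₁₁)` are principal. -/
theorem pid11_exists_principal_23 (K : Type*) [Field K] [NumberField K]
    [IsCyclotomicExtension {11} ℚ K] :
    ∃ P ∈ primesOver (span {((23 : ℕ) : ℤ)}) (𝓞 K), Submodule.IsPrincipal P := by
  have : Fact (Nat.Prime 11) := ⟨by norm_num⟩
  have : Fact (Nat.Prime 23) := ⟨by norm_num⟩
  refine PIDAux.exists_primesOver_isPrincipal_of_primitiveRoot_mod 11 23 (by norm_num) K 13
    pid11_r1 pid11_r2 (fun η => 1 - η + η ^ 3) ?_ ?_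
  · intro η _ I h23 hηr
    have h : (1 - η + η ^ 3 : 𝓞 K) =
        (η - ((13 : ℤ) : 𝓞 K)) * (η ^ 2 + 13 * η + 168) + ((23 : ℕ) : 𝓞 K) * 95 := by
      push_cast
      ring
    show (1 - η + η ^ 3 : 𝓞 K) ∈ I
    rw [h]
    exact I.add_mem (I.mul_mem_right _ hηr) (I.mul_mem_right _ h23)
  · intro η hη
    have hsum := hη.geom_sum_eq_zero (by norm_num : 1 < 11)
    simp only [Finset.sum_range_succ, Finset.sum_range_zero] at hsum
    constructor
    · rw [Ideal.mem_span_singleton']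
      refine ⟨8 - 2 * η - η ^ 2 - 8 * η ^ 3 - 5 * η ^ 4 - 3 * η ^ 5 + 6 * η ^ 6 + 12 * η ^ 7 +
        16 * η ^ 8 + 11 * η ^ 9, ?_⟩
      push_cast
      linear_combination (-15 + 5 * η + 11 * η ^ 2) * hsum
    · rw [Ideal.mem_span_singleton']
      refine ⟨-5 + η + 4 * η ^ 3 + 2 * η ^ 4 + η ^ 5 - 4 * η ^ 6 - 7 * η ^ 7 - 9 * η ^ 8 -
        6 * η ^ 9, ?_⟩
      push_cast
      linear_combination (8 - 3 * η - 6 * η ^ 2) * hsum

/-- If `IsCyclotomicExtension {11} ℚ K` then `𝓞 K` is a principal ideal domain. -/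
theorem eleven_pid (K : Type*) [Field K] [NumberField K] [IsCyclotomicExtension {11} ℚ K] :
    IsPrincipalIdealRing (𝓞 K) := by
  have : Fact (Nat.Prime 11) := ⟨by norm_num⟩
  have : IsGalois ℚ K := IsCyclotomicExtension.isGalois {11} ℚ K
  refine PIDAux.isPrincipalIdealRing_of_floor_le K 59 (eleven_minkowski_floor_le K) ?_
  intro q hq hqp
  have : Fact q.Prime := ⟨hqp⟩
  by_cases h11 : q = 11
  · subst h11
    obtain ⟨P, hP, hpr⟩ := PIDAux.exists_primesOver_isPrincipal_self 11 K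
    exact ⟨P, hP, Or.inr hpr⟩
  by_cases h23 : q = 23
  · subst h23
    obtain ⟨P, hP, hpr⟩ := pid11_exists_principal_23 K
    exact ⟨P, hP, Or.inr hpr⟩
  have hq11 : ¬ q ∣ 11 := by
    intro h
    rcases (Nat.dvd_prime (by norm_num)).mp h with h | h
    · exact hqp.ne_one h
    · exact h11 h
  obtain ⟨P, hP, hlt⟩ := PIDAux.exists_primesOver_of_order 11 q 59 6 K hq11 (by norm_num)
    (fun f hf hf0 hle => pid11_key q (Finset.mem_range.mpr (Nat.lt_succ_of_le hq)) f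
      (Finset.mem_range.mpr hf) ⟨hqp.two_le,
      PIDAux.prime_eq_or_mod_ne hqp (by norm_num), PIDAux.prime_eq_or_mod_ne hqp (by norm_num),
      PIDAux.prime_eq_or_mod_ne hqp (by norm_num), PIDAux.prime_eq_or_mod_ne hqp (by norm_num),
      h11, h23, hf0, hle⟩)
  exact ⟨P, hP, Or.inl hlt⟩

end Fermat.Agent.Kummer
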