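import Mathlib

set_option autoImplicit false

namespace Fermat.Agent.Kummer

open NumberField Polynomial

/-- Abstract criterion: a ring hom `φ` to a field of characteristic `q` whose kernel is
generated by `α` gives a principal prime over `q`. -/
theorem pidTools_exists_principal_of_ker_le {O F : Type*} [CommRing O] [Field F] (q : ℕ)
    [CharP F q] (φ : O →+* F) (α : O) (hα : φ α = 0)
    (hker : ∀ x, φ x = 0 → x ∈ Ideal.span {α}) :
    ∃ P ∈ Ideal.primesOver (Ideal.span {(q : ℤ)}) O, Submodule.IsPrincipal P := by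
  refine ⟨RingHom.ker φ, ⟨RingHom.ker_isPrime φ, ⟨?_⟩⟩, ⟨α, ?_⟩⟩
  · ext n
    rw [Ideal.mem_span_singleton, Ideal.under_def, Ideal.mem_comap, RingHom.mem_ker]
    rw [eq_intCast, map_intCast]
    exact (CharP.intCast_eq_zero_iff F q n).symm
  · refine le_antisymm (fun x hx => hker x (RingHom.mem_ker.mp hx)) ?_
    rw [Ideal.submodule_span_eq, Ideal.span_singleton_le_iff_mem]
    exact RingHom.mem_ker.mpr hα

/-- Degree one version: `O = ℤ[ζ]`, `φ : O → ZMod q` with `φ ζ = r`, `α β = q`,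
`α γ = ζ - r`, `φ α = 0`. -/
theorem pidTools_exists_principal_of_int_data {O : Type*} [CommRing O] (q : ℕ) [Fact q.Prime]
    (ζ : O) (hadj : Algebra.adjoin ℤ {ζ} = ⊤) (φ : O →+* ZMod q) (r : ℤ)
    (α β γ : O) (h1 : α * β = (q : O)) (h2 : α * γ = ζ - r) (h3 : φ α = 0) :
    ∃ P ∈ Ideal.primesOver (Ideal.span {(q : ℤ)}) O, Submodule.IsPrincipal P := by
  have hsurj : ∀ x : O, ∃ n : ℤ, x - n ∈ Ideal.span {α} := by
    intro x
    have hx : x ∈ Algebra.adjoin ℤ {ζ} := by rw [hadj]; trivial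
    induction hx using Algebra.adjoin_induction with
    | mem y hy =>
      rw [Set.mem_singleton_iff] at hy
      subst hy
      exact ⟨r, Ideal.mem_span_singleton.mpr ⟨γ, h2.symm⟩⟩
    | algebraMap n =>
      exact ⟨n, by simp⟩
    | add x y _ _ hx hy =>
      obtain ⟨n, hn⟩ := hx
      obtain ⟨m, hm⟩ := hy
      refine ⟨n + m, ?_⟩
      have : x + y - ((n + m : ℤ) : O) = (x - n) + (y - m) := by push_cast; ring
      rw [this]
      exact Ideal.add_mem _ hn hm
    | mul x y _ _ hx hy =>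
      obtain ⟨n, hn⟩ := hx
      obtain ⟨m, hm⟩ := hy
      refine ⟨n * m, ?_⟩
      have : x * y - ((n * m : ℤ) : O) = x * (y - m) + (m : O) * (x - n) := by push_cast; ring
      rw [this]
      exact Ideal.add_mem _ (Ideal.mul_mem_left _ _ hm) (Ideal.mul_mem_left _ _ hn)
  refine pidTools_exists_principal_of_ker_le q φ α h3 (fun x hx => ?_)
  obtain ⟨n, hn⟩ := hsurj x
  have hφ : ∀ y ∈ Ideal.span {α}, φ y = 0 := by
    intro y hy
    obtain ⟨z, rfl⟩ := Ideal.mem_span_singleton.mp hy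
    rw [map_mul, h3, zero_mul]
  have hn0 : ((n : ℤ) : ZMod q) = 0 := by
    have := hφ _ hn
    rw [map_sub, hx, zero_sub, neg_eq_zero, map_intCast] at this
    exact this
  rw [ZMod.intCast_zmod_eq_zero_iff_dvd] at hn0
  obtain ⟨m, rfl⟩ := hn0
  have hmem : (((q : ℤ) * m : ℤ) : O) ∈ Ideal.span {α} := by
    refine Ideal.mem_span_singleton.mpr ⟨β * m, ?_⟩
    push_cast
    rw [← mul_assoc, h1]
  have : x = (x - (((q : ℤ) * m : ℤ) : O)) + (((q : ℤ) * m : ℤ) : O) := by ring
  rw [this]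
  exact Ideal.add_mem _ hn hmem

/-- A ring hom from the ring of integers of the `p`-th cyclotomic field to a field `F`,
sending `ζ` to a given root `t` of `1 + X + ... + X^(p-1)`. -/
theorem pidTools_exists_ringHom_of_root (p : ℕ) [hp : Fact p.Prime] (K : Type*) [Field K] [NumberField K]
    [IsCyclotomicExtension {p} ℚ K] {F : Type*} [Field F] (t : F)
    (ht : ∑ i ∈ Finset.range p, t ^ i = 0) :
    ∃ φ : 𝓞 K →+* F, φ (IsCyclotomicExtension.zeta_spec p ℚ K).toInteger = t := by
  have hζ := IsCyclotomicExtension.zeta_spec p ℚ K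
  let pb := hζ.integralPowerBasis
  have hgen : pb.gen = hζ.toInteger := hζ.integralPowerBasis_gen
  have hmin : minpoly ℤ pb.gen = cyclotomic p ℤ := by
    rw [hgen, ← RingOfIntegers.minpoly_coe]
    exact (cyclotomic_eq_minpoly hζ hp.out.pos).symm
  have hroot : aeval t (minpoly ℤ pb.gen) = 0 := by
    rw [hmin, cyclotomic_prime, map_sum]
    simpa using ht
  refine ⟨(pb.lift t hroot).toRingHom, ?_⟩
  rw [← hgen]
  exact pb.lift_gen t hroot

theorem pidTools_prime_eq_of_dvd_pow {p f q : ℕ} (hp : p.Prime) (hq : q.Prime) (h : q ∣ p ^ f) : q = p :=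
  (Nat.prime_dvd_prime_iff_eq hq hp).mp (hq.dvd_of_dvd_pow h)

end Fermat.Agent.Kummer
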