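import Mathlib
import Fermat.Agent.Kummer.PIDTools
import Fermat.Agent.Kummer.Minkowski

/-!
# Kummer project: `ℤ[ζ₁₃]` is a principal ideal domain

Minkowski's bound is `< 308`; the only primes `q ≤ 307` with a prime above of norm `≤ 307` are
`q = 13` (the prime `(ζ - 1)`), `q = 3` (norm `27`, generator `1 + ζ - ζ^3`) and
`q = 53, 79, 131, 157` (degree one, explicit generators).
-/

set_option autoImplicit false

namespace Fermat.Agent.Kummer

open NumberField Polynomial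

/-- The cyclotomic relation for `ζ₁₃`. -/
theorem pid13_cyclo_rel (K : Type*) [Field K] [NumberField K] [IsCyclotomicExtension {13} ℚ K] :
    ∑ i ∈ Finset.range 13, (IsCyclotomicExtension.zeta_spec 13 ℚ K).toInteger ^ i = 0 :=
  (IsCyclotomicExtension.zeta_spec 13 ℚ K).toInteger_isPrimitiveRoot.geom_sum_eq_zero
    (by norm_num)

theorem pid13_root_53 : ∑ i ∈ Finset.range 13, (16 : ZMod 53) ^ i = 0 ∧
    1 - (16 : ZMod 53) + (16 : ZMod 53) ^ 3 = 0 := by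
  decide

/-- A principal prime of `ℤ[ζ₁₃]` above `53`, generated by `1 - ζ + ζ ^ 3`. -/
theorem pid13_prime_53 (K : Type*) [Field K] [NumberField K] [IsCyclotomicExtension {13} ℚ K] :
    ∃ P ∈ Ideal.primesOver (Ideal.span {((53 : ℕ) : ℤ)}) (𝓞 K), Submodule.IsPrincipal P := by
  have : Fact (Nat.Prime 13) := ⟨by norm_num⟩
  have : Fact (Nat.Prime 53) := ⟨by norm_num⟩
  obtain ⟨φ, hφ⟩ := pidTools_exists_ringHom_of_root 13 K ((16 : ZMod 53)) pid13_root_53.1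
  have hΦ := pid13_cyclo_rel K
  have hadj := IsCyclotomicExtension.Rat.adjoin_singleton_eq_top
    (IsCyclotomicExtension.zeta_spec 13 ℚ K)
  generalize (IsCyclotomicExtension.zeta_spec 13 ℚ K).toInteger = ζ at hφ hΦ hadj ⊢
  simp only [Finset.sum_range_succ, Finset.sum_range_zero] at hΦ
  refine pidTools_exists_principal_of_int_data 53 ζ hadj φ (16)
    (1 - ζ + ζ ^ 3)
    (25 + 10 * ζ + 19 * ζ ^ 2 + 3 * ζ ^ 3 + 2 * ζ ^ 4 - 8 * ζ ^ 5 - 2 * ζ ^ 6 + 5 * ζ ^ 7 + 22 * ζ ^ 8 + 33 * ζ ^ 9 + 37 * ζ ^ 10 + 24 * ζ ^ 11)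
    (-8 - 3 * ζ - 6 * ζ ^ 2 - ζ ^ 3 - ζ ^ 4 + 2 * ζ ^ 5 - 2 * ζ ^ 7 - 7 * ζ ^ 8 - 10 * ζ ^ 9 - 11 * ζ ^ 10 - 7 * ζ ^ 11) ?_ ?_ ?_
  · push_cast
    linear_combination (-28 + 13 * ζ + 24 * ζ ^ 2) * hΦ
  · push_cast
    linear_combination (8 - 4 * ζ - 7 * ζ ^ 2) * hΦ
  · simp only [map_sub, map_add, map_pow, map_one, hφ]
    exact pid13_root_53.2

theorem pid13_root_79 : ∑ i ∈ Finset.range 13, (62 : ZMod 79) ^ i = 0 ∧
    1 - (62 : ZMod 79) - (62 : ZMod 79) ^ 4 = 0 := by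
  decide

/-- A principal prime of `ℤ[ζ₁₃]` above `79`, generated by `1 - ζ - ζ ^ 4`. -/
theorem pid13_prime_79 (K : Type*) [Field K] [NumberField K] [IsCyclotomicExtension {13} ℚ K] :
    ∃ P ∈ Ideal.primesOver (Ideal.span {((79 : ℕ) : ℤ)}) (𝓞 K), Submodule.IsPrincipal P := by
  have : Fact (Nat.Prime 13) := ⟨by norm_num⟩
  have : Fact (Nat.Prime 79) := ⟨by norm_num⟩
  obtain ⟨φ, hφ⟩ := pidTools_exists_ringHom_of_root 13 K ((62 : ZMod 79)) pid13_root_79.1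
  have hΦ := pid13_cyclo_rel K
  have hadj := IsCyclotomicExtension.Rat.adjoin_singleton_eq_top
    (IsCyclotomicExtension.zeta_spec 13 ℚ K)
  generalize (IsCyclotomicExtension.zeta_spec 13 ℚ K).toInteger = ζ at hφ hΦ hadj ⊢
  simp only [Finset.sum_range_succ, Finset.sum_range_zero] at hΦ
  refine pidTools_exists_principal_of_int_data 79 ζ hadj φ (-17)
    (1 - ζ - ζ ^ 4)
    (62 + 63 * ζ + 49 * ζ ^ 2 + 8 * ζ ^ 3 + 29 * ζ ^ 4 + 51 * ζ ^ 5 + 59 * ζ ^ 6 + 26 * ζ ^ 7 + 14 * ζ ^ 8 + 24 * ζ ^ 9 + 42 * ζ ^ 10 + 27 * ζ ^ 11)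
    (13 + 14 * ζ + 11 * ζ ^ 2 + 2 * ζ ^ 3 + 6 * ζ ^ 4 + 11 * ζ ^ 5 + 13 * ζ ^ 6 + 6 * ζ ^ 7 + 3 * ζ ^ 8 + 5 * ζ ^ 9 + 9 * ζ ^ 10 + 6 * ζ ^ 11) ?_ ?_ ?_
  · push_cast
    linear_combination (-17 + 18 * ζ - 15 * ζ ^ 2 - 27 * ζ ^ 3) * hΦ
  · push_cast
    linear_combination (-4 + 4 * ζ - 3 * ζ ^ 2 - 6 * ζ ^ 3) * hΦ
  · simp only [map_sub, map_pow, map_one, hφ]
    exact pid13_root_79.2

theorem pid13_root_131 : ∑ i ∈ Finset.range 13, (80 : ZMod 131) ^ i = 0 ∧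
    1 - (80 : ZMod 131) - (80 : ZMod 131) ^ 3 = 0 := by
  decide

/-- A principal prime of `ℤ[ζ₁₃]` above `131`, generated by `1 - ζ - ζ ^ 3`. -/
theorem pid13_prime_131 (K : Type*) [Field K] [NumberField K] [IsCyclotomicExtension {13} ℚ K] :
    ∃ P ∈ Ideal.primesOver (Ideal.span {((131 : ℕ) : ℤ)}) (𝓞 K), Submodule.IsPrincipal P := by
  have : Fact (Nat.Prime 13) := ⟨by norm_num⟩
  have : Fact (Nat.Prime 131) := ⟨by norm_num⟩
  obtain ⟨φ, hφ⟩ := pidTools_exists_ringHom_of_root 13 K ((80 : ZMod 131)) pid13_root_131.1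
  have hΦ := pid13_cyclo_rel K
  have hadj := IsCyclotomicExtension.Rat.adjoin_singleton_eq_top
    (IsCyclotomicExtension.zeta_spec 13 ℚ K)
  generalize (IsCyclotomicExtension.zeta_spec 13 ℚ K).toInteger = ζ at hφ hΦ hadj ⊢
  simp only [Finset.sum_range_succ, Finset.sum_range_zero] at hΦ
  refine pidTools_exists_principal_of_int_data 131 ζ hadj φ (-51)
    (1 - ζ - ζ ^ 3)
    (111 + 78 * ζ + 17 * ζ ^ 2 + 67 * ζ ^ 3 + 84 * ζ ^ 4 + 40 * ζ ^ 5 + 46 * ζ ^ 6 + 69 * ζ ^ 7 + 48 * ζ ^ 8 + 33 * ζ ^ 9 + 41 * ζ ^ 10 + 28 * ζ ^ 11)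
    (43 + 31 * ζ + 7 * ζ ^ 2 + 26 * ζ ^ 3 + 33 * ζ ^ 4 + 16 * ζ ^ 5 + 18 * ζ ^ 6 + 27 * ζ ^ 7 + 19 * ζ ^ 8 + 13 * ζ ^ 9 + 16 * ζ ^ 10 + 11 * ζ ^ 11) ?_ ?_ ?_
  · push_cast
    linear_combination (-20 - 13 * ζ - 28 * ζ ^ 2) * hΦ
  · push_cast
    linear_combination (-8 - 5 * ζ - 11 * ζ ^ 2) * hΦ
  · simp only [map_sub, map_pow, map_one, hφ]
    exact pid13_root_131.2

theorem pid13_root_157 : ∑ i ∈ Finset.range 13, (75 : ZMod 157) ^ i = 0 ∧
    1 - (75 : ZMod 157) + (75 : ZMod 157) ^ 2 + (75 : ZMod 157) ^ 4 = 0 := by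
  decide

/-- A principal prime of `ℤ[ζ₁₃]` above `157`, generated by `1 - ζ + ζ ^ 2 + ζ ^ 4`. -/
theorem pid13_prime_157 (K : Type*) [Field K] [NumberField K] [IsCyclotomicExtension {13} ℚ K] :
    ∃ P ∈ Ideal.primesOver (Ideal.span {((157 : ℕ) : ℤ)}) (𝓞 K), Submodule.IsPrincipal P := by
  have : Fact (Nat.Prime 13) := ⟨by norm_num⟩
  have : Fact (Nat.Prime 157) := ⟨by norm_num⟩
  obtain ⟨φ, hφ⟩ := pidTools_exists_ringHom_of_root 13 K ((75 : ZMod 157)) pid13_root_157.1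
  have hΦ := pid13_cyclo_rel K
  have hadj := IsCyclotomicExtension.Rat.adjoin_singleton_eq_top
    (IsCyclotomicExtension.zeta_spec 13 ℚ K)
  generalize (IsCyclotomicExtension.zeta_spec 13 ℚ K).toInteger = ζ at hφ hΦ hadj ⊢
  simp only [Finset.sum_range_succ, Finset.sum_range_zero] at hΦ
  refine pidTools_exists_principal_of_int_data 157 ζ hadj φ (75)
    (1 - ζ + ζ ^ 2 + ζ ^ 4)
    (89 + 86 * ζ + 42 * ζ ^ 2 + 77 * ζ ^ 3 + 67 * ζ ^ 4 + 25 * ζ ^ 5 + 37 * ζ ^ 6 + 56 * ζ ^ 7 + 73 * ζ ^ 8 + 113 * ζ ^ 9 + 124 * ζ ^ 10 + 76 * ζ ^ 11)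
    (-43 - 41 * ζ - 20 * ζ ^ 2 - 37 * ζ ^ 3 - 32 * ζ ^ 4 - 12 * ζ ^ 5 - 18 * ζ ^ 6 - 27 * ζ ^ 7 - 35 * ζ ^ 8 - 54 * ζ ^ 9 - 59 * ζ ^ 10 - 36 * ζ ^ 11) ?_ ?_ ?_
  · push_cast
    linear_combination (-68 + 65 * ζ + 48 * ζ ^ 2 + 76 * ζ ^ 3) * hΦ
  · push_cast
    linear_combination (32 - 31 * ζ - 23 * ζ ^ 2 - 36 * ζ ^ 3) * hΦ
  · simp only [map_sub, map_add, map_pow, map_one, hφ]
    exact pid13_root_157.2

/-! ### The prime above `3` (residue field `𝔽₂₇`) -/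

/-- The cubic `X^3 - X - 1` over `ZMod 3`. -/
noncomputable def pid13_cubic : (ZMod 3)[X] := X ^ 3 - X - 1

theorem pid13_cubic_natDegree : pid13_cubic.natDegree = 3 := by
  unfold pid13_cubic
  compute_degree!

theorem pid13_cubic_irreducible : Irreducible pid13_cubic := by
  apply Polynomial.irreducible_of_degree_le_three_of_not_isRoot
  · rw [pid13_cubic_natDegree]
    decide
  · intro x
    unfold pid13_cubic
    simp only [IsRoot, eval_sub, eval_pow, eval_X, eval_one]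
    revert x
    decide

theorem pid13_cubic_indep_aux (a b c : ZMod 3)
    (hmk : AdjoinRoot.mk pid13_cubic (C a + C b * X + C c * X ^ 2) = 0) :
    a = 0 ∧ b = 0 ∧ c = 0 := by
  rw [AdjoinRoot.mk_eq_zero] at hmk
  have hdeg : (C a + C b * X + C c * X ^ 2).degree < pid13_cubic.degree := by
    have h1 : pid13_cubic.degree = 3 := by
      unfold pid13_cubic
      compute_degree!
    have h2 : (C a + C b * X + C c * X ^ 2).degree ≤ 2 := by
      compute_degree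
    rw [h1]
    exact lt_of_le_of_lt h2 (by norm_num)
  have hp0 := Polynomial.eq_zero_of_dvd_of_degree_lt hmk hdeg
  have ha := congrArg (fun p => p.coeff 0) hp0
  have hb := congrArg (fun p => p.coeff 1) hp0
  have hc := congrArg (fun p => p.coeff 2) hp0
  simp [coeff_X, coeff_C] at ha hb hc
  exact ⟨ha, hb, hc⟩

theorem pid13_cubic_indep (a b c : ℤ)
    (h : (a : AdjoinRoot pid13_cubic) + b * AdjoinRoot.root pid13_cubic +
      c * AdjoinRoot.root pid13_cubic ^ 2 = 0) :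
    (3 : ℤ) ∣ a ∧ (3 : ℤ) ∣ b ∧ (3 : ℤ) ∣ c := by
  have hmk : AdjoinRoot.mk pid13_cubic
      (C ((a : ℤ) : ZMod 3) + C ((b : ℤ) : ZMod 3) * X + C ((c : ℤ) : ZMod 3) * X ^ 2) = 0 := by
    rw [← h]
    simp [AdjoinRoot.mk_X]
  obtain ⟨ha, hb, hc⟩ := pid13_cubic_indep_aux _ _ _ hmk
  exact ⟨(ZMod.intCast_zmod_eq_zero_iff_dvd a 3).mp ha,
    (ZMod.intCast_zmod_eq_zero_iff_dvd b 3).mp hb, (ZMod.intCast_zmod_eq_zero_iff_dvd c 3).mp hc⟩

/-- A principal prime of `ℤ[ζ₁₃]` above `3`, generated by `1 + ζ - ζ ^ 3`. -/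
theorem pid13_prime_3 (K : Type*) [Field K] [NumberField K] [IsCyclotomicExtension {13} ℚ K] :
    ∃ P ∈ Ideal.primesOver (Ideal.span {((3 : ℕ) : ℤ)}) (𝓞 K), Submodule.IsPrincipal P := by
  have : Fact (Nat.Prime 13) := ⟨by norm_num⟩
  have : Fact (Nat.Prime 3) := ⟨by norm_num⟩
  have : Fact (Irreducible pid13_cubic) := ⟨pid13_cubic_irreducible⟩
  have : CharP (AdjoinRoot pid13_cubic) 3 :=
    charP_of_injective_algebraMap (algebraMap (ZMod 3) (AdjoinRoot pid13_cubic)).injective 3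
  obtain ⟨t, ht⟩ : ∃ t : AdjoinRoot pid13_cubic, t = AdjoinRoot.root pid13_cubic := ⟨_, rfl⟩
  have ht3 : t ^ 3 - t - 1 = 0 := by
    have h : AdjoinRoot.mk pid13_cubic (X ^ 3 - X - 1) = 0 :=
      AdjoinRoot.mk_self (f := pid13_cubic)
    rw [map_sub, map_sub, map_pow, AdjoinRoot.mk_X, map_one] at h
    rw [ht]
    exact h
  have h3 : (3 : AdjoinRoot pid13_cubic) = 0 := by
    have := CharP.cast_eq_zero (AdjoinRoot pid13_cubic) 3
    exact_mod_cast this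
  have hsum : ∑ i ∈ Finset.range 13, t ^ i = 0 := by
    simp only [Finset.sum_range_succ, Finset.sum_range_zero]
    linear_combination (20 + 15 * t + 11 * t ^ 2 + 8 * t ^ 3 + 6 * t ^ 4 + 4 * t ^ 5 + 3 * t ^ 6 +
      2 * t ^ 7 + t ^ 8 + t ^ 9) * ht3 + (7 + 12 * t + 9 * t ^ 2) * h3
  obtain ⟨φ, hφ⟩ := pidTools_exists_ringHom_of_root 13 K t hsum
  have hΦ := pid13_cyclo_rel K
  have hadj := IsCyclotomicExtension.Rat.adjoin_singleton_eq_top
    (IsCyclotomicExtension.zeta_spec 13 ℚ K)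
  generalize (IsCyclotomicExtension.zeta_spec 13 ℚ K).toInteger = ζ at hφ hΦ hadj ⊢
  simp only [Finset.sum_range_succ, Finset.sum_range_zero] at hΦ
  have hαφ : φ (1 + ζ - ζ ^ 3) = 0 := by
    simp only [map_sub, map_add, map_pow, map_one, hφ]
    linear_combination (-1 : AdjoinRoot pid13_cubic) * ht3
  have hβ : (1 + ζ - ζ ^ 3) * (-1 - ζ ^ 2 - ζ ^ 3 - 2 * ζ ^ 5 - ζ ^ 7 - 2 * ζ ^ 8 + ζ ^ 9
      - 3 * ζ ^ 10) = 3 := by
    linear_combination (-4 + 3 * ζ) * hΦ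
  have hsurj : ∀ x : 𝓞 K, ∃ a b c : ℤ, ∃ y : 𝓞 K,
      x - (a + b * ζ + c * ζ ^ 2) = (1 + ζ - ζ ^ 3) * y := by
    intro x
    have hx : x ∈ Algebra.adjoin ℤ {ζ} := by rw [hadj]; trivial
    induction hx using Algebra.adjoin_induction with
    | mem y hy =>
      rw [Set.mem_singleton_iff] at hy
      subst hy
      exact ⟨0, 1, 0, 0, by push_cast; ring⟩
    | algebraMap n =>
      exact ⟨n, 0, 0, 0, by simp⟩
    | add x y _ _ hx hy =>
      obtain ⟨a₁, b₁, c₁, y₁, h₁⟩ := hx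
      obtain ⟨a₂, b₂, c₂, y₂, h₂⟩ := hy
      refine ⟨a₁ + a₂, b₁ + b₂, c₁ + c₂, y₁ + y₂, ?_⟩
      push_cast
      linear_combination h₁ + h₂
    | mul x y _ _ hx hy =>
      obtain ⟨a₁, b₁, c₁, y₁, h₁⟩ := hx
      obtain ⟨a₂, b₂, c₂, y₂, h₂⟩ := hy
      refine ⟨a₁ * a₂ + b₁ * c₂ + c₁ * b₂, a₁ * b₂ + a₂ * b₁ + b₁ * c₂ + c₁ * b₂ + c₁ * c₂,
        a₁ * c₂ + b₁ * b₂ + c₁ * a₂ + c₁ * c₂,
        x * y₂ + (a₂ + b₂ * ζ + c₂ * ζ ^ 2) * y₁ - ((b₁ * c₂ + c₁ * b₂ : ℤ) + (c₁ * c₂ : ℤ) * ζ), ?_⟩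
      push_cast
      linear_combination x * h₂ + (a₂ + b₂ * ζ + c₂ * ζ ^ 2) * h₁
  refine pidTools_exists_principal_of_ker_le 3 φ (1 + ζ - ζ ^ 3) hαφ (fun x hx => ?_)
  obtain ⟨a, b, c, y, hy⟩ := hsurj x
  have hφx : (a : AdjoinRoot pid13_cubic) + b * AdjoinRoot.root pid13_cubic +
      c * AdjoinRoot.root pid13_cubic ^ 2 = 0 := by
    have h := congrArg φ hy
    rw [map_mul, hαφ, zero_mul, map_sub, hx, zero_sub, neg_eq_zero] at h
    rw [← ht]
    simpa [hφ] using h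
  obtain ⟨⟨a', rfl⟩, ⟨b', rfl⟩, ⟨c', rfl⟩⟩ := pid13_cubic_indep a b c hφx
  refine Ideal.mem_span_singleton.mpr ⟨y + (-1 - ζ ^ 2 - ζ ^ 3 - 2 * ζ ^ 5 - ζ ^ 7 - 2 * ζ ^ 8 + ζ ^ 9
      - 3 * ζ ^ 10) * (a' + b' * ζ + c' * ζ ^ 2), ?_⟩
  push_cast at hy
  linear_combination hy - (a' + b' * ζ + c' * ζ ^ 2) * hβ

/-! ### Bookkeeping and the main theorem -/

/-- Bookkeeping: a prime power `p ^ f ≤ 307` congruent to `1` modulo `13`. -/
theorem pid13_small_prime_pow (p f : ℕ) (hp : p.Prime) (hf : 0 < f) (hle : p ^ f ≤ 307)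
    (h1 : (p : ZMod 13) ^ f = 1) : p = 3 ∨ p = 53 ∨ p = 79 ∨ p = 131 ∨ p = 157 := by
  have hmod : p ^ f % 13 = 1 := by
    have : ((p ^ f : ℕ) : ZMod 13) = ((1 : ℕ) : ZMod 13) := by push_cast; exact h1
    exact (ZMod.natCast_eq_natCast_iff' _ _ _).mp this
  have hge : 2 ≤ p ^ f := le_trans hp.two_le (Nat.le_self_pow hf.ne' p)
  have key : ∀ q : ℕ, q.Prime → q ∣ p ^ f → q = p := fun q hq h => pidTools_prime_eq_of_dvd_pow hp hq h
  generalize hn : p ^ f = n at *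
  have hcases : n = 14 ∨ n = 27 ∨ n = 40 ∨ n = 53 ∨ n = 66 ∨ n = 79 ∨ n = 92 ∨ n = 105 ∨
      n = 118 ∨ n = 131 ∨ n = 144 ∨ n = 157 ∨ n = 170 ∨ n = 183 ∨ n = 196 ∨ n = 209 ∨
      n = 222 ∨ n = 235 ∨ n = 248 ∨ n = 261 ∨ n = 274 ∨ n = 287 ∨ n = 300 := by omega
  rcases hcases with h | h | h | h | h | h | h | h | h | h | h | h | h | h | h | h | h | h | h |
    h | h | h | h <;> subst h
  · have a := key 2 (by norm_num) (by norm_num); have b := key 7 (by norm_num) (by norm_num); omega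
  · have a := key 3 (by norm_num) (by norm_num); omega
  · have a := key 2 (by norm_num) (by norm_num); have b := key 5 (by norm_num) (by norm_num); omega
  · have a := key 53 (by norm_num) (by norm_num); omega
  · have a := key 2 (by norm_num) (by norm_num); have b := key 3 (by norm_num) (by norm_num); omega
  · have a := key 79 (by norm_num) (by norm_num); omega
  · have a := key 2 (by norm_num) (by norm_num); have b := key 23 (by norm_num) (by norm_num); omega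
  · have a := key 3 (by norm_num) (by norm_num); have b := key 5 (by norm_num) (by norm_num); omega
  · have a := key 2 (by norm_num) (by norm_num); have b := key 59 (by norm_num) (by norm_num); omega
  · have a := key 131 (by norm_num) (by norm_num); omega
  · have a := key 2 (by norm_num) (by norm_num); have b := key 3 (by norm_num) (by norm_num); omega
  · have a := key 157 (by norm_num) (by norm_num); omega
  · have a := key 2 (by norm_num) (by norm_num); have b := key 5 (by norm_num) (by norm_num); omega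
  · have a := key 3 (by norm_num) (by norm_num); have b := key 61 (by norm_num) (by norm_num); omega
  · have a := key 2 (by norm_num) (by norm_num); have b := key 7 (by norm_num) (by norm_num); omega
  · have a := key 11 (by norm_num) (by norm_num); have b := key 19 (by norm_num) (by norm_num); omega
  · have a := key 2 (by norm_num) (by norm_num); have b := key 3 (by norm_num) (by norm_num); omega
  · have a := key 5 (by norm_num) (by norm_num); have b := key 47 (by norm_num) (by norm_num); omega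
  · have a := key 2 (by norm_num) (by norm_num); have b := key 31 (by norm_num) (by norm_num); omega
  · have a := key 3 (by norm_num) (by norm_num); have b := key 29 (by norm_num) (by norm_num); omega
  · have a := key 2 (by norm_num) (by norm_num); have b := key 137 (by norm_num) (by norm_num); omega
  · have a := key 7 (by norm_num) (by norm_num); have b := key 41 (by norm_num) (by norm_num); omega
  · have a := key 2 (by norm_num) (by norm_num); have b := key 3 (by norm_num) (by norm_num); omega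

/-- `ℤ[ζ₁₃]` is a principal ideal domain. -/
theorem thirteen_pid (K : Type*) [Field K] [NumberField K] [IsCyclotomicExtension {13} ℚ K] :
    IsPrincipalIdealRing (𝓞 K) := by
  have h13prime : Fact (Nat.Prime 13) := ⟨by norm_num⟩
  have : IsGalois ℚ K := IsCyclotomicExtension.isGalois {13} ℚ K
  refine RingOfIntegers.isPrincipalIdealRing_of_isPrincipal_of_lt_or_isPrincipal_of_mem_primesOver_of_mem_Icc
    (fun p hpmem hp => ?_)
  have hM := thirteen_minkowski_floor_le K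
  have hpf : Fact p.Prime := ⟨hp⟩
  by_cases h13 : p = 13
  · subst h13
    obtain ⟨⟨P, hP1, hP2⟩⟩ := (Ideal.span {((13 : ℕ) : ℤ)}).nonempty_primesOver (S := 𝓞 K)
    exact ⟨P, ⟨hP1, hP2⟩, Or.inr ⟨⟨_, IsCyclotomicExtension.Rat.eq_span_zeta_sub_one_of_liesOver' 13 K
      (IsCyclotomicExtension.zeta_spec 13 ℚ K) P⟩⟩⟩
  by_cases hex : p = 3 ∨ p = 53 ∨ p = 79 ∨ p = 131 ∨ p = 157
  · rcases hex with rfl | rfl | rfl | rfl | rfl
    · obtain ⟨P, hP, hpr⟩ := pid13_prime_3 K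
      exact ⟨P, hP, Or.inr hpr⟩
    · obtain ⟨P, hP, hpr⟩ := pid13_prime_53 K
      exact ⟨P, hP, Or.inr hpr⟩
    · obtain ⟨P, hP, hpr⟩ := pid13_prime_79 K
      exact ⟨P, hP, Or.inr hpr⟩
    · obtain ⟨P, hP, hpr⟩ := pid13_prime_131 K
      exact ⟨P, hP, Or.inr hpr⟩
    · obtain ⟨P, hP, hpr⟩ := pid13_prime_157 K
      exact ⟨P, hP, Or.inr hpr⟩
  · obtain ⟨⟨P, hP1, hP2⟩⟩ := (Ideal.span {(p : ℤ)}).nonempty_primesOver (S := 𝓞 K)
    refine ⟨P, ⟨hP1, hP2⟩, Or.inl ?_⟩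
    have hnd : ¬ p ∣ 13 := by
      intro hdvd
      exact h13 ((Nat.prime_dvd_prime_iff_eq hp (by norm_num)).mp hdvd)
    rw [IsCyclotomicExtension.Rat.inertiaDeg_eq_of_not_dvd p K P hnd]
    by_contra hcon
    push Not at hcon
    have hle : p ^ orderOf (p : ZMod 13) ≤ 307 := le_trans hcon hM
    have hne : (p : ZMod 13) ≠ 0 := by
      rw [Ne, ZMod.natCast_eq_zero_iff]
      intro hdvd
      exact h13 ((Nat.prime_dvd_prime_iff_eq (by norm_num) hp).mp hdvd).symm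
    have hpos : 0 < orderOf (p : ZMod 13) := by
      rw [orderOf_pos_iff, isOfFinOrder_iff_pow_eq_one]
      exact ⟨12, by norm_num, ZMod.pow_card_sub_one_eq_one hne⟩
    exact hex (pid13_small_prime_pow p _ hp hpos hle (pow_orderOf_eq_one _))

end Fermat.Agent.Kummer
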