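import Mathlib

/-!
# Kummer project, K3: the ring of integers of `ℚ(ζ₇)` is a PID

Minkowski's bound is `< 5`, and the primes `2`, `3` have inertia degrees `3`, `6` in `ℚ(ζ₇)`,
so every prime ideal above them has norm `> 4`.
-/

set_option autoImplicit false

namespace Fermat.Agent.Kummer

open NumberField Polynomial InfinitePlace Nat Real cyclotomic Module Ideal
open IsCyclotomicExtension IsCyclotomicExtension.Rat

/-- The Minkowski bound of `ℚ(ζ₇)` is `< 5`. -/
theorem seven_minkowski_lt (K : Type*) [Field K] [NumberField K]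
    [IsCyclotomicExtension {7} ℚ K] :
    (4 / π) ^ nrComplexPlaces K *
      ((finrank ℚ K)! / (finrank ℚ K) ^ (finrank ℚ K) * √|discr K|) < 5 := by
  have : Fact (Nat.Prime 7) := ⟨by norm_num⟩
  rw [discr_prime 7 K, IsCyclotomicExtension.finrank (n := 7) K (irreducible_rat (by simp)),
    nrComplexPlaces_eq_totient_div_two 7, totient_prime (by norm_num : Nat.Prime 7)]
  have h1 : ((7 - 1) / 2 : ℕ) = 3 := by norm_num
  have h2 : (7 - 1 : ℕ) = 6 := by norm_num
  have h3 : (7 - 2 : ℕ) = 5 := by norm_num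
  rw [h1, h2, h3]
  have h4 : |(((-1 : ℤ) ^ 3 * ((7 : ℕ) : ℤ) ^ 5 : ℤ) : ℝ)| = 16807 := by
    norm_num
  rw [h4]
  have h5 : √(16807 : ℝ) < 130 := by
    rw [Real.sqrt_lt' (by norm_num)]
    norm_num
  have h6 : (4 / π) ^ 3 < (4 / 3) ^ 3 := by
    gcongr
    exact pi_gt_three
  have h7 : (6 ! : ℝ) = 720 := by
    norm_num [Nat.factorial]
  rw [h7]
  have h8 : (0 : ℝ) ≤ √(16807 : ℝ) := Real.sqrt_nonneg _
  calc (4 / π) ^ 3 * ((720 : ℝ) / ((6 : ℕ) : ℝ) ^ 6 * √(16807 : ℝ))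
      ≤ (4 / 3) ^ 3 * ((720 : ℝ) / ((6 : ℕ) : ℝ) ^ 6 * √(16807 : ℝ)) := by
        apply mul_le_mul_of_nonneg_right h6.le
        positivity
    _ ≤ (4 / 3) ^ 3 * ((720 : ℝ) / ((6 : ℕ) : ℝ) ^ 6 * 130) := by
        gcongr
    _ < 5 := by norm_num

theorem orderOf_two_zmod_seven : orderOf ((2 : ℕ) : ZMod 7) = 3 := by
  rw [orderOf_eq_iff (by norm_num)]
  refine ⟨by decide, fun m hm hm0 => ?_⟩
  interval_cases m <;> decide

theorem orderOf_three_zmod_seven : orderOf ((3 : ℕ) : ZMod 7) = 6 := by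
  rw [orderOf_eq_iff (by norm_num)]
  refine ⟨by decide, fun m hm hm0 => ?_⟩
  interval_cases m <;> decide

/-- If `IsCyclotomicExtension {7} ℚ K` then `𝓞 K` is a principal ideal domain. -/
theorem seven_pid (K : Type*) [Field K] [NumberField K] [IsCyclotomicExtension {7} ℚ K] :
    IsPrincipalIdealRing (𝓞 K) := by
  have : Fact (Nat.Prime 7) := ⟨by norm_num⟩
  have : IsGalois ℚ K := IsCyclotomicExtension.isGalois {7} ℚ K
  have hM := seven_minkowski_lt K
  have hfloor : ⌊(4 / π) ^ nrComplexPlaces K *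
      ((finrank ℚ K)! / (finrank ℚ K) ^ (finrank ℚ K) * √|discr K|)⌋₊ ≤ 4 := by
    have h := (Nat.floor_lt (by positivity)).mpr (by exact_mod_cast hM :
      (4 / π) ^ nrComplexPlaces K *
        ((finrank ℚ K)! / (finrank ℚ K) ^ (finrank ℚ K) * √|discr K|) < ((5 : ℕ) : ℝ))
    omega
  apply RingOfIntegers.isPrincipalIdealRing_of_isPrincipal_of_lt_or_isPrincipal_of_mem_primesOver_of_mem_Icc
  intro p hp hprime
  rw [Finset.mem_Icc] at hp
  have hp4 : p ≤ 4 := hp.2.trans hfloor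
  have hp23 : p = 2 ∨ p = 3 := by
    have hp1 := hp.1
    interval_cases p
    · exact absurd hprime (by norm_num)
    · exact Or.inl rfl
    · exact Or.inr rfl
    · exact absurd hprime (by norm_num)
  have : Fact p.Prime := ⟨hprime⟩
  obtain ⟨⟨P, hP1, hP2⟩⟩ := (span {(p : ℤ)}).nonempty_primesOver (S := 𝓞 K)
  refine ⟨P, ⟨hP1, hP2⟩, Or.inl ?_⟩
  have hnd : ¬ p ∣ 7 := by
    rcases hp23 with rfl | rfl <;> norm_num
  rw [inertiaDeg_eq_of_not_dvd p K P hnd]
  refine lt_of_le_of_lt hfloor ?_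
  rcases hp23 with rfl | rfl
  · rw [orderOf_two_zmod_seven]
    norm_num
  · rw [orderOf_three_zmod_seven]
    norm_num

end Fermat.Agent.Kummer
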