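import Mathlib
import Fermat.Agent.Kummer.CaseI
import Fermat.Agent.Kummer.CaseII
import Fermat.Agent.Kummer.Cyclo
import Fermat.Agent.Kummer.KummersLemmaCore
import Fermat.Agent.Kummer.Hilbert92Parts
import Fermat.Agent.Kummer.PID7
import Fermat.Agent.Kummer.PID11
import Fermat.Agent.Kummer.PID13

/-!
# Fermat's Last Theorem for the exponents 5, 7, 11, 13

Kummer's proof for the regular primes `p = 5, 7, 11, 13`, for which `ℤ[ζ_p]` is a principal ideal
domain: case I by Sophie Germain's criterion, case II by Kummer's descent using Kummer's lemma.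
-/

set_option autoImplicit false

open NumberField

namespace Fermat.Agent.Kummer

/-- Kummer's lemma for a cyclotomic field `K = ℚ(ζ_p)` with `𝓞 K` principal: a unit congruent to
a rational integer modulo `p` is a `p`-th power. -/
theorem fltSmall_kummers_lemma {p : ℕ} [Fact p.Prime] {K : Type} [Field K] [NumberField K]
    [IsCyclotomicExtension {p} ℚ K] [IsPrincipalIdealRing (𝓞 K)] (hp : p ≠ 2) (u : (𝓞 K)ˣ)
    (a : ℤ) (h : (p : 𝓞 K) ∣ (u : 𝓞 K) - (a : 𝓞 K)) : ∃ v : (𝓞 K)ˣ, u = v ^ p := by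
  have hζ := IsCyclotomicExtension.zeta_spec p ℚ K
  obtain ⟨c, hc⟩ := exists_int_pow_congr hζ hp u a h
  exact kummers_lemma_core hp
    (fun L _ _ _ _ hdeg σ hσ => hilbert92_parts p hp hdeg σ hσ) hζ u c hc

/-- Fermat's Last Theorem for an odd prime exponent `p` among `5, 7, 11, 13`, given a `p`-th
cyclotomic field whose ring of integers is principal. -/
theorem fltSmall_of_pid (p : ℕ) [Fact p.Prime] (hp : p = 5 ∨ p = 7 ∨ p = 11 ∨ p = 13)
    (hp2 : p ≠ 2) (K : Type) [Field K] [NumberField K] [IsCyclotomicExtension {p} ℚ K]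
    [IsPrincipalIdealRing (𝓞 K)] (a b c : ℤ) (ha : a ≠ 0)
    (hb : b ≠ 0) (hc : c ≠ 0) (hgcd : IsCoprime a b) : a ^ p + b ^ p ≠ c ^ p := by
  intro h
  have hdvd : (p : ℤ) ∣ a * b * c := caseI p hp a b c hgcd h
  have hζ := IsCyclotomicExtension.zeta_spec p ℚ K
  exact caseII hζ hp2 (fun u a h => fltSmall_kummers_lemma hp2 u a h) a b c ha hb hc hgcd hdvd h

/-- **Fermat's Last Theorem for the exponents 5, 7, 11, 13.** -/
theorem flt_small (p : ℕ) (hp : p = 5 ∨ p = 7 ∨ p = 11 ∨ p = 13) (a b c : ℤ) (ha : a ≠ 0)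
    (hb : b ≠ 0) (hc : c ≠ 0) (hgcd : IsCoprime a b) : a ^ p + b ^ p ≠ c ^ p := by
  rcases hp with rfl | rfl | rfl | rfl
  · have : Fact (Nat.Prime 5) := ⟨by norm_num⟩
    have : IsCyclotomicExtension {5} ℚ (CyclotomicField 5 ℚ) :=
      CyclotomicField.isCyclotomicExtension 5 ℚ
    have : IsPrincipalIdealRing (𝓞 (CyclotomicField 5 ℚ)) :=
      IsCyclotomicExtension.Rat.five_pid (CyclotomicField 5 ℚ)
    exact fltSmall_of_pid 5 (by norm_num) (by norm_num) (CyclotomicField 5 ℚ) a b c ha hb hc hgcd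
  · have : Fact (Nat.Prime 7) := ⟨by norm_num⟩
    have : IsCyclotomicExtension {7} ℚ (CyclotomicField 7 ℚ) :=
      CyclotomicField.isCyclotomicExtension 7 ℚ
    have : IsPrincipalIdealRing (𝓞 (CyclotomicField 7 ℚ)) := seven_pid (CyclotomicField 7 ℚ)
    exact fltSmall_of_pid 7 (by norm_num) (by norm_num) (CyclotomicField 7 ℚ) a b c ha hb hc hgcd
  · have : Fact (Nat.Prime 11) := ⟨by norm_num⟩
    have : IsCyclotomicExtension {11} ℚ (CyclotomicField 11 ℚ) :=
      CyclotomicField.isCyclotomicExtension 11 ℚ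
    have : IsPrincipalIdealRing (𝓞 (CyclotomicField 11 ℚ)) := eleven_pid (CyclotomicField 11 ℚ)
    exact fltSmall_of_pid 11 (by norm_num) (by norm_num) (CyclotomicField 11 ℚ) a b c ha hb hc
      hgcd
  · have : Fact (Nat.Prime 13) := ⟨by norm_num⟩
    have : IsCyclotomicExtension {13} ℚ (CyclotomicField 13 ℚ) :=
      CyclotomicField.isCyclotomicExtension 13 ℚ
    have : IsPrincipalIdealRing (𝓞 (CyclotomicField 13 ℚ)) :=
      thirteen_pid (CyclotomicField 13 ℚ)
    exact fltSmall_of_pid 13 (by norm_num) (by norm_num) (CyclotomicField 13 ℚ) a b c ha hb hc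
      hgcd

end Fermat.Agent.Kummer
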