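import Mathlib
import Fermat.Agent.Kummer.Defs
import Fermat.Agent.Kummer.Herbrand

/-!
Kummer project, packages K7 (assembly) and K8 (glue), in the shapes of the project skeleton
(`unitsAut`, `unitsNorm`, `unitsDelta` of `Kummer/Defs.lean`):

* `exists_units_subgroup_of_parts` : the Galois stable finite index subgroup of units, from an
  equivariant Dirichlet family (K7a2), its relation module (K7a1) and the permutation module
  algebra (K7b), all taken as hypotheses;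
* `hilbert92_of_exists_units_subgroup` : Hilbert's Theorem 92 from that subgroup and the Herbrand
  index lemma (K6).
-/

set_option autoImplicit false

open NumberField

namespace Fermat.Agent.Kummer

section general

variable {K L : Type*} [Field K] [Field L] [Algebra K L]

theorem h92_units_ext {x y : (𝓞 L)ˣ} (h : ((x : 𝓞 L) : L) = ((y : 𝓞 L) : L)) : x = y :=
  Units.ext (RingOfIntegers.ext h)

theorem h92_coe_ne_zero (x : (𝓞 L)ˣ) : ((x : 𝓞 L) : L) ≠ 0 :=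
  NumberField.Units.coe_ne_zero x

theorem h92_coe_unitsNorm (σ : L ≃ₐ[K] L) (n : ℕ) (x : (𝓞 L)ˣ) :
    (((unitsNorm σ n x : (𝓞 L)ˣ) : 𝓞 L) : L) = ∏ i ∈ Finset.range n, (σ ^ i) ((x : 𝓞 L) : L) := by
  rw [unitsNorm_apply, Units.coe_prod, RingOfIntegers.coe_eq_algebraMap, map_prod]
  rfl

theorem h92_unitsAut_pow_apply (σ : L ≃ₐ[K] L) (i : ℕ) (y : (𝓞 L)ˣ) :
    (unitsAut σ ^ i) y = unitsAut (σ ^ i) y := by
  induction i generalizing y with
  | zero => exact h92_units_ext rfl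
  | succ i ih =>
    rw [pow_succ, MulAut.mul_apply, ih, pow_succ, unitsAut_mul]

/-- the telescoping identity behind both compositions being trivial -/
theorem h92_prod_shift {p : ℕ} (σ : L ≃ₐ[K] L) (hσp : σ ^ p = 1) (x : L) (hx : x ≠ 0) :
    ∏ i ∈ Finset.range p, (σ ^ (i + 1)) x = ∏ i ∈ Finset.range p, (σ ^ i) x := by
  have h1 := Finset.prod_range_succ (fun i => (σ ^ i) x) p
  have h2 := Finset.prod_range_succ' (fun i => (σ ^ i) x) p
  rw [h1] at h2
  simp only [hσp, pow_zero, AlgEquiv.one_apply] at h2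
  exact (mul_right_cancel₀ hx h2).symm

theorem h92_unitsNorm_unitsDelta {p : ℕ} (σ : L ≃ₐ[K] L) (hσp : σ ^ p = 1) (x : (𝓞 L)ˣ) :
    unitsNorm σ p (unitsDelta σ x) = 1 := by
  apply h92_units_ext
  rw [h92_coe_unitsNorm]
  have h : ∀ i, (σ ^ i) (((unitsDelta σ x : (𝓞 L)ˣ) : 𝓞 L) : L)
      = (σ ^ i) ((x : 𝓞 L) : L) / (σ ^ (i + 1)) ((x : 𝓞 L) : L) := by
    intro i
    rw [coe_unitsDelta, map_div₀, pow_succ, AlgEquiv.mul_apply]
  simp only [h]
  rw [Finset.prod_div_distrib, h92_prod_shift σ hσp _ (h92_coe_ne_zero x), div_self]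
  · rfl
  · exact Finset.prod_ne_zero_iff.mpr fun i _ => (map_ne_zero _).mpr (h92_coe_ne_zero x)

theorem h92_unitsDelta_unitsNorm {p : ℕ} (σ : L ≃ₐ[K] L) (hσp : σ ^ p = 1) (x : (𝓞 L)ˣ) :
    unitsDelta σ (unitsNorm σ p x) = 1 := by
  apply h92_units_ext
  rw [coe_unitsDelta, h92_coe_unitsNorm, map_prod]
  have h : ∀ i, σ ((σ ^ i) ((x : 𝓞 L) : L)) = (σ ^ (i + 1)) ((x : 𝓞 L) : L) := by
    intro i
    rw [pow_succ', AlgEquiv.mul_apply]
  simp only [h]
  rw [h92_prod_shift σ hσp _ (h92_coe_ne_zero x), div_self]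
  · rfl
  · exact Finset.prod_ne_zero_iff.mpr fun i _ => (map_ne_zero _).mpr (h92_coe_ne_zero x)

variable [FiniteDimensional K L] [IsGalois K L]

theorem h92_pow_finrank_eq_one (σ : L ≃ₐ[K] L) : σ ^ Module.finrank K L = 1 := by
  rw [← IsGalois.card_aut_eq_finrank K L]
  exact pow_card_eq_one'

theorem h92_prod_aut_eq (σ : L ≃ₐ[K] L) (hσ : ∀ τ, τ ∈ Subgroup.zpowers σ) (x : L) :
    ∏ τ : L ≃ₐ[K] L, τ x = ∏ i ∈ Finset.range (Module.finrank K L), (σ ^ i) x := by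
  classical
  have hcard : Nat.card (L ≃ₐ[K] L) = Module.finrank K L := IsGalois.card_aut_eq_finrank K L
  have himg := IsCyclic.image_range_card hσ
  rw [hcard] at himg
  rw [← himg, Finset.prod_image]
  intro i hi j hj hij
  have ho : orderOf σ = Module.finrank K L := by
    rw [orderOf_eq_card_of_forall_mem_zpowers hσ, hcard]
  refine pow_injOn_Iio_orderOf ?_ ?_ hij
  · rw [Set.mem_Iio, ho]; exact Finset.mem_range.mp hi
  · rw [Set.mem_Iio, ho]; exact Finset.mem_range.mp hj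

/-- K8: Hilbert 92 from the subgroup of package K7 (skeleton shape) and the Herbrand index
lemma. -/
theorem hilbert92_of_exists_units_subgroup (p : ℕ) (hKL : Module.finrank K L = p)
    (σ : L ≃ₐ[K] L) (hσ : ∀ τ, τ ∈ Subgroup.zpowers σ)
    (h : ∃ E' : Subgroup (𝓞 L)ˣ, E'.FiniteIndex ∧ (∀ x ∈ E', unitsAut σ x ∈ E') ∧
      (∀ x ∈ E', unitsAut σ x = x → ∃ y ∈ E', unitsNorm σ p y = x) ∧
      ∃ y₀ ∈ E', unitsNorm σ p y₀ = 1 ∧ ∀ y ∈ E', y₀ ≠ unitsDelta σ y) :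
    ∃ η : (𝓞 L)ˣ, Algebra.norm K ((η : 𝓞 L) : L) = 1 ∧
      ∀ ε : (𝓞 L)ˣ, ((η : 𝓞 L) : L) ≠ ((ε : 𝓞 L) : L) / σ ((ε : 𝓞 L) : L) := by
  obtain ⟨B, hBfin, hBσ, hBfix, y0, hy0B, hy0N, hy0⟩ := h
  have hσp : σ ^ p = 1 := by
    rw [← hKL]
    exact h92_pow_finrank_eq_one σ
  have hpow : ∀ (i : ℕ), ∀ x ∈ B, unitsAut (σ ^ i) x ∈ B := by
    intro i
    induction i with
    | zero =>
      intro x hx
      have h0 : unitsAut (σ ^ 0) x = x := h92_units_ext rfl
      rw [h0]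
      exact hx
    | succ i ih =>
      intro x hx
      rw [pow_succ, unitsAut_mul]
      exact ih _ (hBσ x hx)
  have hfB : ∀ x ∈ B, unitsNorm σ p x ∈ B := by
    intro x hx
    rw [unitsNorm_apply]
    exact Subgroup.prod_mem B fun i _ => hpow i x hx
  have hgB : ∀ x ∈ B, unitsDelta σ x ∈ B := by
    intro x hx
    rw [unitsDelta_apply]
    exact B.div_mem hx (hBσ x hx)
  have key := @herbrand_index _ _ (unitsNorm σ p) (unitsDelta σ)
    (h92_unitsNorm_unitsDelta σ hσp) (h92_unitsDelta_unitsNorm σ hσp) B hBfin hfB hgB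
  have h1 : (B.map (unitsNorm σ p)).relIndex ((unitsDelta σ).ker ⊓ B) = 1 := by
    rw [Subgroup.relIndex_eq_one]
    rintro x ⟨hx1, hx2⟩
    have hx1' : x / unitsAut σ x = 1 := by
      rw [← unitsDelta_apply]
      exact MonoidHom.mem_ker.mp hx1
    obtain ⟨y, hy, hxy⟩ := hBfix x hx2 (div_eq_one.mp hx1').symm
    exact ⟨y, hy, hxy⟩
  have h2 : (B.map (unitsDelta σ)).relIndex ((unitsNorm σ p).ker ⊓ B) ≠ 1 := by
    rw [Ne, Subgroup.relIndex_eq_one]
    intro hle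
    have hy0mem : y0 ∈ (unitsNorm σ p).ker ⊓ B := ⟨MonoidHom.mem_ker.mpr hy0N, hy0B⟩
    obtain ⟨y, hy, hyy0⟩ := hle hy0mem
    exact hy0 y hy hyy0.symm
  have h3 : (unitsDelta σ).range.relIndex (unitsNorm σ p).ker ≠ 1 := by
    intro h
    rw [h, h1, one_mul] at key
    exact h2 (Nat.eq_one_of_mul_eq_one_left key.symm)
  rw [Ne, Subgroup.relIndex_eq_one] at h3
  obtain ⟨η, hη1, hη2⟩ := SetLike.not_le_iff_exists.mp h3
  refine ⟨η, ?_, fun ε hε => hη2 ⟨ε, h92_units_ext (by rw [coe_unitsDelta, hε])⟩⟩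
  apply FaithfulSMul.algebraMap_injective K L
  rw [Algebra.norm_eq_prod_automorphisms, h92_prod_aut_eq σ hσ, hKL, map_one,
    ← h92_coe_unitsNorm, MonoidHom.mem_ker.mp hη1]
  rfl

end general

section assembly

variable {K L : Type*} [Field K] [Field L] [NumberField K] [NumberField L] [Algebra K L]
  [IsGalois K L]

/-- K7 (assembly): the Galois stable finite index subgroup of units, from the outputs of
K7a2 (`hfam`), K7a1 (`hdir`) and K7b (`halg`), each in the shape of the project skeleton. -/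
theorem exists_units_subgroup_of_parts (p : ℕ) (hKL : Module.finrank K L = p) (σ : L ≃ₐ[K] L)
    (hfam : (∀ w : InfinitePlace L, σ • w ≠ w) ∧
      ∃ u : InfinitePlace L → (𝓞 L)ˣ, (∀ w, u (σ • w) = unitsAut σ (u w)) ∧
        ∀ w w' : InfinitePlace L, w' ≠ w → Real.log (w' ((u w : 𝓞 L) : L)) < 0)
    (hdir : ∀ u : InfinitePlace L → (𝓞 L)ˣ,
      (∀ w w' : InfinitePlace L, w' ≠ w → Real.log (w' ((u w : 𝓞 L) : L)) < 0) →
      (Subgroup.closure (Set.range u)).FiniteIndex ∧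
        ∃ w₀ : InfinitePlace L → ℤ, w₀ ≠ 0 ∧
          ∀ c : InfinitePlace L → ℤ, ∏ w, u w ^ c w = 1 ↔ ∃ n : ℤ, c = n • w₀)
    (halg : ∀ (τ : Equiv.Perm (InfinitePlace L)) (_ : τ ^ p = 1) (_ : ∀ w, τ w ≠ w)
      (s : (𝓞 L)ˣ ≃* (𝓞 L)ˣ) (u : InfinitePlace L → (𝓞 L)ˣ) (_ : ∀ w, u (τ w) = s (u w))
      (w₀ : InfinitePlace L → ℤ) (_ : w₀ ≠ 0)
      (_ : ∀ c : InfinitePlace L → ℤ, ∏ w, u w ^ c w = 1 ↔ ∃ n : ℤ, c = n • w₀),
      (∀ x ∈ Subgroup.closure (Set.range u), s x = x →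
          ∃ y ∈ Subgroup.closure (Set.range u), ∏ i ∈ Finset.range p, (s ^ i) y = x) ∧
        ∃ y₀ ∈ Subgroup.closure (Set.range u), ∏ i ∈ Finset.range p, (s ^ i) y₀ = 1 ∧
          ∀ y ∈ Subgroup.closure (Set.range u), y₀ ≠ y / s y) :
    ∃ E' : Subgroup (𝓞 L)ˣ, E'.FiniteIndex ∧ (∀ x ∈ E', unitsAut σ x ∈ E') ∧
      (∀ x ∈ E', unitsAut σ x = x → ∃ y ∈ E', unitsNorm σ p y = x) ∧
      ∃ y₀ ∈ E', unitsNorm σ p y₀ = 1 ∧ ∀ y ∈ E', y₀ ≠ unitsDelta σ y := by
  obtain ⟨hfree, u, hequiv, hlog⟩ := hfam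
  obtain ⟨hfin, w₀, hw₀, hR⟩ := hdir u hlog
  have hσp : σ ^ p = 1 := by
    rw [← hKL]
    exact h92_pow_finrank_eq_one σ
  have hτp : (MulAction.toPerm σ : Equiv.Perm (InfinitePlace L)) ^ p = 1 := by
    have h1 : (MulAction.toPermHom (L ≃ₐ[K] L) (InfinitePlace L) σ) ^ p = 1 := by
      rw [← map_pow, hσp, map_one]
    exact h1
  obtain ⟨hi, y₀, hy₀, hy₀N, hy₀D⟩ := halg (MulAction.toPerm σ) hτp hfree (unitsAut σ) u
    hequiv w₀ hw₀ hR
  have hnorm : ∀ y : (𝓞 L)ˣ, ∏ i ∈ Finset.range p, (unitsAut σ ^ i) y = unitsNorm σ p y := by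
    intro y
    rw [unitsNorm_apply]
    exact Finset.prod_congr rfl fun i _ => h92_unitsAut_pow_apply σ i y
  refine ⟨Subgroup.closure (Set.range u), hfin, ?_, ?_, y₀, hy₀, ?_, ?_⟩
  · -- stability under the Galois action
    intro x hx
    have hle : Subgroup.closure (Set.range u)
        ≤ (Subgroup.closure (Set.range u)).comap (unitsAut σ).toMonoidHom := by
      rw [Subgroup.closure_le]
      rintro _ ⟨w, rfl⟩
      have h2 : unitsAut σ (u w) ∈ Subgroup.closure (Set.range u) := by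
        rw [← hequiv w]
        exact Subgroup.subset_closure ⟨_, rfl⟩
      exact h2
    exact hle hx
  · intro x hx hfix
    obtain ⟨y, hy, hxy⟩ := hi x hx hfix
    exact ⟨y, hy, by rw [← hnorm, hxy]⟩
  · rw [← hnorm, hy₀N]
  · intro y hy
    rw [unitsDelta_apply]
    exact hy₀D y hy

end assembly

end Fermat.Agent.Kummer
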