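import Mathlib
import Fermat.Agent.Kummer.Defs
import Fermat.Agent.Kummer.Hilbert92Asm
import Fermat.Agent.Kummer.DirichletFamily
import Fermat.Agent.Kummer.EquivariantFamily
import Fermat.Agent.Kummer.UnitsAlgebra

/-!
Kummer project, package K8: Hilbert's Theorem 92 for a cyclic extension `L/K` of number fields
of odd prime degree `p`: there is a unit of `L` of relative norm one which is not of the form
`ε / σ ε` for a unit `ε`.
-/

set_option autoImplicit false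

open NumberField

namespace Fermat.Agent.Kummer

variable {K L : Type*} [Field K] [Field L] [NumberField K] [NumberField L] [Algebra K L]
  [IsGalois K L]

/-- K7 in the shape of the project skeleton, assembled from K7a1, K7a2 and K7b. -/
theorem h92_exists_units_subgroup (p : ℕ) [Fact p.Prime] (hp : p ≠ 2)
    (hKL : Module.finrank K L = p) (σ : L ≃ₐ[K] L) (hσ : ∀ τ, τ ∈ Subgroup.zpowers σ) :
    ∃ E' : Subgroup (𝓞 L)ˣ, E'.FiniteIndex ∧ (∀ x ∈ E', unitsAut σ x ∈ E') ∧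
      (∀ x ∈ E', unitsAut σ x = x → ∃ y ∈ E', unitsNorm σ p y = x) ∧
      ∃ y₀ ∈ E', unitsNorm σ p y₀ = 1 ∧ ∀ y ∈ E', y₀ ≠ unitsDelta σ y := by
  refine exists_units_subgroup_of_parts p hKL σ (exists_equivariant_family p hp hKL σ hσ)
    (fun u hu => dirichlet_family u hu) ?_
  intro τ hτ hfree s u hu w₀ hw₀ hR
  obtain ⟨h1, h2⟩ := units_algebra p hp τ hτ hfree s u hu w₀ hw₀ hR
  refine ⟨fun x hx hsx => ?_, h2⟩
  obtain ⟨y, hy, hxy⟩ := h1 x hx hsx
  exact ⟨y, hy, hxy.symm⟩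

/-- **Hilbert 92** for cyclic extensions of odd prime degree. -/
theorem hilbert92 (p : ℕ) [Fact p.Prime] (hp : p ≠ 2) (hKL : Module.finrank K L = p)
    (σ : L ≃ₐ[K] L) (hσ : ∀ τ, τ ∈ Subgroup.zpowers σ) :
    ∃ η : (𝓞 L)ˣ, Algebra.norm K ((η : 𝓞 L) : L) = 1 ∧
      ∀ ε : (𝓞 L)ˣ, ((η : 𝓞 L) : L) ≠ ((ε : 𝓞 L) : L) / σ ((ε : 𝓞 L) : L) :=
  hilbert92_of_exists_units_subgroup p hKL σ hσ (h92_exists_units_subgroup p hp hKL σ hσ)

end Fermat.Agent.Kummer
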