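import Mathlib
import Fermat.Agent.Kummer.Hilbert94
import Fermat.Agent.Kummer.Hilbert92Parts

/-!
Hilbert 94 (final form): there is no unramified cyclic extension of odd prime degree of a number
field whose ring of integers is a principal ideal domain.
-/

set_option autoImplicit false

open NumberField

namespace Fermat.Agent.Kummer

/-- Hilbert 94: there is no unramified cyclic extension of odd prime degree of a number field
whose ring of integers is a principal ideal domain. -/
theorem hilbert94 {K L : Type} [Field K] [Field L] [NumberField K] [NumberField L] [Algebra K L]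
    [IsGalois K L] (p : ℕ) [Fact p.Prime] (hp : p ≠ 2) (hKL : Module.finrank K L = p)
    (σ : L ≃ₐ[K] L) (hσ : ∀ τ, τ ∈ Subgroup.zpowers σ) [IsPrincipalIdealRing (𝓞 K)]
    (hdiff : differentIdeal (𝓞 K) (𝓞 L) = ⊤) : False :=
  hilbert94_of_hilbert92 hdiff σ hσ (hilbert92_parts p hp hKL σ hσ)

end Fermat.Agent.Kummer
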