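import Mathlib
import Fermat.Agent.Kummer.KummersLemmaCore
import Fermat.Agent.Kummer.Cyclo
import Fermat.Agent.Kummer.Hilbert92Parts

/-!
# Kummer's lemma for cyclotomic fields with principal ring of integers (K11)

If `𝓞 K` is a principal ideal ring (`K = ℚ(ζ_p)`, `p` an odd prime), then every unit of `𝓞 K`
congruent to a rational integer modulo `p` is a `p`-th power of a unit.
-/

set_option autoImplicit false

namespace Fermat.Agent.Kummer

open NumberField

/-- **Kummer's lemma** for `p`-th cyclotomic fields whose ring of integers is principal. -/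
theorem kummers_lemma {p : ℕ} [Fact p.Prime] {K : Type} [Field K] [NumberField K]
    [IsCyclotomicExtension {p} ℚ K] [IsPrincipalIdealRing (𝓞 K)] (hp : p ≠ 2) (u : (𝓞 K)ˣ)
    (a : ℤ) (h : (p : 𝓞 K) ∣ (u : 𝓞 K) - (a : 𝓞 K)) : ∃ v : (𝓞 K)ˣ, u = v ^ p := by
  have hpp : p.Prime := Fact.out
  obtain ⟨ζ, hζ⟩ : ∃ ζ : K, IsPrimitiveRoot ζ p :=
    IsCyclotomicExtension.exists_isPrimitiveRoot ℚ K (Set.mem_singleton p) hpp.ne_zero
  obtain ⟨c, hc⟩ := exists_int_pow_congr hζ hp u a h
  exact kummers_lemma_core hp (fun L _ _ _ _ hdeg σ hσ => hilbert92_parts p hp hdeg σ hσ) hζ u c hc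

end Fermat.Agent.Kummer
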