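import Fermat.Agent.Kummer.PrincipalPrime

set_option autoImplicit false

open NumberField Polynomial Ideal

namespace Fermat.Agent.Kummer

/-- A principal prime of `ℤ[ζ₁₃]` over `53`. -/
theorem pid13_exists_principal_53 (K : Type*) [Field K] [NumberField K]
    [IsCyclotomicExtension {13} ℚ K] :
    ∃ P ∈ primesOver (span {((53 : ℕ) : ℤ)}) (𝓞 K), Submodule.IsPrincipal P := by
  have hζ := IsCyclotomicExtension.zeta_spec 13 ℚ K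
  have : Fact (Nat.Prime 53) := ⟨by norm_num⟩
  have : Fact (Nat.Prime 13) := ⟨by norm_num⟩
  obtain ⟨ζ, hζdef⟩ : ∃ z : 𝓞 K, z = hζ.toInteger := ⟨_, rfl⟩
  have hΦ : 1 + ζ + ζ ^ 2 + ζ ^ 3 + ζ ^ 4 + ζ ^ 5 + ζ ^ 6 + ζ ^ 7 + ζ ^ 8 + ζ ^ 9 + ζ ^ 10 + ζ ^ 11 + ζ ^ 12 = 0 := by
    have h := hζ.toInteger_isPrimitiveRoot.geom_sum_eq_zero (by norm_num)
    rw [← hζdef] at h
    simpa [Finset.sum_range_succ] using h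
  refine exists_principal_prime_over_linear 13 53 K hζ 16 ?_ (1 - ζ + ζ ^ 3)
    (25 + 10 * ζ + 19 * ζ ^ 2 + 3 * ζ ^ 3 + 2 * ζ ^ 4 - 8 * ζ ^ 5 - 2 * ζ ^ 6 + 5 * ζ ^ 7 + 22 * ζ ^ 8 + 33 * ζ ^ 9 + 37 * ζ ^ 10 + 24 * ζ ^ 11)
    (-8 - 3 * ζ - 6 * ζ ^ 2 - ζ ^ 3 - ζ ^ 4 + 2 * ζ ^ 5 - 2 * ζ ^ 7 - 7 * ζ ^ 8 - 10 * ζ ^ 9 - 11 * ζ ^ 10 - 7 * ζ ^ 11)
    (77) (255 + 16 * ζ + ζ ^ 2) ?_ ?_ ?_
  · rw [cyclotomic_prime]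
    simp only [eval_finsetSum, eval_pow, eval_X]
    rfl
  · push_cast
    linear_combination (-28 + 13 * ζ + 24 * ζ ^ 2) * hΦ
  · rw [← hζdef]
    push_cast
    linear_combination (-8 + 4 * ζ + 7 * ζ ^ 2) * hΦ
  · rw [← hζdef]
    push_cast
    ring

/-- A principal prime of `ℤ[ζ₁₃]` over `79`. -/
theorem pid13_exists_principal_79 (K : Type*) [Field K] [NumberField K]
    [IsCyclotomicExtension {13} ℚ K] :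
    ∃ P ∈ primesOver (span {((79 : ℕ) : ℤ)}) (𝓞 K), Submodule.IsPrincipal P := by
  have hζ := IsCyclotomicExtension.zeta_spec 13 ℚ K
  have : Fact (Nat.Prime 79) := ⟨by norm_num⟩
  have : Fact (Nat.Prime 13) := ⟨by norm_num⟩
  obtain ⟨ζ, hζdef⟩ : ∃ z : 𝓞 K, z = hζ.toInteger := ⟨_, rfl⟩
  have hΦ : 1 + ζ + ζ ^ 2 + ζ ^ 3 + ζ ^ 4 + ζ ^ 5 + ζ ^ 6 + ζ ^ 7 + ζ ^ 8 + ζ ^ 9 + ζ ^ 10 + ζ ^ 11 + ζ ^ 12 = 0 := by
    have h := hζ.toInteger_isPrimitiveRoot.geom_sum_eq_zero (by norm_num)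
    rw [← hζdef] at h
    simpa [Finset.sum_range_succ] using h
  refine exists_principal_prime_over_linear 13 79 K hζ 62 ?_ (1 - ζ - ζ ^ 4)
    (62 + 63 * ζ + 49 * ζ ^ 2 + 8 * ζ ^ 3 + 29 * ζ ^ 4 + 51 * ζ ^ 5 + 59 * ζ ^ 6 + 26 * ζ ^ 7 + 14 * ζ ^ 8 + 24 * ζ ^ 9 + 42 * ζ ^ 10 + 27 * ζ ^ 11)
    (-49 - 49 * ζ - 38 * ζ ^ 2 - 6 * ζ ^ 3 - 23 * ζ ^ 4 - 40 * ζ ^ 5 - 46 * ζ ^ 6 - 20 * ζ ^ 7 - 11 * ζ ^ 8 - 19 * ζ ^ 9 - 33 * ζ ^ 10 - 21 * ζ ^ 11)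
    (-187043) (-238329 - 3844 * ζ - 62 * ζ ^ 2 - ζ ^ 3) ?_ ?_ ?_
  · rw [cyclotomic_prime]
    simp only [eval_finsetSum, eval_pow, eval_X]
    rfl
  · push_cast
    linear_combination (-17 + 18 * ζ - 15 * ζ ^ 2 - 27 * ζ ^ 3) * hΦ
  · rw [← hζdef]
    push_cast
    linear_combination (-13 + 14 * ζ - 12 * ζ ^ 2 - 21 * ζ ^ 3) * hΦ
  · rw [← hζdef]
    push_cast
    ring

/-- A principal prime of `ℤ[ζ₁₃]` over `131`. -/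
theorem pid13_exists_principal_131 (K : Type*) [Field K] [NumberField K]
    [IsCyclotomicExtension {13} ℚ K] :
    ∃ P ∈ primesOver (span {((131 : ℕ) : ℤ)}) (𝓞 K), Submodule.IsPrincipal P := by
  have hζ := IsCyclotomicExtension.zeta_spec 13 ℚ K
  have : Fact (Nat.Prime 131) := ⟨by norm_num⟩
  have : Fact (Nat.Prime 13) := ⟨by norm_num⟩
  obtain ⟨ζ, hζdef⟩ : ∃ z : 𝓞 K, z = hζ.toInteger := ⟨_, rfl⟩
  have hΦ : 1 + ζ + ζ ^ 2 + ζ ^ 3 + ζ ^ 4 + ζ ^ 5 + ζ ^ 6 + ζ ^ 7 + ζ ^ 8 + ζ ^ 9 + ζ ^ 10 + ζ ^ 11 + ζ ^ 12 = 0 := by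
    have h := hζ.toInteger_isPrimitiveRoot.geom_sum_eq_zero (by norm_num)
    rw [← hζdef] at h
    simpa [Finset.sum_range_succ] using h
  refine exists_principal_prime_over_linear 13 131 K hζ 80 ?_ (1 - ζ - ζ ^ 3)
    (111 + 78 * ζ + 17 * ζ ^ 2 + 67 * ζ ^ 3 + 84 * ζ ^ 4 + 40 * ζ ^ 5 + 46 * ζ ^ 6 + 69 * ζ ^ 7 + 48 * ζ ^ 8 + 33 * ζ ^ 9 + 41 * ζ ^ 10 + 28 * ζ ^ 11)
    (-68 - 47 * ζ - 10 * ζ ^ 2 - 41 * ζ ^ 3 - 51 * ζ ^ 4 - 24 * ζ ^ 5 - 28 * ζ ^ 6 - 42 * ζ ^ 7 - 29 * ζ ^ 8 - 20 * ζ ^ 9 - 25 * ζ ^ 10 - 17 * ζ ^ 11)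
    (-3909) (-6401 - 80 * ζ - ζ ^ 2) ?_ ?_ ?_
  · rw [cyclotomic_prime]
    simp only [eval_finsetSum, eval_pow, eval_X]
    rfl
  · push_cast
    linear_combination (-20 - 13 * ζ - 28 * ζ ^ 2) * hΦ
  · rw [← hζdef]
    push_cast
    linear_combination (-12 - 8 * ζ - 17 * ζ ^ 2) * hΦ
  · rw [← hζdef]
    push_cast
    ring

/-- A principal prime of `ℤ[ζ₁₃]` over `157`. -/
theorem pid13_exists_principal_157 (K : Type*) [Field K] [NumberField K]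
    [IsCyclotomicExtension {13} ℚ K] :
    ∃ P ∈ primesOver (span {((157 : ℕ) : ℤ)}) (𝓞 K), Submodule.IsPrincipal P := by
  have hζ := IsCyclotomicExtension.zeta_spec 13 ℚ K
  have : Fact (Nat.Prime 157) := ⟨by norm_num⟩
  have : Fact (Nat.Prime 13) := ⟨by norm_num⟩
  obtain ⟨ζ, hζdef⟩ : ∃ z : 𝓞 K, z = hζ.toInteger := ⟨_, rfl⟩
  have hΦ : 1 + ζ + ζ ^ 2 + ζ ^ 3 + ζ ^ 4 + ζ ^ 5 + ζ ^ 6 + ζ ^ 7 + ζ ^ 8 + ζ ^ 9 + ζ ^ 10 + ζ ^ 11 + ζ ^ 12 = 0 := by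
    have h := hζ.toInteger_isPrimitiveRoot.geom_sum_eq_zero (by norm_num)
    rw [← hζdef] at h
    simpa [Finset.sum_range_succ] using h
  refine exists_principal_prime_over_linear 13 157 K hζ 75 ?_ (1 - ζ + ζ ^ 2 + ζ ^ 4)
    (89 + 86 * ζ + 42 * ζ ^ 2 + 77 * ζ ^ 3 + 67 * ζ ^ 4 + 25 * ζ ^ 5 + 37 * ζ ^ 6 + 56 * ζ ^ 7 + 73 * ζ ^ 8 + 113 * ζ ^ 9 + 124 * ζ ^ 10 + 76 * ζ ^ 11)
    (-43 - 41 * ζ - 20 * ζ ^ 2 - 37 * ζ ^ 3 - 32 * ζ ^ 4 - 12 * ζ ^ 5 - 18 * ζ ^ 6 - 27 * ζ ^ 7 - 35 * ζ ^ 8 - 54 * ζ ^ 9 - 59 * ζ ^ 10 - 36 * ζ ^ 11)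
    (201568) (421949 + 5626 * ζ + 75 * ζ ^ 2 + ζ ^ 3) ?_ ?_ ?_
  · rw [cyclotomic_prime]
    simp only [eval_finsetSum, eval_pow, eval_X]
    rfl
  · push_cast
    linear_combination (-68 + 65 * ζ + 48 * ζ ^ 2 + 76 * ζ ^ 3) * hΦ
  · rw [← hζdef]
    push_cast
    linear_combination (-32 + 31 * ζ + 23 * ζ ^ 2 + 36 * ζ ^ 3) * hΦ
  · rw [← hζdef]
    push_cast
    ring
theorem pid13_aux_three : ∀ x : ZMod 3, x ^ 3 - (x + 1) ≠ 0 := by decide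

/-- A principal prime of `ℤ[ζ₁₃]` over `3`. -/
theorem pid13_exists_principal_3 (K : Type*) [Field K] [NumberField K]
    [IsCyclotomicExtension {13} ℚ K] :
    ∃ P ∈ primesOver (span {((3 : ℕ) : ℤ)}) (𝓞 K), Submodule.IsPrincipal P := by
  have hζ := IsCyclotomicExtension.zeta_spec 13 ℚ K
  have : Fact (Nat.Prime 3) := ⟨by norm_num⟩
  have : Fact (Nat.Prime 13) := ⟨by norm_num⟩
  obtain ⟨ζ, hζdef⟩ : ∃ z : 𝓞 K, z = hζ.toInteger := ⟨_, rfl⟩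
  have hΦ : 1 + ζ + ζ ^ 2 + ζ ^ 3 + ζ ^ 4 + ζ ^ 5 + ζ ^ 6 + ζ ^ 7 + ζ ^ 8 + ζ ^ 9 + ζ ^ 10 + ζ ^ 11 + ζ ^ 12 = 0 := by
    have h := hζ.toInteger_isPrimitiveRoot.geom_sum_eq_zero (by norm_num)
    rw [← hζdef] at h
    simpa [Finset.sum_range_succ] using h
  have hmap : (X ^ 3 - X - 1 : ℤ[X]).map (Int.castRingHom (ZMod 3)) = X ^ 3 - (X + C 1) := by
    simp [sub_sub]
  have hdeg : degree (X + C (1 : ZMod 3)) < ((3 : ℕ) : WithBot ℕ) := by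
    rw [degree_X_add_C]; decide
  have hmonic : (X ^ 3 - (X + C 1) : (ZMod 3)[X]).Monic := monic_X_pow_sub hdeg
  have hnat : (X ^ 3 - (X + C 1) : (ZMod 3)[X]).natDegree = 3 := by
    have h1 : (X + C (1 : ZMod 3)).natDegree = 1 := natDegree_X_add_C 1
    rw [natDegree_sub_eq_left_of_natDegree_lt (by rw [h1, natDegree_X_pow]; norm_num),
      natDegree_X_pow]
  have haeval : aeval hζ.toInteger (X ^ 3 - X - 1 : ℤ[X]) = ζ ^ 3 - ζ - 1 := by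
    rw [← hζdef]; simp
  refine exists_principal_prime_over 13 3 K hζ (X ^ 3 - X - 1) ?_ ?_ ?_ (1 + ζ - ζ ^ 3)
    (-1 - ζ ^ 2 - ζ ^ 3 - 2 * ζ ^ 5 - ζ ^ 7 - 2 * ζ ^ 8 + ζ ^ 9 - 3 * ζ ^ 10) (-1) 0 (-1) ?_ ?_ ?_
  · rw [hmap]; exact hmonic
  · rw [hmap, Monic.irreducible_iff_roots_eq_zero_of_degree_le_three hmonic (by rw [hnat]; norm_num)
      (by rw [hnat])]
    refine Multiset.eq_zero_of_forall_notMem (fun x hx => ?_)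
    rw [mem_roots hmonic.ne_zero] at hx
    exact pid13_aux_three x (by simpa using hx)
  · have hZ : cyclotomic 13 ℤ = (X ^ 3 - X - 1) *
        (20 + 15 * X + 11 * X ^ 2 + 8 * X ^ 3 + 6 * X ^ 4 + 4 * X ^ 5 + 3 * X ^ 6 + 2 * X ^ 7 + X ^ 8 + X ^ 9)
        + 3 * (7 + 12 * X + 9 * X ^ 2) := by
      rw [cyclotomic_prime]
      simp only [Finset.sum_range_succ, Finset.sum_range_zero]
      ring
    have h3 : (3 : (ZMod 3)[X]) = 0 := by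
      have := CharP.cast_eq_zero (ZMod 3)[X] 3
      exact_mod_cast this
    have hZ' := congrArg (Polynomial.map (Int.castRingHom (ZMod 3))) hZ
    rw [map_cyclotomic_int] at hZ'
    rw [hZ', Polynomial.map_add, Polynomial.map_mul, Polynomial.map_mul,
      show Polynomial.map (Int.castRingHom (ZMod 3)) (3 : ℤ[X]) = 3 by simp, h3, zero_mul, add_zero]
    exact dvd_mul_right _ _
  · push_cast
    linear_combination (-4 + 3 * ζ) * hΦ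
  · rw [haeval]; ring
  · rw [haeval]; push_cast; ring

end Fermat.Agent.Kummer
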