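import Mathlib

/-!
# Kummer project: auxiliary lemmas for proving that `𝓞 ℚ(ζ_p)` is a PID

* `isPrincipalIdealRing_of_floor_le`: the Galois PID criterion of Mathlib with an explicit
  upper bound `B` for the floor of the Minkowski bound.
* `exists_primesOver_of_order`: for a prime `q` not dividing the conductor `m`, a prime above `q`
  has norm `q ^ orderOf (q mod m) > B` as soon as a finite (decidable) check succeeds.
* `exists_primesOver_isPrincipal_self`: the prime above `p` in `ℚ(ζ_p)` is principal.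
* `isPrincipal_of_primitiveRoot_mod`: a prime above `q ≡ 1 mod p` is principal, given a generator
  candidate `A η` (a polynomial expression in a primitive root `η`) with divisibility certificates.
-/

set_option autoImplicit false

namespace Fermat.Agent.Kummer.PIDAux

open NumberField Module Ideal Polynomial

/-- The Galois PID criterion with an explicit upper bound for the floor of the Minkowski
bound. -/
theorem isPrincipalIdealRing_of_floor_le (K : Type*) [Field K] [NumberField K]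
    [IsGalois ℚ K] (B : ℕ)
    (hB : ⌊(4 / Real.pi) ^ InfinitePlace.nrComplexPlaces K *
      (((finrank ℚ K).factorial : ℝ) / (finrank ℚ K : ℝ) ^ (finrank ℚ K) *
        Real.sqrt |(discr K : ℝ)|)⌋₊ ≤ B)
    (h : ∀ q ≤ B, q.Prime → ∃ P ∈ primesOver (span {(q : ℤ)}) (𝓞 K),
      B < q ^ P.inertiaDeg ℤ ∨ Submodule.IsPrincipal P) :
    IsPrincipalIdealRing (𝓞 K) := by
  apply RingOfIntegers.isPrincipalIdealRing_of_isPrincipal_of_lt_or_isPrincipal_of_mem_primesOver_of_mem_Icc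
  intro q hq hqp
  obtain ⟨P, hP, hPB⟩ := h q ((Finset.mem_Icc.mp hq).2.trans hB) hqp
  refine ⟨P, hP, ?_⟩
  rcases hPB with hPB | hPB
  · exact Or.inl (lt_of_le_of_lt hB hPB)
  · exact Or.inr hPB

/-- For a prime `q` not dividing `m`, every prime of `ℚ(ζ_m)` above `q` has norm
`q ^ orderOf (q mod m)`; this exceeds `B` as soon as no `f` with `q ^ f ≤ B` satisfies
`q ^ f ≡ 1` modulo `m` (a decidable condition; `N` is any number with `B < 2 ^ N`). -/
theorem exists_primesOver_of_order (m q B N : ℕ) [NeZero m] [hq : Fact q.Prime] (K : Type*)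
    [Field K] [NumberField K] [IsCyclotomicExtension {m} ℚ K] (hqm : ¬ q ∣ m) (hN : B < 2 ^ N)
    (h : ∀ f < N, 0 < f → q ^ f ≤ B → q ^ f % m ≠ 1 % m) :
    ∃ P ∈ primesOver (span {(q : ℤ)}) (𝓞 K), B < q ^ P.inertiaDeg ℤ := by
  have hprime : (span {(q : ℤ)}).IsPrime :=
    (span_singleton_prime (by exact_mod_cast hq.out.ne_zero)).mpr
      (Nat.prime_iff_prime_int.mp hq.out)
  obtain ⟨⟨P, hP1, hP2⟩⟩ := (span {(q : ℤ)}).nonempty_primesOver (S := 𝓞 K)
  refine ⟨P, ⟨hP1, hP2⟩, ?_⟩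
  rw [IsCyclotomicExtension.Rat.inertiaDeg_eq_of_not_dvd q K P hqm]
  by_contra hlt
  rw [not_lt] at hlt
  have hcop : q.Coprime m := (Nat.Prime.coprime_iff_not_dvd hq.out).mpr hqm
  have hfin : IsOfFinOrder ((q : ℕ) : ZMod m) := by
    rw [isOfFinOrder_iff_pow_eq_one]
    refine ⟨m.totient, Nat.totient_pos.mpr (NeZero.pos m), ?_⟩
    have h2 : ((ZMod.unitOfCoprime q hcop : (ZMod m)ˣ) : ZMod m) ^ m.totient = 1 := by
      rw [← Units.val_pow_eq_pow_val, ZMod.pow_totient, Units.val_one]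
    rwa [ZMod.coe_unitOfCoprime] at h2
  have hf0 : 0 < orderOf ((q : ℕ) : ZMod m) := orderOf_pos_iff.mpr hfin
  have hfl : orderOf ((q : ℕ) : ZMod m) < N := by
    have h2 : 2 ^ orderOf ((q : ℕ) : ZMod m) < 2 ^ N :=
      lt_of_le_of_lt ((Nat.pow_le_pow_left hq.out.two_le _).trans hlt) hN
    exact (Nat.pow_lt_pow_iff_right (by norm_num)).mp h2
  refine h _ hfl hf0 hlt ?_
  have h3 : (((q ^ orderOf ((q : ℕ) : ZMod m) : ℕ) : ZMod m)) = ((1 : ℕ) : ZMod m) := by
    push_cast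
    exact pow_orderOf_eq_one _
  exact (ZMod.natCast_eq_natCast_iff' _ _ _).mp h3

/-- A prime `q` is either equal to the prime `d` or not divisible by it. -/
theorem prime_eq_or_mod_ne {q d : ℕ} (hq : q.Prime) (hd : d.Prime) : q = d ∨ q % d ≠ 0 := by
  by_cases h : q % d = 0
  · exact Or.inl ((Nat.prime_dvd_prime_iff_eq hd hq).mp (Nat.dvd_of_mod_eq_zero h)).symm
  · exact Or.inr h

/-- The prime above `p` in the `p`-th cyclotomic field is principal. -/
theorem exists_primesOver_isPrincipal_self (p : ℕ) [hp : Fact p.Prime] (K : Type*) [Field K]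
    [NumberField K] [IsCyclotomicExtension {p} ℚ K] :
    ∃ P ∈ primesOver (span {(p : ℤ)}) (𝓞 K), Submodule.IsPrincipal P := by
  have hζ := IsCyclotomicExtension.zeta_spec p ℚ K
  refine ⟨span {hζ.toInteger - 1}, ⟨?_, ?_⟩, ⟨_, rfl⟩⟩
  · exact IsCyclotomicExtension.Rat.isPrime_span_zeta_sub_one' p hζ
  · have hK : IsCyclotomicExtension {p ^ (0 + 1)} ℚ K := by rwa [zero_add, pow_one]
    have hζ' : IsPrimitiveRoot (IsCyclotomicExtension.zeta p ℚ K) (p ^ (0 + 1)) := by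
      rwa [zero_add, pow_one]
    exact IsCyclotomicExtension.Rat.liesOver_span_zeta_sub_one p 0 hζ'

/-- If a generator `θ` of `𝓞 K` as a `ℤ`-algebra is congruent to an integer modulo `I`, then
every element is. -/
theorem exists_int_sub_mem {R : Type*} [CommRing R] (θ : R) (hθ : Algebra.adjoin ℤ {θ} = ⊤)
    (I : Ideal R) (m : ℤ) (hm : θ - m ∈ I) (x : R) : ∃ n : ℤ, x - n ∈ I := by
  have hx : x ∈ Algebra.adjoin ℤ {θ} := by rw [hθ]; trivial
  induction hx using Algebra.adjoin_induction with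
  | mem y hy =>
    rw [Set.mem_singleton_iff] at hy
    subst hy
    exact ⟨m, hm⟩
  | algebraMap c => exact ⟨c, by simp⟩
  | add y z _ _ hy hz =>
    obtain ⟨a, ha⟩ := hy
    obtain ⟨b, hb⟩ := hz
    refine ⟨a + b, ?_⟩
    have : y + z - ((a + b : ℤ) : R) = (y - a) + (z - b) := by push_cast; ring
    rw [this]
    exact I.add_mem ha hb
  | mul y z _ _ hy hz =>
    obtain ⟨a, ha⟩ := hy
    obtain ⟨b, hb⟩ := hz
    refine ⟨a * b, ?_⟩
    have : y * z - ((a * b : ℤ) : R) = (y - a) * z + a * (z - b) := by push_cast; ring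
    rw [this]
    exact I.add_mem (I.mul_mem_right _ ha) (I.mul_mem_left _ hb)

/-- A prime `P` of `𝓞 ℚ(ζ_p)` above a prime `q ≠ p` such that `ZMod q` contains a primitive
`p`-th root of unity `r` is principal, generated by `A η` for a suitable primitive `p`-th root of
unity `η`, provided that for every primitive root `η`: `A η` lies in every ideal containing `q`
and `η - r`, and both `q` and `η - r` are multiples of `A η`. -/
theorem isPrincipal_of_primitiveRoot_mod (p q : ℕ) [hp : Fact p.Prime] [hq : Fact q.Prime]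
    (hpq : p ≠ q) (K : Type*) [Field K] [NumberField K] [IsCyclotomicExtension {p} ℚ K]
    (r : ℤ) (hr1 : (r : ZMod q) ^ p = 1) (hr2 : (r : ZMod q) ≠ 1)
    (A : 𝓞 K → 𝓞 K)
    (hA : ∀ η : 𝓞 K, IsPrimitiveRoot η p → ∀ I : Ideal (𝓞 K), (q : 𝓞 K) ∈ I →
      η - (r : 𝓞 K) ∈ I → A η ∈ I)
    (hA2 : ∀ η : 𝓞 K, IsPrimitiveRoot η p →
      (q : 𝓞 K) ∈ span {A η} ∧ η - (r : 𝓞 K) ∈ span {A η})
    (P : Ideal (𝓞 K)) [hP1 : P.IsPrime] [hP2 : P.LiesOver (span {(q : ℤ)})] :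
    Submodule.IsPrincipal P := by
  have hζK := IsCyclotomicExtension.zeta_spec p ℚ K
  have hζ : IsPrimitiveRoot hζK.toInteger p := hζK.toInteger_isPrimitiveRoot
  have htop : Algebra.adjoin ℤ {hζK.toInteger} = ⊤ :=
    IsCyclotomicExtension.Rat.adjoin_singleton_eq_top hζK
  generalize hζK.toInteger = ζ at hζ htop
  -- membership of integers in `P`
  have hPint : ∀ n : ℤ, (n : 𝓞 K) ∈ P ↔ (q : ℤ) ∣ n := by
    intro n
    have h1 : (n : 𝓞 K) ∈ P ↔ n ∈ P.under ℤ := by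
      rw [Ideal.under_def, Ideal.mem_comap]
      simp
    rw [h1, ← hP2.over, Ideal.mem_span_singleton]
  have hqP : (q : 𝓞 K) ∈ P := by
    have := (hPint q).mpr dvd_rfl
    simpa using this
  -- the characteristic of the quotient
  have hchar : CharP (𝓞 K ⧸ P) q := by
    rw [CharP.charP_iff_prime_eq_zero hq.out]
    have : ((q : 𝓞 K) : 𝓞 K ⧸ P) = 0 := Ideal.Quotient.eq_zero_iff_mem.mpr hqP
    simpa using this
  let φ : ZMod q →+* 𝓞 K ⧸ P := ZMod.castHom dvd_rfl (𝓞 K ⧸ P)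
  have hφr : φ (r : ZMod q) = Ideal.Quotient.mk P (r : 𝓞 K) := by
    rw [map_intCast, map_intCast]
  -- `r` is a primitive root modulo `q`
  have hrprim : IsPrimitiveRoot (r : ZMod q) p := by
    have := IsPrimitiveRoot.orderOf (r : ZMod q)
    rwa [orderOf_eq_prime hr1 hr2] at this
  -- `ζ` is congruent to a power of `r` modulo `P`
  obtain ⟨k, hkp, hk⟩ : ∃ k < p, ζ - (r : 𝓞 K) ^ k ∈ P := by
    have hprod := X_pow_sub_one_eq_prod hp.out.pos hrprim
    have h2 := congrArg (Polynomial.eval₂ φ (Ideal.Quotient.mk P ζ)) hprod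
    rw [eval₂_sub, eval₂_pow, eval₂_X, eval₂_one, ← map_pow, hζ.pow_eq_one, map_one, sub_self,
      eval₂_finsetProd] at h2
    obtain ⟨s, hs, hs0⟩ := Finset.prod_eq_zero_iff.mp h2.symm
    rw [eval₂_sub, eval₂_X, eval₂_C, sub_eq_zero] at hs0
    rw [mem_nthRootsFinset hp.out.pos] at hs
    have : NeZero p := ⟨hp.out.ne_zero⟩
    obtain ⟨k, hkp, hk⟩ := hrprim.eq_pow_of_pow_eq_one hs
    refine ⟨k, hkp, ?_⟩
    rw [← Ideal.Quotient.eq, hs0, ← hk, map_pow, hφr, map_pow]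
  -- `k ≠ 0`
  have hk0 : k ≠ 0 := by
    rintro rfl
    rw [pow_zero] at hk
    have hsum := hζ.geom_sum_eq_zero hp.out.one_lt
    have h3 : (p : 𝓞 K) ∈ P := by
      have h4 : (p : 𝓞 K) = ∑ i ∈ Finset.range p, (1 - ζ ^ i) := by
        rw [Finset.sum_sub_distrib, hsum]
        simp
      rw [h4]
      refine Ideal.sum_mem _ fun i _ => ?_
      have h5 : (1 : 𝓞 K) - ζ ^ i = -(ζ ^ i - 1 ^ i) := by ring
      rw [h5]
      exact neg_mem (Ideal.mem_of_dvd _ (sub_dvd_pow_sub_pow ζ 1 i) hk)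
    have h6 := (hPint p).mp (by simpa using h3)
    have h7 : q ∣ p := by exact_mod_cast h6
    exact hpq ((Nat.prime_dvd_prime_iff_eq hq.out hp.out).mp h7).symm
  -- the inverse exponent
  have hcop : Nat.Coprime p k := by
    rw [Nat.Prime.coprime_iff_not_dvd hp.out]
    intro hdvd
    exact absurd (Nat.le_of_dvd (Nat.pos_of_ne_zero hk0) hdvd) (not_le.mpr hkp)
  obtain ⟨j, hj⟩ := Nat.exists_mul_mod_eq_one_of_coprime hcop.symm hp.out.one_lt
  have hkj : k * j = p * (k * j / p) + 1 := by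
    have := Nat.div_add_mod (k * j) p
    omega
  have hjcop : Nat.Coprime j p := by
    rw [Nat.coprime_comm, Nat.Prime.coprime_iff_not_dvd hp.out]
    intro hdvd
    have : k * j % p = 0 := Nat.mod_eq_zero_of_dvd (Dvd.dvd.mul_left hdvd k)
    omega
  have hη : IsPrimitiveRoot (ζ ^ j) p := hζ.pow_of_coprime j hjcop
  have hηk : (ζ ^ j) ^ k = ζ := by
    rw [← pow_mul, mul_comm, hkj, pow_add, pow_mul, hζ.pow_eq_one, one_pow, one_mul, pow_one]
  -- `η ≡ r` modulo `P`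
  have hηr : ζ ^ j - (r : 𝓞 K) ∈ P := by
    have h1 : ζ ^ j - ((r : 𝓞 K) ^ k) ^ j ∈ P :=
      Ideal.mem_of_dvd _ (sub_dvd_pow_sub_pow ζ ((r : 𝓞 K) ^ k) j) hk
    have h2 : ((r ^ (k * j) - r : ℤ) : 𝓞 K) ∈ P := by
      rw [hPint, ← ZMod.intCast_zmod_eq_zero_iff_dvd]
      push_cast
      rw [hkj, pow_add, pow_mul, hr1, one_pow, one_mul, pow_one, sub_self]
    have h3 : ζ ^ j - (r : 𝓞 K) = (ζ ^ j - ((r : 𝓞 K) ^ k) ^ j) + ((r ^ (k * j) - r : ℤ) : 𝓞 K) := by
      push_cast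
      ring
    rw [h3]
    exact P.add_mem h1 h2
  have hAP : A (ζ ^ j) ∈ P := hA _ hη P hqP hηr
  obtain ⟨hq2, hr3⟩ := hA2 _ hη
  have hζA : ζ - ((r ^ k : ℤ) : 𝓞 K) ∈ span {A (ζ ^ j)} := by
    have h1 : ζ - ((r ^ k : ℤ) : 𝓞 K) = (ζ ^ j) ^ k - (r : 𝓞 K) ^ k := by
      rw [hηk]
      push_cast
      ring
    rw [h1]
    exact Ideal.mem_of_dvd _ (sub_dvd_pow_sub_pow _ _ k) hr3
  have hle : span {A (ζ ^ j)} ≤ P := by
    rw [Ideal.span_le, Set.singleton_subset_iff]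
    exact hAP
  have heq : P = span {A (ζ ^ j)} := by
    refine le_antisymm (fun x hx => ?_) hle
    obtain ⟨n, hn⟩ := exists_int_sub_mem ζ htop (span {A (ζ ^ j)}) (r ^ k) hζA x
    have hnP : (n : 𝓞 K) ∈ P := by
      have h1 : (n : 𝓞 K) = x - (x - n) := by ring
      rw [h1]
      exact P.sub_mem hx (hle hn)
    obtain ⟨c, rfl⟩ := (hPint n).mp hnP
    have h2 : x = (x - (((q : ℤ) * c : ℤ) : 𝓞 K)) + (q : 𝓞 K) * (c : 𝓞 K) := by
      push_cast
      ring
    rw [h2]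
    exact Ideal.add_mem _ hn (Ideal.mul_mem_right _ _ hq2)
  exact ⟨⟨A (ζ ^ j), heq⟩⟩

/-- Existence form of `isPrincipal_of_primitiveRoot_mod`. -/
theorem exists_primesOver_isPrincipal_of_primitiveRoot_mod (p q : ℕ) [hp : Fact p.Prime]
    [hq : Fact q.Prime] (hpq : p ≠ q) (K : Type*) [Field K] [NumberField K]
    [IsCyclotomicExtension {p} ℚ K]
    (r : ℤ) (hr1 : (r : ZMod q) ^ p = 1) (hr2 : (r : ZMod q) ≠ 1)
    (A : 𝓞 K → 𝓞 K)
    (hA : ∀ η : 𝓞 K, IsPrimitiveRoot η p → ∀ I : Ideal (𝓞 K), (q : 𝓞 K) ∈ I →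
      η - (r : 𝓞 K) ∈ I → A η ∈ I)
    (hA2 : ∀ η : 𝓞 K, IsPrimitiveRoot η p →
      (q : 𝓞 K) ∈ span {A η} ∧ η - (r : 𝓞 K) ∈ span {A η}) :
    ∃ P ∈ primesOver (span {(q : ℤ)}) (𝓞 K), Submodule.IsPrincipal P := by
  have hprime : (span {(q : ℤ)}).IsPrime :=
    (span_singleton_prime (by exact_mod_cast hq.out.ne_zero)).mpr
      (Nat.prime_iff_prime_int.mp hq.out)
  obtain ⟨⟨P, hP1, hP2⟩⟩ := (span {(q : ℤ)}).nonempty_primesOver (S := 𝓞 K)
  exact ⟨P, ⟨hP1, hP2⟩, isPrincipal_of_primitiveRoot_mod p q hpq K r hr1 hr2 A hA hA2 P⟩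

end Fermat.Agent.Kummer.PIDAux
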