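import Mathlib

set_option autoImplicit false

open NumberField Polynomial Ideal

namespace Fermat.Agent.Kummer

/-- A prime of the `m`-th cyclotomic field over the rational prime `q`, cut out by a monic
irreducible factor `Q` of the cyclotomic polynomial modulo `q` (Kummer-Dedekind), is principal as
soon as we have certificates `q = α β`, `Q(ζ) = α γ`, `α = q k + Q(ζ) δ`. -/
theorem exists_principal_prime_over (m q : ℕ) [NeZero m] [Fact q.Prime] (K : Type*) [Field K]
    [NumberField K] [IsCyclotomicExtension {m} ℚ K] {ζ : K} (hζ : IsPrimitiveRoot ζ m) (Q : ℤ[X])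
    (hQmonic : (Q.map (Int.castRingHom (ZMod q))).Monic)
    (hQirr : Irreducible (Q.map (Int.castRingHom (ZMod q))))
    (hQdvd : Q.map (Int.castRingHom (ZMod q)) ∣ cyclotomic m (ZMod q))
    (α β γ k δ : 𝓞 K)
    (h1 : α * β = (q : 𝓞 K))
    (h2 : aeval hζ.toInteger Q = α * γ)
    (h3 : α = (q : 𝓞 K) * k + aeval hζ.toInteger Q * δ) :
    ∃ P ∈ primesOver (span {(q : ℤ)}) (𝓞 K), Submodule.IsPrincipal P := by
  have h₁ : ¬ q ∣ RingOfIntegers.exponent hζ.toInteger := by
    rw [RingOfIntegers.exponent_eq_one_iff.mpr <|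
      IsCyclotomicExtension.Rat.adjoin_singleton_eq_top hζ]
    exact (Fact.out : q.Prime).not_dvd_one
  have hmin : minpoly ℤ hζ.toInteger = cyclotomic m ℤ := by
    rw [cyclotomic_eq_minpoly hζ (NeZero.pos _)]
    have h := RingOfIntegers.minpoly_coe hζ.toInteger
    exact h.symm.trans (congrArg (minpoly ℤ) hζ.coe_toInteger)
  have hQ : Q.map (Int.castRingHom (ZMod q)) ∈ RingOfIntegers.monicFactorsMod hζ.toInteger q := by
    rw [Multiset.mem_toFinset, Polynomial.mem_normalizedFactors_iff
      (map_monic_ne_zero (minpoly.monic hζ.toInteger.isIntegral))]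
    refine ⟨hQirr, hQmonic, ?_⟩
    rw [hmin, map_cyclotomic_int]
    exact hQdvd
  refine ⟨span {(q : 𝓞 K), aeval hζ.toInteger Q}, ?_, ?_⟩
  · rw [← NumberField.Ideal.primesOverSpanEquivMonicFactorsMod_symm_apply_eq_span h₁ hQ]
    exact ((NumberField.Ideal.primesOverSpanEquivMonicFactorsMod h₁).symm ⟨_, hQ⟩).prop
  · have hspan : span {(q : 𝓞 K), aeval hζ.toInteger Q} = span {α} := by
      apply le_antisymm
      · rw [span_le]
        intro x hx
        rcases hx with rfl | rfl
        · exact mem_span_singleton.mpr ⟨β, h1.symm⟩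
        · exact mem_span_singleton.mpr ⟨γ, h2⟩
      · rw [span_singleton_le_iff_mem]
        rw [h3]
        exact add_mem (mul_mem_right _ _ (subset_span (by simp)))
          (mul_mem_right _ _ (subset_span (by simp)))
    rw [hspan]
    exact ⟨⟨α, rfl⟩⟩

/-- Degree-one version: `Q = X - r` with `r` a root of the cyclotomic polynomial modulo `q`. -/
theorem exists_principal_prime_over_linear (m q : ℕ) [NeZero m] [Fact q.Prime] (K : Type*)
    [Field K] [NumberField K] [IsCyclotomicExtension {m} ℚ K] {ζ : K} (hζ : IsPrimitiveRoot ζ m)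
    (r : ℤ) (hr : (cyclotomic m (ZMod q)).eval (r : ZMod q) = 0)
    (α β γ k δ : 𝓞 K)
    (h1 : α * β = (q : 𝓞 K))
    (h2 : hζ.toInteger - (r : 𝓞 K) = α * γ)
    (h3 : α = (q : 𝓞 K) * k + (hζ.toInteger - (r : 𝓞 K)) * δ) :
    ∃ P ∈ primesOver (span {(q : ℤ)}) (𝓞 K), Submodule.IsPrincipal P := by
  have hmap : (X - C r : ℤ[X]).map (Int.castRingHom (ZMod q)) = X - C (r : ZMod q) := by
    simp
  have haeval : aeval hζ.toInteger (X - C r : ℤ[X]) = hζ.toInteger - (r : 𝓞 K) := by
    simp
  refine exists_principal_prime_over m q K hζ (X - C r) ?_ ?_ ?_ α β γ k δ h1 ?_ ?_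
  · rw [hmap]; exact monic_X_sub_C _
  · rw [hmap]; exact irreducible_X_sub_C _
  · rw [hmap, dvd_iff_isRoot]; exact hr
  · rw [haeval]; exact h2
  · rw [haeval]; exact h3

end Fermat.Agent.Kummer
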