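import Mathlib
import Fermat.Agent.Kummer.GalUnits

/-!
Kummer project, package K7: units of a cyclic extension of odd prime degree.
Main statement: `exists_units_subgroup`.
-/

set_option autoImplicit false
set_option linter.unusedSectionVars false

namespace Fermat.Agent.Kummer

open Finset NumberField NumberField.InfinitePlace NumberField.Units


/-- Nonnegative left null vectors of a matrix with negative off-diagonal entries are either
strictly positive or zero. -/
theorem signLemma_nonneg {ι : Type*} [Fintype ι] (a : ι → ι → ℝ)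
    (hneg : ∀ i j, i ≠ j → a i j < 0)
    (n : ι → ℝ) (hn : ∀ j, ∑ i, n i * a i j = 0) (h0 : ∀ i, 0 ≤ n i) :
    (∀ i, 0 < n i) ∨ (∀ i, n i = 0) := by
  classical
  by_cases h : ∀ i, 0 < n i
  · exact Or.inl h
  · right
    push Not at h
    obtain ⟨k, hk⟩ := h
    have hk0 : n k = 0 := le_antisymm hk (h0 k)
    have hsum := hn k
    have hterm : ∀ i ∈ (univ : Finset ι), n i * a i k ≤ 0 := by
      intro i _
      by_cases hik : i = k
      · subst hik; rw [hk0, zero_mul]
      · exact mul_nonpos_of_nonneg_of_nonpos (h0 i) (hneg i k hik).le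
    have hall := (Finset.sum_eq_zero_iff_of_nonpos hterm).mp hsum
    intro i
    by_cases hik : i = k
    · subst hik; exact hk0
    · have := hall i (mem_univ i)
      rcases mul_eq_zero.mp this with h1 | h1
      · exact h1
      · exact absurd h1 (hneg i k hik).ne

/-- Sign lemma: a left null vector of a real matrix with negative off-diagonal entries and zero
row sums has all entries positive, or all negative, or all zero. -/
theorem signLemma {ι : Type*} [Fintype ι] (a : ι → ι → ℝ)
    (hneg : ∀ i j, i ≠ j → a i j < 0) (hrow : ∀ i, ∑ j, a i j = 0)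
    (n : ι → ℝ) (hn : ∀ j, ∑ i, n i * a i j = 0) :
    (∀ i, 0 < n i) ∨ (∀ i, n i < 0) ∨ (∀ i, n i = 0) := by
  classical
  by_cases hpos : ∃ i, 0 < n i
  · by_cases hnegv : ∃ i, n i < 0
    · exfalso
      obtain ⟨ip, hip⟩ := hpos
      obtain ⟨im, him⟩ := hnegv
      set P : Finset ι := univ.filter (fun i => 0 < n i) with hP
      have hT : ∑ j ∈ P, ∑ i, n i * a i j = 0 := Finset.sum_eq_zero (fun j _ => hn j)
      rw [Finset.sum_comm] at hT
      have hT' : ∑ i, n i * ∑ j ∈ P, a i j = 0 := by
        rw [← hT]; exact Finset.sum_congr rfl (fun i _ => Finset.mul_sum _ _ _)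
      have hnonneg : ∀ i ∈ (univ : Finset ι), 0 ≤ n i * ∑ j ∈ P, a i j := by
        intro i _
        by_cases hi : 0 < n i
        · have hsplit : ∑ j ∈ P, a i j + ∑ j ∈ Pᶜ, a i j = 0 := by
            rw [Finset.sum_add_sum_compl]; exact hrow i
          have hc : ∑ j ∈ Pᶜ, a i j ≤ 0 := by
            apply Finset.sum_nonpos
            intro j hj
            have hj' : ¬ 0 < n j := by simpa [hP] using hj
            have hij : i ≠ j := by rintro rfl; exact hj' hi
            exact (hneg i j hij).le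
          have : 0 ≤ ∑ j ∈ P, a i j := by linarith
          exact mul_nonneg hi.le this
        · have hi' : n i ≤ 0 := not_lt.mp hi
          have hc : ∑ j ∈ P, a i j ≤ 0 := by
            apply Finset.sum_nonpos
            intro j hj
            have hj' : 0 < n j := by simpa [hP] using hj
            have hij : i ≠ j := by rintro rfl; exact hi hj'
            exact (hneg i j hij).le
          exact mul_nonneg_of_nonpos_of_nonpos hi' hc
      have hall := (Finset.sum_eq_zero_iff_of_nonneg hnonneg).mp hT'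
      have hipz := hall ip (mem_univ ip)
      have hsplit : ∑ j ∈ P, a ip j + ∑ j ∈ Pᶜ, a ip j = 0 := by
        rw [Finset.sum_add_sum_compl]; exact hrow ip
      have hc : ∑ j ∈ Pᶜ, a ip j < 0 := by
        apply Finset.sum_neg
        · intro j hj
          have hj' : ¬ 0 < n j := by simpa [hP] using hj
          have hij : ip ≠ j := by rintro rfl; exact hj' hip
          exact hneg ip j hij
        · refine ⟨im, ?_⟩
          simp [hP, him.le]
      have : 0 < ∑ j ∈ P, a ip j := by linarith
      have := mul_pos hip this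
      linarith
    · push Not at hnegv
      rcases signLemma_nonneg a hneg n hn hnegv with h | h
      · exact Or.inl h
      · exact Or.inr (Or.inr h)
  · push Not at hpos
    have hn' : ∀ j, ∑ i, (-n i) * a i j = 0 := by
      intro j
      have := hn j
      simp only [neg_mul, Finset.sum_neg_distrib, this, neg_zero]
    rcases signLemma_nonneg a hneg (fun i => -n i) hn' (fun i => by simpa using hpos i) with h | h
    · exact Or.inr (Or.inl (fun i => by simpa using h i))
    · exact Or.inr (Or.inr (fun i => by simpa using h i))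


section core

variable {G E ι : Type*} [Group G] [Fintype G] [CommGroup E] [Fintype ι] [MulAction G ι]

/-- The product of the powers of a family with exponent vector `f`. -/
noncomputable def relProd (u : ι → E) (f : ι → ℤ) : E := ∏ w, u w ^ f w

omit [Group G] [Fintype G] [MulAction G ι] in
theorem relProd_zero (u : ι → E) : relProd u 0 = 1 := by
  simp [relProd]

omit [Group G] [Fintype G] [MulAction G ι] in
theorem relProd_add (u : ι → E) (f g : ι → ℤ) :
    relProd u (f + g) = relProd u f * relProd u g := by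
  simp [relProd, zpow_add, Finset.prod_mul_distrib]

omit [Group G] [Fintype G] [MulAction G ι] in
theorem relProd_neg (u : ι → E) (f : ι → ℤ) : relProd u (-f) = (relProd u f)⁻¹ := by
  simp [relProd, zpow_neg, Finset.prod_inv_distrib]

omit [Group G] [Fintype G] [MulAction G ι] in
theorem relProd_sub (u : ι → E) (f g : ι → ℤ) :
    relProd u (f - g) = relProd u f / relProd u g := by
  rw [sub_eq_add_neg, relProd_add, relProd_neg, div_eq_mul_inv]

omit [Group G] [Fintype G] [MulAction G ι] in
theorem relProd_finset_sum {κ : Type*} (u : ι → E) (s : Finset κ) (F : κ → ι → ℤ) :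
    relProd u (∑ k ∈ s, F k) = ∏ k ∈ s, relProd u (F k) := by
  classical
  induction s using Finset.induction_on with
  | empty => simp [relProd_zero]
  | insert a s ha ih => rw [Finset.sum_insert ha, Finset.prod_insert ha, relProd_add, ih]

/-- The action of the group on exponent vectors. -/
def shiftExp (τ : G) (f : ι → ℤ) : ι → ℤ := fun w => f (τ⁻¹ • w)

omit [Fintype G] in
theorem relProd_shiftExp (act : G → E →* E) (u : ι → E)
    (hu : ∀ τ w, u (τ • w) = act τ (u w)) (τ : G) (f : ι → ℤ) :
    relProd u (shiftExp τ f) = act τ (relProd u f) := by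
  unfold relProd shiftExp
  rw [map_prod]
  refine Fintype.prod_equiv (MulAction.toPerm τ⁻¹) _ _ (fun w => ?_)
  rw [map_zpow, ← hu]
  simp [MulAction.toPerm_apply]

omit [Fintype G] in
theorem sum_shiftExp (τ : G) (f : ι → ℤ) : ∑ w, shiftExp τ f w = ∑ w, f w := by
  unfold shiftExp
  exact Fintype.sum_equiv (MulAction.toPerm τ⁻¹) _ _ (fun w => rfl)

theorem relProd_sum_shiftExp (act : G → E →* E) (u : ι → E)
    (hu : ∀ τ w, u (τ • w) = act τ (u w)) (f : ι → ℤ) :
    relProd u (∑ τ : G, shiftExp τ f) = ∏ τ : G, act τ (relProd u f) := by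
  rw [relProd_finset_sum]
  exact Finset.prod_congr rfl (fun τ _ => relProd_shiftExp act u hu τ f)

theorem sum_sum_shiftExp (f : ι → ℤ) :
    ∑ w, (∑ τ : G, shiftExp τ f) w = (Fintype.card G : ℤ) * ∑ w, f w := by
  simp only [Finset.sum_apply]
  rw [Finset.sum_comm]
  simp only [sum_shiftExp]
  simp

omit [Fintype ι] in
/-- For a free action there is an integer valued function summing to one on each orbit. -/
theorem exists_orbit_section (hfree : ∀ τ : G, ∀ w : ι, τ • w = w → τ = 1) :
    ∃ s : ι → ℤ, ∀ w, ∑ τ : G, s (τ⁻¹ • w) = 1 := by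
  classical
  let rep : ι → ι := fun w => (Quotient.mk (MulAction.orbitRel G ι) w).out
  have hrep_mem : ∀ w, ∃ τ : G, τ • w = rep w := by
    intro w
    have h : (MulAction.orbitRel G ι) (rep w) w := Quotient.mk_out (s := MulAction.orbitRel G ι) w
    rw [MulAction.orbitRel_apply] at h
    exact MulAction.mem_orbit_iff.mp h
  have hrep_smul : ∀ (τ : G) (w : ι), rep (τ • w) = rep w := by
    intro τ w
    have : Quotient.mk (MulAction.orbitRel G ι) (τ • w) = Quotient.mk (MulAction.orbitRel G ι) w := by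
      apply Quotient.sound
      change (MulAction.orbitRel G ι) (τ • w) w
      rw [MulAction.orbitRel_apply]
      exact MulAction.mem_orbit w τ
    simp only [rep, this]
  refine ⟨fun w => if rep w = w then 1 else 0, fun w => ?_⟩
  obtain ⟨τ₀, hτ₀⟩ := hrep_mem w
  rw [Finset.sum_eq_single τ₀⁻¹]
  · show (if rep (τ₀⁻¹⁻¹ • w) = τ₀⁻¹⁻¹ • w then (1 : ℤ) else 0) = 1
    rw [inv_inv, hrep_smul, hτ₀, if_pos rfl]
  · intro τ _ hτ
    show (if rep (τ⁻¹ • w) = τ⁻¹ • w then (1 : ℤ) else 0) = 0
    rw [if_neg]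
    intro h
    apply hτ
    rw [hrep_smul, ← hτ₀] at h
    have h2 : (τ * τ₀) • w = w := by
      rw [mul_smul, h, smul_inv_smul]
    have h3 := hfree _ _ h2
    exact eq_inv_of_mul_eq_one_left h3
  · intro h; exact absurd (mem_univ _) h

omit [Fintype ι] in
theorem sum_shiftExp_mul_section (f s : ι → ℤ) (hf : ∀ (τ : G) (w : ι), f (τ⁻¹ • w) = f w)
    (hs : ∀ w, ∑ τ : G, s (τ⁻¹ • w) = 1) :
    ∑ τ : G, shiftExp τ (fun w => f w * s w) = f := by
  funext w
  simp only [Finset.sum_apply, shiftExp, hf]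
  rw [← Finset.mul_sum, hs, mul_one]

/-- Abstract core of Hilbert's Theorem 92. -/
theorem units_core (act : G → E →* E) (u : ι → E) (hu : ∀ τ w, u (τ • w) = act τ (u w))
    (hfree : ∀ τ : G, ∀ w : ι, τ • w = w → τ = 1) (hcard : 2 ≤ Fintype.card G)
    (σ : G) (hσ : ∀ τ : G, τ ∈ Subgroup.zpowers σ)
    (hA : ∀ r : ι → ℤ, ∏ w, u w ^ r w = 1 → ∑ w, r w = 0 → r = 0)
    (hB : ∃ r : ι → ℤ, r ≠ 0 ∧ ∏ w, u w ^ r w = 1) :
    ∃ B : Subgroup E, (∀ w, u w ∈ B) ∧ (∀ τ, ∀ x ∈ B, act τ x ∈ B) ∧
      (∀ x ∈ B, act σ x = x → ∃ y ∈ B, ∏ τ, act τ y = x) ∧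
      ∃ y₀ ∈ B, ∏ τ, act τ y₀ = 1 ∧ ∀ y ∈ B, y₀ ≠ y / act σ y := by
  classical
  obtain ⟨s, hs⟩ := exists_orbit_section (G := G) (ι := ι) hfree
  have hA' : ∀ r : ι → ℤ, relProd u r = 1 → ∑ w, r w = 0 → r = 0 := hA
  -- invariance under `σ` implies invariance under the whole group
  have hinv : ∀ f : ι → ℤ, shiftExp σ f = f → ∀ (τ : G) (w : ι), f (τ⁻¹ • w) = f w := by
    intro f hf
    let H : Subgroup G :=
      { carrier := {τ | ∀ w, f (τ⁻¹ • w) = f w}
        one_mem' := by intro w; simp
        mul_mem' := by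
          intro a b ha hb w
          rw [mul_inv_rev, mul_smul, hb, ha]
        inv_mem' := by
          intro a ha w
          have := ha (a • w)
          rw [inv_smul_smul] at this
          rw [inv_inv]; exact this.symm }
    have hσH : σ ∈ H := fun w => congrFun hf w
    intro τ
    have : τ ∈ H := (Subgroup.zpowers_le.mpr hσH) (hσ τ)
    exact this
  -- a relation whose shift has the same product is invariant
  have hfix : ∀ (τ : G) (f : ι → ℤ), relProd u (shiftExp τ f) = relProd u f →
      shiftExp τ f = f := by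
    intro τ f h
    have h1 : relProd u (shiftExp τ f - f) = 1 := by
      rw [relProd_sub, h, div_self']
    have h2 : ∑ w, (shiftExp τ f - f) w = 0 := by
      simp only [Pi.sub_apply, Finset.sum_sub_distrib, sum_shiftExp, sub_self]
    have := hA' _ h1 h2
    exact sub_eq_zero.mp this
  let B : Subgroup E :=
    { carrier := {x | ∃ f : ι → ℤ, relProd u f = x}
      one_mem' := ⟨0, relProd_zero u⟩
      mul_mem' := by
        rintro _ _ ⟨f, rfl⟩ ⟨g, rfl⟩
        exact ⟨f + g, relProd_add u f g⟩
      inv_mem' := by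
        rintro _ ⟨f, rfl⟩
        exact ⟨-f, relProd_neg u f⟩ }
  have hBmem : ∀ x, x ∈ B ↔ ∃ f : ι → ℤ, relProd u f = x := fun x => Iff.rfl
  refine ⟨B, ?_, ?_, ?_, ?_⟩
  · intro w
    refine ⟨Pi.single w 1, ?_⟩
    unfold relProd
    rw [Finset.prod_eq_single w]
    · simp
    · intro b _ hb; simp [hb]
    · intro h; exact absurd (mem_univ _) h
  · rintro τ _ ⟨f, rfl⟩
    exact ⟨shiftExp τ f, relProd_shiftExp act u hu τ f⟩
  · rintro _ ⟨f, rfl⟩ hx
    have hf : shiftExp σ f = f := hfix σ f (by rw [relProd_shiftExp act u hu, hx])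
    have hf' := hinv f hf
    refine ⟨relProd u (fun w => f w * s w), ⟨_, rfl⟩, ?_⟩
    rw [← relProd_sum_shiftExp act u hu, sum_shiftExp_mul_section f s hf' hs]
  · -- a minimal positive relation
    obtain ⟨r, hr0, hr1⟩ := hB
    have hSr : ∑ w, r w ≠ 0 := fun h => hr0 (hA' r hr1 h)
    let P : ℕ → Prop := fun m => 0 < m ∧ ∃ ρ : ι → ℤ, relProd u ρ = 1 ∧ ∑ w, ρ w = (m : ℤ)
    have hP : ∃ m, P m := by
      rcases lt_or_gt_of_ne hSr with h | h
      · refine ⟨(-∑ w, r w).toNat, ?_, -r, ?_, ?_⟩
        · omega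
        · rw [relProd_neg]; simp [show relProd u r = 1 from hr1]
        · simp only [Pi.neg_apply, Finset.sum_neg_distrib]; omega
      · refine ⟨(∑ w, r w).toNat, ?_, r, hr1, ?_⟩
        · omega
        · omega
    obtain ⟨hm₀pos, ρ, hρ1, hρS⟩ := Nat.find_spec hP
    have hmin : ∀ m, m < Nat.find hP → ¬ P m := fun m hm => Nat.find_min hP hm
    set m₀ := Nat.find hP with hm₀
    have hρinv : ∀ (τ : G) (w : ι), ρ (τ⁻¹ • w) = ρ w := by
      intro τ w
      have := hfix τ ρ (by rw [relProd_shiftExp act u hu, hρ1, map_one])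
      exact congrFun this w
    set c : ι → ℤ := fun w => ρ w * s w with hc
    have hNc : ∑ τ : G, shiftExp τ c = ρ := sum_shiftExp_mul_section ρ s hρinv hs
    have hSc : (Fintype.card G : ℤ) * ∑ w, c w = (m₀ : ℤ) := by
      rw [← sum_sum_shiftExp, hNc, hρS]
    have hcardpos : (2 : ℤ) ≤ (Fintype.card G : ℤ) := by exact_mod_cast hcard
    have hScpos : 0 < ∑ w, c w := by
      have h0 : (0 : ℤ) < (m₀ : ℤ) := by exact_mod_cast hm₀pos
      rw [← hSc] at h0
      exact (mul_pos_iff_of_pos_left (by linarith)).mp h0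
    have hSclt : ∑ w, c w < (m₀ : ℤ) := by
      rw [← hSc]
      nlinarith
    refine ⟨relProd u c, ⟨c, rfl⟩, ?_, ?_⟩
    · rw [← relProd_sum_shiftExp act u hu, hNc, hρ1]
    · rintro _ ⟨f, rfl⟩ hy
      rw [← relProd_shiftExp act u hu, ← relProd_sub] at hy
      have h1 : relProd u (c - (f - shiftExp σ f)) = 1 := by
        rw [relProd_sub, ← hy, div_self']
      have h2 : ∑ w, (c - (f - shiftExp σ f)) w = ∑ w, c w := by
        simp only [Pi.sub_apply, Finset.sum_sub_distrib, sum_shiftExp, sub_self, sub_zero]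
      refine hmin (∑ w, c w).toNat ?_ ⟨?_, c - (f - shiftExp σ f), h1, ?_⟩
      · omega
      · omega
      · rw [h2]; omega

end core


section numberfield

variable {K L : Type*} [Field K] [Field L] [NumberField K] [NumberField L] [Algebra K L]

/-- The logarithm of a unit at an infinite place, as an additive homomorphism. -/
noncomputable def logAt (w : InfinitePlace L) : Additive (𝓞 L)ˣ →+ ℝ where
  toFun x := Real.log (w ((x.toMul : 𝓞 L) : L))
  map_zero' := by simp
  map_add' x y := by
    simp only [toMul_add, Units.val_mul, map_mul]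
    exact Real.log_mul (Units.pos_at_place _ _).ne' (Units.pos_at_place _ _).ne'

omit [NumberField K] [Algebra K L] in
theorem logAt_apply (w : InfinitePlace L) (x : (𝓞 L)ˣ) :
    logAt w (Additive.ofMul x) = Real.log (w ((x : 𝓞 L) : L)) := rfl

theorem logAt_relProd {ι : Type*} [Fintype ι] (w : InfinitePlace L) (u : ι → (𝓞 L)ˣ)
    (r : ι → ℤ) :
    Real.log (w (((∏ i, u i ^ r i : (𝓞 L)ˣ) : 𝓞 L) : L)) =
      ∑ i, (r i : ℝ) * Real.log (w ((u i : 𝓞 L) : L)) := by
  rw [← logAt_apply, ofMul_prod, map_sum]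
  refine Finset.sum_congr rfl (fun i _ => ?_)
  rw [ofMul_zpow, map_zsmul, logAt_apply, zsmul_eq_mul]

variable (K) in
/-- Symmetrised Dirichlet units: an equivariant family of units indexed by the infinite places. -/
noncomputable def symUnit (w : InfinitePlace L) : (𝓞 L)ˣ :=
  ∏ τ : L ≃ₐ[K] L, galU τ ((dirichletUnitTheorem.exists_unit L (τ⁻¹ • w)).choose)

theorem symUnit_smul (σ : L ≃ₐ[K] L) (w : InfinitePlace L) :
    symUnit K (σ • w) = galU σ (symUnit K w) := by
  unfold symUnit
  rw [map_prod]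
  symm
  refine Fintype.prod_equiv (Equiv.mulLeft σ) _ _ (fun τ => ?_)
  rw [← galU_mul]
  simp only [Equiv.coe_mulLeft, mul_inv_rev, mul_smul, inv_smul_smul]

theorem log_symUnit_neg (w w' : InfinitePlace L) (h : w' ≠ w) :
    Real.log (w' ((symUnit K w : 𝓞 L) : L)) < 0 := by
  have hcoe : (((symUnit K w : (𝓞 L)ˣ) : 𝓞 L) : L) =
      ∏ τ : L ≃ₐ[K] L,
        τ ((((dirichletUnitTheorem.exists_unit L (τ⁻¹ • w)).choose : (𝓞 L)ˣ) : 𝓞 L) : L) := by
    unfold symUnit
    simp only [Units.coe_prod, map_prod]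
    rfl
  rw [hcoe, map_prod, Real.log_prod]
  · apply Finset.sum_neg
    · intro τ _
      have hne : τ⁻¹ • w' ≠ τ⁻¹ • w := fun h' => h (smul_left_cancel _ h')
      have := (dirichletUnitTheorem.exists_unit L (τ⁻¹ • w)).choose_spec (τ⁻¹ • w') hne
      rw [InfinitePlace.smul_apply, AlgEquiv.aut_inv, AlgEquiv.symm_symm] at this
      exact this
    · exact Finset.univ_nonempty
  · intro τ _
    rw [ne_eq, map_eq_zero, map_eq_zero]
    exact Units.coe_ne_zero _


/-- Sign pattern of the relations among the symmetrised units. -/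
theorem symUnit_rel_sign (r : InfinitePlace L → ℤ) (hr : ∏ w, symUnit K w ^ r w = 1) :
    (∀ w, 0 < r w) ∨ (∀ w, r w < 0) ∨ (∀ w, r w = 0) := by
  classical
  have key := signLemma
    (fun w w' : InfinitePlace L =>
      (mult w' : ℝ) * Real.log (w' ((symUnit K w : 𝓞 L) : L)))
    (fun w w' hww' => mul_neg_of_pos_of_neg (by exact_mod_cast mult_pos)
      (log_symUnit_neg w w' (Ne.symm hww')))
    (fun w => Units.sum_mult_mul_log (symUnit K w))
    (fun w => (r w : ℝ))
    (fun w' => by
      have h := logAt_relProd w' (symUnit K) r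
      rw [hr] at h
      simp only [Units.val_one, map_one, Real.log_one] at h
      calc ∑ w, (r w : ℝ) * ((mult w' : ℝ) * Real.log (w' ((symUnit K w : 𝓞 L) : L)))
          = (mult w' : ℝ) * ∑ w, (r w : ℝ) * Real.log (w' ((symUnit K w : 𝓞 L) : L)) := by
            rw [Finset.mul_sum]
            exact Finset.sum_congr rfl (fun w _ => by ring)
        _ = 0 := by rw [← h, mul_zero])
  rcases key with h | h | h
  · left; intro w; exact_mod_cast h w
  · right; left; intro w; exact_mod_cast h w
  · right; right; intro w; exact_mod_cast h w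

theorem symUnit_rel_sum_zero (r : InfinitePlace L → ℤ) (hr : ∏ w, symUnit K w ^ r w = 1)
    (hsum : ∑ w, r w = 0) : r = 0 := by
  rcases symUnit_rel_sign r hr with h | h | h
  · exfalso
    have : 0 < ∑ w, r w := Finset.sum_pos (fun w _ => h w) Finset.univ_nonempty
    omega
  · exfalso
    have : ∑ w, r w < 0 := Finset.sum_neg (fun w _ => h w) Finset.univ_nonempty
    omega
  · funext w; exact h w

theorem not_linearIndependent_units (v : InfinitePlace L → (𝓞 L)ˣ) :
    ∃ g : InfinitePlace L → ℤ, (∃ i, g i ≠ 0) ∧ ∏ w, v w ^ g w = 1 := by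
  classical
  have hnli : ¬ LinearIndependent ℤ (fun w : InfinitePlace L => Additive.ofMul (v w)) := by
    intro hli
    have h1 := hli.fintype_card_le_finrank
    rw [Units.finrank_eq, Units.rank] at h1
    have : 0 < Fintype.card (InfinitePlace L) := Fintype.card_pos
    omega
  rw [Fintype.not_linearIndependent_iff] at hnli
  obtain ⟨g, hg, hi⟩ := hnli
  refine ⟨g, hi, ?_⟩
  have h2 : Additive.ofMul (∏ w, v w ^ g w) = 0 := by
    rw [ofMul_prod]
    simpa [ofMul_zpow] using hg
  exact ofMul_eq_zero.mp h2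

theorem exists_symUnit_rel :
    ∃ r : InfinitePlace L → ℤ, r ≠ 0 ∧ ∏ w, symUnit K w ^ r w = 1 := by
  obtain ⟨g, ⟨i, hi⟩, hg⟩ := not_linearIndependent_units (symUnit K (L := L))
  exact ⟨g, fun h => hi (by rw [h]; rfl), hg⟩

theorem finiteIndex_of_symUnit_mem (B : Subgroup (𝓞 L)ˣ) (hB : ∀ w, symUnit K w ∈ B) :
    B.FiniteIndex := by
  classical
  have htors : ∀ x : (𝓞 L)ˣ, ∃ m : ℤ, m ≠ 0 ∧ x ^ m ∈ B := by
    intro x
    obtain ⟨w₀⟩ : Nonempty (InfinitePlace L) := inferInstance
    obtain ⟨g, ⟨i, hi⟩, hprod⟩ :=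
      not_linearIndependent_units (Function.update (symUnit K (L := L)) w₀ x)
    have hsplit : ∏ w, (Function.update (symUnit K (L := L)) w₀ x w) ^ g w =
        x ^ g w₀ * ∏ w ∈ univ.erase w₀, symUnit K w ^ g w := by
      rw [← Finset.mul_prod_erase univ _ (mem_univ w₀)]
      congr 1
      · simp
      · refine Finset.prod_congr rfl (fun w hw => ?_)
        rw [Function.update_of_ne (Finset.ne_of_mem_erase hw)]
    refine ⟨g w₀, ?_, ?_⟩
    · intro h0
      have hrel : ∏ w, symUnit K w ^ g w = 1 := by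
        rw [← hprod]
        refine Finset.prod_congr rfl (fun w _ => ?_)
        by_cases hw : w = w₀
        · subst hw; simp [h0]
        · rw [Function.update_of_ne hw]
      rcases symUnit_rel_sign g hrel with h | h | h
      · exact absurd h0 (h w₀).ne'
      · exact absurd h0 (h w₀).ne
      · exact hi (h i)
    · have h1 : x ^ g w₀ = (∏ w ∈ univ.erase w₀, symUnit K w ^ g w)⁻¹ :=
        eq_inv_of_mul_eq_one_left (by rw [← hsplit, hprod])
      rw [h1]
      exact B.inv_mem (Subgroup.prod_mem _ (fun w _ => B.zpow_mem (hB w) _))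
  have : Group.FG (𝓞 L)ˣ := Group.fg_iff_monoid_fg.mpr inferInstance
  have : Finite ((𝓞 L)ˣ ⧸ B) := by
    apply CommGroup.finite_of_fg_isMulTorsion
    intro q
    induction q using QuotientGroup.induction_on with
    | H x =>
      obtain ⟨m, hm0, hm⟩ := htors x
      have hnat : x ^ m.natAbs ∈ B := by
        rcases Int.natAbs_eq m with h | h
        · rw [← zpow_natCast, ← h]; exact hm
        · have h3 : x ^ (m.natAbs : ℤ) = (x ^ m)⁻¹ := by
            rw [← zpow_neg]; congr 1; omega
          rw [← zpow_natCast, h3]; exact B.inv_mem hm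
      refine isOfFinOrder_iff_pow_eq_one.mpr ⟨m.natAbs, Int.natAbs_pos.mpr hm0, ?_⟩
      rw [← QuotientGroup.mk_pow]
      exact (QuotientGroup.eq_one_iff _).mpr hnat
  exact Subgroup.finiteIndex_of_finite_quotient

/-- The Galois group of an extension of odd prime degree acts freely on the infinite places. -/
theorem smul_infinitePlace_free [IsGalois K L] (p : ℕ) [Fact p.Prime] (hp : p ≠ 2)
    (hKL : Module.finrank K L = p) (τ : L ≃ₐ[K] L) (w : InfinitePlace L) (h : τ • w = w) :
    τ = 1 := by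
  have hcard : Nat.card (L ≃ₐ[K] L) = p := by rw [IsGalois.card_aut_eq_finrank, hKL]
  have hdvd : Nat.card (MulAction.stabilizer (L ≃ₐ[K] L) w) ∣ p := by
    rw [← hcard]; exact Subgroup.card_subgroup_dvd_card _
  have h1 : Nat.card (MulAction.stabilizer (L ≃ₐ[K] L) w) = 1 := by
    rcases InfinitePlace.nat_card_stabilizer_eq_one_or_two K w with h1 | h2
    · exact h1
    · exfalso
      rw [h2] at hdvd
      have hp' : p.Prime := Fact.out
      exact hp ((Nat.prime_dvd_prime_iff_eq Nat.prime_two hp').mp hdvd).symm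
  have hbot := Subgroup.card_eq_one.mp h1
  have hmem : τ ∈ MulAction.stabilizer (L ≃ₐ[K] L) w := MulAction.mem_stabilizer_iff.mpr h
  rw [hbot] at hmem
  exact Subgroup.mem_bot.mp hmem

/-- K7 main statement. -/
theorem exists_units_subgroup [IsGalois K L] (p : ℕ) [Fact p.Prime] (hp : p ≠ 2)
    (hKL : Module.finrank K L = p) (σ : L ≃ₐ[K] L)
    (hσ : ∀ τ : L ≃ₐ[K] L, τ ∈ Subgroup.zpowers σ) :
    ∃ B : Subgroup (𝓞 L)ˣ, B.FiniteIndex ∧
      (∀ τ : L ≃ₐ[K] L, ∀ x ∈ B, galU τ x ∈ B) ∧
      (∀ x ∈ B, galU σ x = x → ∃ y ∈ B, normU K y = x) ∧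
      ∃ y₀ ∈ B, normU K y₀ = 1 ∧ ∀ y ∈ B, y₀ ≠ y / galU σ y := by
  classical
  have hcard : Fintype.card (L ≃ₐ[K] L) = p := by
    rw [← Nat.card_eq_fintype_card, IsGalois.card_aut_eq_finrank, hKL]
  have hp' : p.Prime := Fact.out
  obtain ⟨B, hBu, hBstab, hBi, y₀, hy₀, hy₀N, hy₀Δ⟩ :=
    units_core (G := L ≃ₐ[K] L) (E := (𝓞 L)ˣ) (ι := InfinitePlace L)
      (fun τ => galU τ) (symUnit K) (fun τ w => symUnit_smul τ w)
      (fun τ w h => smul_infinitePlace_free p hp hKL τ w h)
      (by rw [hcard]; exact hp'.two_le) σ hσ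
      (fun r hr hsum => symUnit_rel_sum_zero r hr hsum)
      exists_symUnit_rel
  refine ⟨B, finiteIndex_of_symUnit_mem B hBu, hBstab, ?_, y₀, hy₀, ?_, hy₀Δ⟩
  · intro x hx hσx
    obtain ⟨y, hy, hyN⟩ := hBi x hx hσx
    exact ⟨y, hy, by rw [normU_apply]; exact hyN⟩
  · rw [normU_apply]; exact hy₀N

end numberfield

end Fermat.Agent.Kummer
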