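import Mathlib

/-!
# The unit group modulo `n`-th powers is small

For a number field `K` with unit rank `r`, the group `(𝓞 K)ˣ / ((𝓞 K)ˣ) ^ n` has at most
`n ^ (r + 1)` elements. For the `p`-th cyclotomic field (`p` an odd prime) and `n = p` this gives
the bound `p ^ ((p - 1) / 2)`.
-/

set_option autoImplicit false
set_option linter.style.haveILetI false

namespace Fermat.Agent.Kummer

open NumberField NumberField.Units

/-- In a group where every element is killed by `n`, integer powers only depend on the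
exponent modulo `n`. -/
theorem zpow_eq_pow_emod_toNat {Q : Type*} [Group Q] {n : ℕ} (hn : 0 < n) (z : Q)
    (hz : z ^ n = 1) (k : ℤ) : z ^ k = z ^ (k % (n : ℤ)).toNat := by
  have hn' : (n : ℤ) ≠ 0 := by exact_mod_cast hn.ne'
  have h1 : 0 ≤ k % (n : ℤ) := Int.emod_nonneg k hn'
  conv_lhs => rw [← Int.emod_add_mul_ediv k n]
  rw [zpow_add, zpow_mul, zpow_natCast, hz, one_zpow, mul_one, ← zpow_natCast,
    Int.toNat_of_nonneg h1]

/-- A surjection from a set with `n ^ (rank + 1)` elements onto the unit group of a number field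
modulo `n`-th powers. -/
theorem exists_surjective_units_quot_pow (K : Type*) [Field K] [NumberField K] (n : ℕ)
    (hn : 0 < n) :
    ∃ f : Fin n × (Fin (rank K) → Fin n) →
        (𝓞 K)ˣ ⧸ (powMonoidHom n : (𝓞 K)ˣ →* (𝓞 K)ˣ).range, Function.Surjective f := by
  classical
  haveI : NeZero n := ⟨hn.ne'⟩
  set H : Subgroup (𝓞 K)ˣ := (powMonoidHom n : (𝓞 K)ˣ →* (𝓞 K)ˣ).range with hH
  let π : (𝓞 K)ˣ →* (𝓞 K)ˣ ⧸ H := QuotientGroup.mk' H
  have hπ : ∀ z : (𝓞 K)ˣ ⧸ H, z ^ n = 1 := by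
    intro z
    obtain ⟨y, rfl⟩ := QuotientGroup.mk'_surjective H z
    rw [← map_pow]
    exact (QuotientGroup.eq_one_iff _).mpr ⟨y, rfl⟩
  obtain ⟨g, hg⟩ := IsCyclic.exists_generator (α := torsion K)
  refine ⟨fun ae => π (g : (𝓞 K)ˣ) ^ (ae.1 : ℕ) * ∏ i, π (fundSystem K i) ^ (ae.2 i : ℕ), ?_⟩
  intro z
  obtain ⟨x, rfl⟩ := QuotientGroup.mk'_surjective H z
  obtain ⟨⟨t, e⟩, hx, -⟩ := exist_unique_eq_mul_prod K x
  obtain ⟨k, hk⟩ := Subgroup.mem_zpowers_iff.mp (hg t)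
  have hlt : ∀ m : ℤ, (m % (n : ℤ)).toNat < n := by
    intro m
    have h1 : 0 ≤ m % (n : ℤ) := Int.emod_nonneg m (by exact_mod_cast hn.ne')
    have h2 : m % (n : ℤ) < n := Int.emod_lt_of_pos m (by exact_mod_cast hn)
    omega
  refine ⟨(⟨(k % (n : ℤ)).toNat, hlt k⟩, fun i => ⟨(e i % (n : ℤ)).toNat, hlt (e i)⟩), ?_⟩
  show π (g : (𝓞 K)ˣ) ^ (k % (n : ℤ)).toNat *
    ∏ i, π (fundSystem K i) ^ (e i % (n : ℤ)).toNat = π x
  have hx' : x = (g : (𝓞 K)ˣ) ^ k * ∏ i, fundSystem K i ^ e i := by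
    rw [hx]
    congr 1
    rw [← hk]
    simp
  rw [hx', map_mul, map_zpow, map_prod, zpow_eq_pow_emod_toNat hn _ (hπ _) k]
  congr 1
  refine Finset.prod_congr rfl fun i _ => ?_
  rw [map_zpow, zpow_eq_pow_emod_toNat hn _ (hπ _) (e i)]

/-- The unit group of a number field modulo `n`-th powers is finite. -/
theorem finite_units_quot_pow (K : Type*) [Field K] [NumberField K] (n : ℕ) (hn : 0 < n) :
    Finite ((𝓞 K)ˣ ⧸ (powMonoidHom n : (𝓞 K)ˣ →* (𝓞 K)ˣ).range) := by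
  haveI : NeZero n := ⟨hn.ne'⟩
  obtain ⟨f, hf⟩ := exists_surjective_units_quot_pow K n hn
  exact Finite.of_surjective f hf

/-- The unit group of a number field modulo `n`-th powers has at most `n ^ (rank + 1)`
elements. -/
theorem card_units_quot_pow_le (K : Type*) [Field K] [NumberField K] (n : ℕ) (hn : 0 < n) :
    Nat.card ((𝓞 K)ˣ ⧸ (powMonoidHom n : (𝓞 K)ˣ →* (𝓞 K)ˣ).range) ≤ n ^ (rank K + 1) := by
  haveI : NeZero n := ⟨hn.ne'⟩
  obtain ⟨f, hf⟩ := exists_surjective_units_quot_pow K n hn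
  calc Nat.card ((𝓞 K)ˣ ⧸ (powMonoidHom n : (𝓞 K)ˣ →* (𝓞 K)ˣ).range)
      ≤ Nat.card (Fin n × (Fin (rank K) → Fin n)) := Nat.card_le_card_of_surjective f hf
    _ = n ^ (rank K + 1) := by
        rw [Nat.card_prod, Nat.card_fun, Nat.card_eq_fintype_card, Nat.card_eq_fintype_card,
          Fintype.card_fin, Fintype.card_fin, pow_succ, mul_comm]

/-- For the `p`-th cyclotomic field (`p` an odd prime), the unit group modulo `p`-th powers has
at most `p ^ ((p - 1) / 2)` elements. -/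
theorem card_units_mod_pow_le {p : ℕ} [Fact p.Prime] (hp2 : p ≠ 2) {K : Type*} [Field K]
    [NumberField K] [IsCyclotomicExtension {p} ℚ K] :
    Nat.card ((𝓞 K)ˣ ⧸ (powMonoidHom p : (𝓞 K)ˣ →* (𝓞 K)ˣ).range) ≤ p ^ ((p - 1) / 2) := by
  have hpp : p.Prime := Fact.out
  haveI : NeZero p := ⟨hpp.ne_zero⟩
  have h2 : 2 < p := lt_of_le_of_ne hpp.two_le (Ne.symm hp2)
  have hrank : rank K + 1 = (p - 1) / 2 := by
    have h3 := InfinitePlace.card_eq_nrRealPlaces_add_nrComplexPlaces (K := K)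
    have h4 := IsCyclotomicExtension.Rat.nrRealPlaces_eq_zero (n := p) K h2
    have h5 := IsCyclotomicExtension.Rat.nrComplexPlaces_eq_totient_div_two p K
    rw [Nat.totient_prime hpp] at h5
    have h6 : 0 < Fintype.card (InfinitePlace K) := Fintype.card_pos
    rw [rank]
    omega
  rw [← hrank]
  exact card_units_quot_pow_le K p hpp.pos

/-- In the `p`-th cyclotomic field (`p` an odd prime), `(p - 1) / 2` units which are independent
modulo `p`-th powers generate the unit group modulo `p`-th powers. -/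
theorem units_mod_pow_generate {p : ℕ} [Fact p.Prime] (hp2 : p ≠ 2) {K : Type*} [Field K]
    [NumberField K] [IsCyclotomicExtension {p} ℚ K] (x : Fin ((p - 1) / 2) → (𝓞 K)ˣ)
    (hx : ∀ n : Fin ((p - 1) / 2) → ℤ, (∃ v : (𝓞 K)ˣ, ∏ i, x i ^ n i = v ^ p) → ∀ i, (p : ℤ) ∣ n i) :
    ∀ u : (𝓞 K)ˣ, ∃ (n : Fin ((p - 1) / 2) → ℤ) (v : (𝓞 K)ˣ), u = (∏ i, x i ^ n i) * v ^ p := by
  classical
  have hpp : p.Prime := Fact.out
  haveI : NeZero p := ⟨hpp.ne_zero⟩
  set H : Subgroup (𝓞 K)ˣ := (powMonoidHom p : (𝓞 K)ˣ →* (𝓞 K)ˣ).range with hH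
  haveI : Finite ((𝓞 K)ˣ ⧸ H) := finite_units_quot_pow K p hpp.pos
  let π : (𝓞 K)ˣ →* (𝓞 K)ˣ ⧸ H := QuotientGroup.mk' H
  let F : (Fin ((p - 1) / 2) → ZMod p) → (𝓞 K)ˣ ⧸ H := fun n => π (∏ i, x i ^ (n i).val)
  have hinj : Function.Injective F := by
    intro n n' hnn'
    have h1 : π ((∏ i, x i ^ (n i).val) / (∏ i, x i ^ (n' i).val)) = 1 := by
      rw [map_div]
      exact div_eq_one.mpr hnn'
    have h2 : (∏ i, x i ^ (n i).val) / (∏ i, x i ^ (n' i).val) =
        ∏ i, x i ^ (((n i).val : ℤ) - ((n' i).val : ℤ)) := by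
      rw [← Finset.prod_div_distrib]
      refine Finset.prod_congr rfl fun i _ => ?_
      rw [zpow_sub, zpow_natCast, zpow_natCast, div_eq_mul_inv]
    rw [h2] at h1
    obtain ⟨v, hv⟩ := (QuotientGroup.eq_one_iff _).mp h1
    have h3 := hx (fun i => ((n i).val : ℤ) - ((n' i).val : ℤ)) ⟨v, hv.symm⟩
    funext i
    have h4 := h3 i
    have h5 : (((n i).val : ℤ) : ZMod p) = (((n' i).val : ℤ) : ZMod p) :=
      (ZMod.intCast_eq_intCast_iff_dvd_sub _ _ p).mpr (by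
        have : ((n' i).val : ℤ) - ((n i).val : ℤ) = -(((n i).val : ℤ) - ((n' i).val : ℤ)) := by
          ring
        rw [this]
        exact (dvd_neg).mpr h4)
    simpa using h5
  have hcard : Nat.card ((𝓞 K)ˣ ⧸ H) ≤ Nat.card (Fin ((p - 1) / 2) → ZMod p) := by
    have h9 : Nat.card (Fin ((p - 1) / 2) → ZMod p) = p ^ ((p - 1) / 2) := by
      rw [Nat.card_fun, Nat.card_eq_fintype_card (α := ZMod p),
        Nat.card_eq_fintype_card (α := Fin ((p - 1) / 2)), Fintype.card_fin, ZMod.card]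
    rw [h9]
    exact card_units_mod_pow_le hp2
  have hbij : Function.Bijective F := hinj.bijective_of_nat_card_le hcard
  intro u
  obtain ⟨n, hn⟩ := hbij.2 (π u)
  have h6 : π ((∏ i, x i ^ (n i).val)⁻¹ * u) = 1 := by
    rw [map_mul, map_inv]
    exact inv_mul_eq_one.mpr hn
  obtain ⟨v, hv⟩ := (QuotientGroup.eq_one_iff _).mp h6
  refine ⟨fun i => ((n i).val : ℤ), v, ?_⟩
  have h7 : (∏ i, x i ^ (((n i).val : ℕ) : ℤ)) = ∏ i, x i ^ (n i).val :=
    Finset.prod_congr rfl fun i _ => zpow_natCast _ _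
  rw [h7]
  have h8 : v ^ p = (∏ i, x i ^ (n i).val)⁻¹ * u := hv
  rw [h8, mul_inv_cancel_left]

end Fermat.Agent.Kummer
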